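import Fermat.Agent.Lib.Frobenius
import Fermat.Agent.S55.E.Smooth
import Fermat.Agent.S55.E.Dual

/-!
# S55, layer D, inputs (U3), (U4)  (key `S55/D-U34`)

* (U3) `lc1_lvlS_of_inertia`, `lc2_lvlS_of_inertia`: a level constant function which is invariant under
  all inertia groups outside `S` is level constant for the `S`-levels.
* (U4) `exists_smul_eq`: the valuation subrings of `ℚ̄` over a prime are conjugate;
  `exists_conj_Iq`: every inertia group over `q` is a conjugate of `Iq q`.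
* `cycloChar_eq_one_of_inertia`, `smooth_lvlS_rhoT`, `smooth_lvlS_dualRho`.
-/

set_option autoImplicit false

open scoped Pointwise

namespace Fermat.Agent.S55.D

open Fermat.Agent.S55 ExtCitation

/-! ### (U3) -/

/-- `f` is invariant under all inertia groups outside `S` -/
def InertiaInv1 (S : Finset Nat.Primes) {X : Type*} (f : GQ → X) : Prop :=
  ∀ q : Nat.Primes, q ∉ S → ∀ A : ValuationSubring Qb, A.LiesOverPrime (q : ℕ) →
    ∀ i ∈ A.inertiaSubgroupIn ℚ, ∀ g, f (g * i) = f g

/-- `f` is invariant under all inertia groups outside `S`, in both variables -/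
def InertiaInv2 (S : Finset Nat.Primes) {X : Type*} (f : GQ → GQ → X) : Prop :=
  ∀ q : Nat.Primes, q ∉ S → ∀ A : ValuationSubring Qb, A.LiesOverPrime (q : ℕ) →
    ∀ i ∈ A.inertiaSubgroupIn ℚ, ∀ g h, f (g * i) h = f g h ∧ f g (h * i) = f g h

theorem lc1_lvlS_of_inertia {S : Finset Nat.Primes} {X : Type*} {f : GQ → X} (hf : LC1 lvlQ f)
    (hI : InertiaInv1 S f) : LC1 (lvlS S) f := by
  obtain ⟨_, ⟨F, hF, rfl⟩, h⟩ := hf
  let U : Subgroup GQ :=
    { carrier := {u | ∀ g, f (g * u) = f g}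
      mul_mem' := fun {a b} ha hb g => by rw [← mul_assoc, hb, ha]
      one_mem' := fun g => by rw [mul_one]
      inv_mem' := fun {a} ha g => by
        have := ha (g * a⁻¹)
        rw [inv_mul_cancel_right] at this
        exact this.symm }
  exact ⟨U, E.mem_lvlS_of_open S U F hF (fun u hu g => h g u hu)
    (fun q hq A hA i hi g => hI q hq A hA i hi g), fun g u hu => hu g⟩

theorem lc2_lvlS_of_inertia {S : Finset Nat.Primes} {X : Type*} {f : GQ → GQ → X}
    (hf : LC2 lvlQ f) (hI : InertiaInv2 S f) : LC2 (lvlS S) f := by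
  obtain ⟨_, ⟨F, hF, rfl⟩, h⟩ := hf
  let U : Subgroup GQ :=
    { carrier := {u | ∀ g h, f (g * u) h = f g h ∧ f g (h * u) = f g h}
      mul_mem' := fun {a b} ha hb g h => by
        rw [← mul_assoc, ← mul_assoc, (hb _ h).1, (ha g h).1, (hb g _).2, (ha g h).2]
        exact ⟨rfl, rfl⟩
      one_mem' := fun g h => by rw [mul_one, mul_one]; exact ⟨rfl, rfl⟩
      inv_mem' := fun {a} ha g h => by
        have h1 := (ha (g * a⁻¹) h).1
        have h2 := (ha g (h * a⁻¹)).2
        rw [inv_mul_cancel_right] at h1 h2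
        exact ⟨h1.symm, h2.symm⟩ }
  refine ⟨U, E.mem_lvlS_of_open S U F hF (fun u hu g k => ⟨?_, ?_⟩)
    (fun q hq A hA i hi g k => hI q hq A hA i hi g k), fun g k u hu u' hu' => ?_⟩
  · have := h g k u hu 1 (one_mem _)
    rwa [mul_one] at this
  · have := h g k 1 (one_mem _) u hu
    rwa [mul_one] at this
  · rw [(hu g _).1, (hu' g k).2]

/-! ### (U4) -/

local notation "Zbar" => integralClosure ℤ (AlgebraicClosure ℚ)

theorem le_of_primeOf_eq {A B : ValuationSubring Qb} {l : ℕ} (hl : l.Prime)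
    (hA : A.LiesOverPrime l) (h : Frob.primeOf A = Frob.primeOf B) : A ≤ B := by
  intro x hx
  obtain ⟨s, hs, hsx⟩ := Frob.exists_denominator A hl hA hx
  have hs' : (s : Qb) ∉ B.nonunits := by
    rw [← Frob.mem_primeOf, ← h, Frob.mem_primeOf]
    exact hs
  have h1 := Frob.valuation_eq_one B hs'
  have h2 : (s : Qb) * x ∈ B := Frob.mem_of_isIntegral B hsx
  rw [← ValuationSubring.valuation_le_one_iff] at h2 ⊢
  rwa [map_mul, h1, one_mul] at h2

theorem primeOf_smul (A : ValuationSubring Qb) (g : GQ) :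
    Frob.primeOf (g • A) = g • Frob.primeOf A := by
  ext b
  rw [Frob.mem_primeOf, Ideal.mem_pointwise_smul_iff_inv_smul_mem, Frob.mem_primeOf]
  have h := E.smul_mem_nonunits_iff A g (((g⁻¹ • b : Zbar) : Qb))
  have h2 : g (((g⁻¹ • b : Zbar) : Qb)) = (b : Qb) := by
    change g (g⁻¹ (b : Qb)) = (b : Qb)
    rw [← AlgEquiv.mul_apply, mul_inv_cancel, AlgEquiv.one_apply]
  rw [h2] at h
  exact h

theorem under_primeOf {A : ValuationSubring Qb} {l : ℕ} (hl : l.Prime) (hA : A.LiesOverPrime l) :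
    (Frob.primeOf A).under ℤ = Ideal.span {(l : ℤ)} := by
  ext n
  rw [Ideal.mem_span_singleton, Ideal.under_def, Ideal.mem_comap, Frob.mem_primeOf]
  have h0 : ((algebraMap ℤ Zbar n : Zbar) : Qb) = (n : Qb) := by simp
  rw [h0]
  constructor
  · intro h
    by_contra hn
    exact Frob.int_not_mem_nonunits A hl hA hn h
  · rintro ⟨m, rfl⟩
    have hm : (m : Qb) ∈ A := Frob.mem_of_isIntegral A
      (by simpa using (isIntegral_algebraMap (R := ℤ) (A := Qb) (x := m)))
    have := Frob.mul_mem_nonunits A hA hm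
    push_cast
    exact this

/-- **(U4)** the valuation subrings over a prime are conjugate -/
theorem exists_smul_eq {A B : ValuationSubring Qb} {l : ℕ} (hl : l.Prime)
    (hA : A.LiesOverPrime l) (hB : B.LiesOverPrime l) : ∃ g : GQ, g • A = B := by
  have := Frob.isGaloisQbar
  have := Frob.isAlgebraicQbar
  have := Frob.isInvariant
  have hP := Frob.primeOf_isPrime A
  have hQ := Frob.primeOf_isPrime B
  let _ : TopologicalSpace Zbar := ⊥
  have : DiscreteTopology Zbar := ⟨rfl⟩
  have := Frob.continuousSMul_Zbar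
  obtain ⟨g, hg⟩ := Algebra.IsInvariant.exists_smul_of_under_eq_of_profinite (A := ℤ) (G := GQ)
    (Frob.primeOf A) (Frob.primeOf B) ((under_primeOf hl hA).trans (under_primeOf hl hB).symm)
  refine ⟨g, ?_⟩
  have h1 : Frob.primeOf (g • A) = Frob.primeOf B := by rw [primeOf_smul, hg]
  exact le_antisymm (le_of_primeOf_eq hl (E.liesOverPrime_smul hA g) h1)
    (le_of_primeOf_eq hl hB h1.symm)

theorem liesOverPrime_primeLocalPlace (q : Nat.Primes) :
    (primeLocalPlace q).LiesOverPrime (q : ℕ) := by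
  let _ : Fact (q : ℕ).Prime := ⟨q.2⟩
  change ((q : ℕ) : Qb) ∈ (padicPlace (q : ℕ)).nonunits
  rw [E.mem_nonunits_iff']
  right
  rw [E.mem_padicPlace_iff_norm, ← zpow_neg_one, E.norm_padicEmbedding_natCast_zpow, neg_neg,
    zpow_one, not_le]
  exact_mod_cast q.2.one_lt

/-- every valuation subring over `q` is a conjugate of the Prelude place -/
theorem exists_conj_place {q : Nat.Primes} {A : ValuationSubring Qb}
    (hA : A.LiesOverPrime (q : ℕ)) : ∃ g : GQ, g • primeLocalPlace q = A :=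
  exists_smul_eq q.2 (liesOverPrime_primeLocalPlace q) hA

/-- every inertia group over `q` is a conjugate of `Iq q`, every decomposition group is a conjugate
of `Dq q` -/
theorem exists_conj_Iq {q : Nat.Primes} {A : ValuationSubring Qb}
    (hA : A.LiesOverPrime (q : ℕ)) :
    ∃ g : GQ, (∀ i, i ∈ A.inertiaSubgroupIn ℚ ↔ g⁻¹ * i * g ∈ Iq q) ∧
      (∀ i, i ∈ A.decompositionSubgroup ℚ ↔ g⁻¹ * i * g ∈ Dq q) := by
  obtain ⟨g, rfl⟩ := exists_conj_place hA
  refine ⟨g, fun i => ⟨fun h => ?_, fun h => ?_⟩, fun i => ⟨fun h => ?_, fun h => ?_⟩⟩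
  · have := E.conj_mem_inertia_smul h g⁻¹
    rwa [inv_smul_smul, inv_inv] at this
  · have := E.conj_mem_inertia_smul (A := primeLocalPlace q) h g
    have h2 : g * (g⁻¹ * i * g) * g⁻¹ = i := by group
    rwa [h2] at this
  · have := E.conj_mem_decomposition_smul h g⁻¹
    rwa [inv_smul_smul, inv_inv] at this
  · have := E.conj_mem_decomposition_smul (A := primeLocalPlace q) h g
    have h2 : g * (g⁻¹ * i * g) * g⁻¹ = i := by group
    rwa [h2] at this

/-- invariance under the conjugates of `Iq q`, `q ∉ S`, is enough -/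
theorem inertiaInv1_of_conj {S : Finset Nat.Primes} {X : Type*} {f : GQ → X}
    (h : ∀ q : Nat.Primes, q ∉ S → ∀ i ∈ Iq q, ∀ g k : GQ, f (g * (k * i * k⁻¹)) = f g) :
    InertiaInv1 S f := by
  intro q hq A hA i hi g
  obtain ⟨k, hk, _⟩ := exists_conj_Iq hA
  have := h q hq _ ((hk i).1 hi) g k
  have h2 : k * (k⁻¹ * i * k) * k⁻¹ = i := by group
  rwa [h2] at this

theorem inertiaInv2_of_conj {S : Finset Nat.Primes} {X : Type*} {f : GQ → GQ → X}
    (h : ∀ q : Nat.Primes, q ∉ S → ∀ i ∈ Iq q, ∀ g g' k : GQ,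
      f (g * (k * i * k⁻¹)) g' = f g g' ∧ f g (g' * (k * i * k⁻¹)) = f g g') :
    InertiaInv2 S f := by
  intro q hq A hA i hi g g'
  obtain ⟨k, hk, _⟩ := exists_conj_Iq hA
  have := h q hq _ ((hk i).1 hi) g g' k
  have h2 : k * (k⁻¹ * i * k) * k⁻¹ = i := by group
  rwa [h2] at this

/-! ### the cyclotomic character is unramified outside `p` -/

section Chi

variable (p : ℕ) [Fact p.Prime]

theorem natCast_mem_nonunits_of_root (A : ValuationSubring Qb) {z : Qb} (hz : z ^ p = 1)
    (hz1 : z ≠ 1) (h : 1 - z ∈ A.nonunits) : (p : Qb) ∈ A.nonunits := by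
  have hzA : z ∈ A := Frob.mem_of_isIntegral A
    (IsIntegral.of_pow (Fact.out : p.Prime).pos (by rw [hz]; exact isIntegral_one))
  have h0 : ∑ k ∈ Finset.range p, z ^ k = 0 := by
    have := mul_neg_geom_sum z p
    rw [hz, sub_self] at this
    exact (mul_eq_zero.1 this).resolve_left (sub_ne_zero.2 hz1.symm)
  have h1 : (p : Qb) = ∑ k ∈ Finset.range p, (1 - z ^ k) := by
    rw [Finset.sum_sub_distrib, h0, sub_zero]
    simp
  rw [h1]
  refine sum_mem fun k _ => ?_
  rw [← mul_neg_geom_sum z k]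
  exact Frob.mul_mem_nonunits A h (sum_mem fun j _ => pow_mem hzA j)

theorem cycloChar_eq_one_of_inertia {q : ℕ} (hq : q.Prime) (hqp : q ≠ p)
    {A : ValuationSubring Qb} (hA : A.LiesOverPrime q) {i : GQ} (hi : i ∈ A.inertiaSubgroupIn ℚ) :
    cycloChar p i = 1 := by
  refine E.cycloChar_eq_one p i fun t ht => ?_
  by_contra hne
  have hp : 0 < p := (Fact.out : p.Prime).pos
  have ht0 : t ≠ 0 := by
    rintro rfl
    rw [zero_pow hp.ne'] at ht
    exact zero_ne_one ht
  have htA : t ∈ A := Frob.mem_of_isIntegral A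
    (IsIntegral.of_pow hp (by rw [ht]; exact isIntegral_one))
  have htinv : t⁻¹ ∈ A := Frob.mem_of_isIntegral A
    (IsIntegral.of_pow hp (by rw [inv_pow, ht, inv_one]; exact isIntegral_one))
  have h1 := ((E.mem_inertiaSubgroupIn_iff A i).1 hi).2 t htA
  have h2 : 1 - i t * t⁻¹ ∈ A.nonunits := by
    have h3 : 1 - i t * t⁻¹ = -((i t - t) * t⁻¹) := by
      field_simp
      ring
    rw [h3]
    exact neg_mem (Frob.mul_mem_nonunits A h1 htinv)
  have h4 : (i t * t⁻¹) ^ p = 1 := by
    rw [mul_pow, ← map_pow, ht, map_one, inv_pow, ht, inv_one, one_mul]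
  have h5 : i t * t⁻¹ ≠ 1 := by
    intro h
    apply hne
    field_simp at h
    exact h
  have h6 := natCast_mem_nonunits_of_root p A h4 h5 h2
  have h7 : ¬ (q : ℤ) ∣ (p : ℤ) := by
    intro h
    have := (Nat.prime_dvd_prime_iff_eq hq Fact.out).1 (Int.natCast_dvd_natCast.1 h)
    exact hqp this
  have h8 := Frob.int_not_mem_nonunits A hq hA h7
  apply h8
  exact_mod_cast h6

theorem smooth_lvlS_rhoT {S : Finset Nat.Primes} (hpS : pPrime p ∈ S) :
    Smooth (lvlS S) (rhoChi (cycloChar p)) := by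
  have h0 : Smooth lvlQ (rhoChi (cycloChar p)) := fun a =>
    ⟨_, ⟨E.cycloField p, E.finiteDimensional_cycloField p, rfl⟩, fun u hu => by
      rw [rhoChi_apply, E.cycloChar_eq_one_of_mem p hu]; simp⟩
  refine E.smooth_lvlS S _ h0 fun q hq B hB g hg => ?_
  have hqp : (q : ℕ) ≠ p := by
    intro h
    apply hq
    have : q = pPrime p := Subtype.ext h
    rwa [this]
  ext a
  rw [rhoChi_apply, cycloChar_eq_one_of_inertia p q.2 hqp hB hg]
  simp

theorem smooth_lvlS_dualRho {S : Finset Nat.Primes} (hpS : pPrime p ∈ S) {A : Type*}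
    [AddCommGroup A] [Finite A] {ρ : GQ →* AddMonoid.End A} (hρ : Smooth (lvlS S) ρ) :
    Smooth (lvlS S) (dualRho (cycloChar p) ρ) :=
  E.smooth_dualRho (smooth_lvlS_rhoT p hpS) hρ

end Chi

end Fermat.Agent.S55.D
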