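import Fermat.Agent.S55.D.ULevel

/-!
# S55 / layer D : a number field is ramified at finitely many primes  (key `S55/D-U5`)
-/

set_option autoImplicit false

namespace Fermat.Agent.S55.D

open Fermat.Agent.S55 ExtCitation

theorem finite_primes_dvd {c : ℤ} (hc : c ≠ 0) : {q : Nat.Primes | ((q : ℕ) : ℤ) ∣ c}.Finite := by
  have h1 : (c.natAbs.primeFactors : Set ℕ).Finite := Finset.finite_toSet _
  refine (h1.preimage (f := fun q : Nat.Primes => (q : ℕ)) Subtype.val_injective.injOn |>.subset ?_)
  intro q hq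
  simp only [Set.mem_preimage, Finset.mem_coe, Nat.mem_primeFactors]
  exact ⟨q.2, Int.natCast_dvd.1 hq, Int.natAbs_ne_zero.2 hc⟩

theorem isAlgebraic_int (x : Qb) : IsAlgebraic ℤ x :=
  (IsFractionRing.isAlgebraic_iff ℤ ℚ Qb).mpr ((AlgebraicClosure.isAlgebraic ℚ).isAlgebraic x)

/-- a nonzero algebraic number is a unit at almost all places -/
theorem finite_mem_nonunits {x : Qb} (hx : x ≠ 0) :
    {q : Nat.Primes | x ∈ (primeLocalPlace q).nonunits}.Finite := by
  obtain ⟨c, hc, hint⟩ := (isAlgebraic_int x⁻¹).exists_integral_multiple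
  refine (finite_primes_dvd hc).subset fun q hq => ?_
  by_contra hdvd
  refine Frob.int_not_mem_nonunits (primeLocalPlace q) q.2 (liesOverPrime_primeLocalPlace q) hdvd ?_
  have h1 : (c : Qb) = x * (c • x⁻¹) := by
    rw [zsmul_eq_mul]
    field_simp
  rw [h1]
  exact Frob.mul_mem_nonunits _ hq (Frob.mem_of_isIntegral _ hint)

theorem finite_not_mem (x : Qb) : {q : Nat.Primes | x ∉ primeLocalPlace q}.Finite := by
  rcases eq_or_ne x 0 with rfl | hx
  · refine Set.finite_empty.subset fun q hq => ?_
    exact hq (zero_mem _)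
  · refine (finite_mem_nonunits (inv_ne_zero hx)).subset fun q hq => ?_
    change x⁻¹ ∈ (primeLocalPlace q).nonunits
    rw [E.mem_nonunits_iff', inv_inv]
    exact Or.inr hq

/-- an algebraic number is fixed by almost all inertia groups -/
theorem finite_moved (x : Qb) : {q : Nat.Primes | ∃ i ∈ Iq q, i x ≠ x}.Finite := by
  have hR : ((minpoly ℚ x).rootSet Qb).Finite := Polynomial.rootSet_finite _ _
  have h1 : (⋃ r ∈ (minpoly ℚ x).rootSet Qb,
      {q : Nat.Primes | r ≠ x ∧ r - x ∈ (primeLocalPlace q).nonunits}).Finite := by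
    refine hR.biUnion fun r _ => ?_
    by_cases hr : r = x
    · refine Set.finite_empty.subset fun q hq => ?_
      exact hq.1 hr
    · exact (finite_mem_nonunits (sub_ne_zero.2 hr)).subset fun q hq => hq.2
  refine ((finite_not_mem x).union h1).subset ?_
  rintro q ⟨i, hi, hne⟩
  by_cases hx : x ∈ primeLocalPlace q
  · right
    have hint : IsIntegral ℚ x := ((AlgebraicClosure.isAlgebraic ℚ).isAlgebraic x).isIntegral
    have hroot : i x ∈ (minpoly ℚ x).rootSet Qb := by
      rw [Polynomial.mem_rootSet]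
      refine ⟨minpoly.ne_zero hint, ?_⟩
      have := Polynomial.aeval_algHom_apply (AlgEquiv.toAlgHom (i : Qb ≃ₐ[ℚ] Qb)) x (minpoly ℚ x)
      rw [minpoly.aeval, map_zero] at this
      exact this
    exact Set.mem_biUnion hroot ⟨hne, ((E.mem_inertiaSubgroupIn_iff _ i).1 hi).2 x hx⟩
  · left
    exact hx

/-- **(U5)** a number field is ramified at finitely many primes -/
theorem finite_ramified' (F : IntermediateField ℚ Qb) (hF : FiniteDimensional ℚ F) :
    {q : Nat.Primes | ¬ Iq q ≤ F.fixingSubgroup}.Finite := by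
  let b := Module.finBasis ℚ F
  have h1 : (⋃ j, {q : Nat.Primes | ∃ i ∈ Iq q, i (b j : Qb) ≠ (b j : Qb)}).Finite :=
    Set.finite_iUnion fun j => finite_moved _
  refine h1.subset fun q hq => ?_
  by_contra hcon
  apply hq
  intro i hi
  rw [IntermediateField.mem_fixingSubgroup_iff]
  intro x hx
  have h2 : ∀ j, i (b j : Qb) = (b j : Qb) := by
    intro j
    by_contra hne
    exact hcon (Set.mem_iUnion.2 ⟨j, i, hi, hne⟩)
  have h3 := b.sum_repr ⟨x, hx⟩
  have h4 : x = ∑ j, (b.repr ⟨x, hx⟩ j) • (b j : Qb) := by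
    have := congrArg (fun y : F => (y : Qb)) h3
    simp only [AddSubmonoidClass.coe_finsetSum, IntermediateField.coe_smul] at this
    exact this.symm
  rw [h4, map_sum]
  exact Finset.sum_congr rfl fun j _ => by
    rw [Algebra.smul_def, map_mul, h2 j, AlgEquiv.commutes]

end Fermat.Agent.S55.D
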