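import Fermat.Agent.S55.Coh.Defs

/-!
# S55 : unramified cohomology of a group `D` with `D / I` procyclic  (key `S55/U12-abs`)

`D` a group with levels `𝓛`, `I` a normal subgroup, `φ : D` a topological generator of `D / I ≅ Ẑ`
(structure `ProCyc 𝓛 I φ`).  For coefficients killed by `p`:

* `ProCyc.exists_cocycle` : every `x` fixed by an open subgroup containing `I` is the value at `φ` of an
  unramified (= right `I`-invariant, level constant) 1-cocycle;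
* `ProCyc.U2'`, `ProCyc.U2` : `H¹_ur` is right exact;
* `ProCyc.U1` : `H²_ur = 0`.
-/

set_option autoImplicit false

namespace Fermat.Agent.S55

/-- `D / I` is procyclic, isomorphic to `Ẑ`, topologically generated by `φ` -/
structure ProCyc {D : Type*} [Group D] (𝓛 : Lvl D) (I : Subgroup D) (φ : D) : Prop where
  normal : I.Normal
  gen : ∀ U : Subgroup D, 𝓛.IsOpen U → I ≤ U → ∀ g, ∃ k : ℕ, (φ ^ k)⁻¹ * g ∈ U
  inf : ∀ n : ℕ, 0 < n → ∃ V : Subgroup D, 𝓛.IsOpen V ∧ I ≤ V ∧ ∀ m : ℕ, φ ^ m ∈ V → n ∣ m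

namespace ProCyc

variable {D : Type*} [Group D] {𝓛 : Lvl D} {I : Subgroup D} {φ : D}

theorem isOpen_inf {U V : Subgroup D} (hU : 𝓛.IsOpen U) (hV : 𝓛.IsOpen V) : 𝓛.IsOpen (U ⊓ V) := by
  obtain ⟨U', hU', h1⟩ := hU
  obtain ⟨V', hV', h2⟩ := hV
  obtain ⟨W, hW, h3⟩ := 𝓛.inter U' hU' V' hV'
  exact ⟨W, hW, fun x hx => ⟨h1 (h3 hx).1, h2 (h3 hx).2⟩⟩

theorem lc1_of_isOpen {X : Type*} {f : D → X} {U : Subgroup D} (hU : 𝓛.IsOpen U)
    (h : ∀ g, ∀ u ∈ U, f (g * u) = f g) : LC1 𝓛 f := by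
  obtain ⟨W, hW, hWU⟩ := hU
  exact ⟨W, hW, fun g u hu => h g u (hWU hu)⟩

theorem exists_pow_mem {U : Subgroup D} (hU : 𝓛.IsOpen U) (g : D) : ∃ n : ℕ, 0 < n ∧ g ^ n ∈ U := by
  obtain ⟨W, hW, hWU⟩ := hU
  obtain ⟨n, hn, _, h⟩ := Subgroup.exists_pow_mem_of_index_ne_zero (𝓛.fin W hW).index_ne_zero g
  exact ⟨n, hn, hWU h⟩

/-- open subgroups containing `I` contain normal ones -/
theorem exists_normal (h : ProCyc 𝓛 I φ) {U : Subgroup D} (hU : 𝓛.IsOpen U) (hI : I ≤ U) :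
    ∃ U' : Subgroup D, U'.Normal ∧ 𝓛.IsOpen U' ∧ I ≤ U' ∧ U' ≤ U := by
  obtain ⟨W, hW, hWU⟩ := hU
  obtain ⟨W', hW', hW'W, hn⟩ := 𝓛.normal W hW
  have := h.normal
  exact ⟨W' ⊔ I, inferInstance, ⟨W', hW', le_sup_left⟩, le_sup_right,
    sup_le (hW'W.trans hWU) hI⟩

section Cocycle

variable {P : Type*} [AddCommGroup P] (ρ : D →* AddMonoid.End P)

/-- the partial norms `N_k x = ∑_{i<k} φ^i x` -/
def nrm (φ : D) (k : ℕ) (x : P) : P := ∑ i ∈ Finset.range k, ρ (φ ^ i) x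

theorem nrm_zero (x : P) : nrm ρ φ 0 x = 0 := by simp [nrm]

theorem rho_mul (g h : D) (x : P) : ρ (g * h) x = ρ g (ρ h x) := by
  rw [map_mul]; rfl

theorem rho_one (x : P) : ρ 1 x = x := by
  rw [map_one]; rfl

theorem nrm_add (a b : ℕ) (x : P) : nrm ρ φ (a + b) x = nrm ρ φ a x + ρ (φ ^ a) (nrm ρ φ b x) := by
  rw [nrm, Finset.sum_range_add, nrm, nrm, map_sum]
  congr 1
  exact Finset.sum_congr rfl fun i _ => by rw [pow_add, rho_mul]

theorem nrm_succ' (k : ℕ) (x : P) : nrm ρ φ (k + 1) x = x + ρ φ (nrm ρ φ k x) := by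
  rw [add_comm k 1, nrm_add, pow_one]
  congr 1
  simp [nrm]

variable {ρ}

theorem fixed_rho {U : Subgroup D} (hn : U.Normal) {x : P} (hx : ∀ u ∈ U, ρ u x = x) (g : D) :
    ∀ u ∈ U, ρ u (ρ g x) = ρ g x := by
  intro u hu
  have h1 : u * g = g * (g⁻¹ * u * g⁻¹⁻¹) := by group
  rw [← rho_mul, h1, rho_mul, hx _ (hn.conj_mem u hu g⁻¹)]

theorem fixed_nrm {U : Subgroup D} (hn : U.Normal) {x : P} (hx : ∀ u ∈ U, ρ u x = x) (k : ℕ) :
    ∀ u ∈ U, ρ u (nrm ρ φ k x) = nrm ρ φ k x := by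
  intro u hu
  rw [nrm, map_sum]
  exact Finset.sum_congr rfl fun i _ => fixed_rho hn hx _ u hu

theorem nrm_mul {U : Subgroup D} (hn : U.Normal) {x : P} (hx : ∀ u ∈ U, ρ u x = x) {n : ℕ}
    (hφ : φ ^ n ∈ U) (t : ℕ) : nrm ρ φ (n * t) x = t • nrm ρ φ n x := by
  induction t with
  | zero => simp [nrm_zero]
  | succ t ih =>
    rw [Nat.mul_succ, nrm_add, ih, pow_mul, fixed_nrm hn hx n _ (U.pow_mem hφ t), succ_nsmul]

theorem nsmul_nrm (p k : ℕ) {x : P} (hx : p • x = 0) : p • nrm ρ φ k x = 0 := by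
  rw [nrm, Finset.smul_sum]
  exact Finset.sum_eq_zero fun i _ => by rw [← map_nsmul, hx, map_zero]

/-- every `x` killed by `p` and fixed by an open subgroup containing `I` is the value at `φ` of an
unramified cocycle -/
theorem exists_cocycle (h : ProCyc 𝓛 I φ) {p : ℕ} (hp : 0 < p) {U0 : Subgroup D}
    (hU0 : 𝓛.IsOpen U0) (hI : I ≤ U0) (hn0 : U0.Normal) {x : P} (hx : ∀ u ∈ U0, ρ u x = x)
    (hpx : p • x = 0) :
    ∃ U1 : Subgroup D, 𝓛.IsOpen U1 ∧ I ≤ U1 ∧ U1 ≤ U0 ∧ U1.Normal ∧ ∃ c : D → P,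
      (∀ g g', c (g * g') = ρ g (c g') + c g) ∧ (∀ g, ∀ u ∈ U1, c (g * u) = c g) ∧
      ∀ k : ℕ, c (φ ^ k) = nrm ρ φ k x := by
  obtain ⟨n0, hn0pos, hφn0⟩ := exists_pow_mem hU0 φ
  obtain ⟨V, hV, hIV, hVdvd⟩ := h.inf (n0 * p) (Nat.mul_pos hn0pos hp)
  obtain ⟨U1, hU1n, hU1, hIU1, hU1le⟩ := h.exists_normal (isOpen_inf hU0 hV) (le_inf hI hIV)
  have hU10 : U1 ≤ U0 := hU1le.trans inf_le_left
  -- `N_m x = 0` as soon as `φ^m ∈ U1`
  have hzero : ∀ m : ℕ, φ ^ m ∈ U1 → nrm ρ φ m x = 0 := by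
    intro m hm
    obtain ⟨t, rfl⟩ := hVdvd m (hU1le hm).2
    rw [mul_assoc, nrm_mul hn0 hx hφn0, mul_comm p t, mul_smul, nsmul_nrm p n0 hpx, smul_zero]
  have aux : ∀ k k' : ℕ, k' ≤ k → (φ ^ k')⁻¹ * φ ^ k ∈ U1 → nrm ρ φ k x = nrm ρ φ k' x := by
    intro k k' hle hmem
    obtain ⟨d, rfl⟩ := Nat.exists_eq_add_of_le hle
    rw [pow_add, inv_mul_cancel_left] at hmem
    rw [nrm_add, hzero d hmem, map_zero, add_zero]
  have hind : ∀ k k' : ℕ, (φ ^ k')⁻¹ * φ ^ k ∈ U1 → nrm ρ φ k x = nrm ρ φ k' x := by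
    intro k k' hmem
    rcases le_total k' k with hle | hle
    · exact aux k k' hle hmem
    · refine (aux k' k hle ?_).symm
      have := U1.inv_mem hmem
      rwa [mul_inv_rev, inv_inv] at this
  choose e he using h.gen U1 hU1 hIU1
  have hval : ∀ (g : D) (k : ℕ), (φ ^ k)⁻¹ * g ∈ U1 → nrm ρ φ (e g) x = nrm ρ φ k x := by
    intro g k hk
    apply hind
    have : (φ ^ k)⁻¹ * φ ^ (e g) = ((φ ^ k)⁻¹ * g) * ((φ ^ (e g))⁻¹ * g)⁻¹ := by group
    rw [this]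
    exact U1.mul_mem hk (U1.inv_mem (he g))
  refine ⟨U1, hU1, hIU1, hU10, hU1n, fun g => nrm ρ φ (e g) x, ?_, ?_, ?_⟩
  · intro g g'
    have h1 : (φ ^ (e g + e g'))⁻¹ * (g * g') ∈ U1 := by
      have : (φ ^ (e g + e g'))⁻¹ * (g * g') =
          ((φ ^ (e g'))⁻¹ * ((φ ^ (e g))⁻¹ * g) * (φ ^ (e g'))⁻¹⁻¹) * ((φ ^ (e g'))⁻¹ * g') := by
        rw [pow_add]; group
      rw [this]
      exact U1.mul_mem (hU1n.conj_mem _ (he g) _) (he g')
    have h2 : ρ g (nrm ρ φ (e g') x) = ρ (φ ^ (e g)) (nrm ρ φ (e g') x) := by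
      have h3 : g = φ ^ (e g) * ((φ ^ (e g))⁻¹ * g) := by group
      conv_lhs => rw [h3, rho_mul, fixed_nrm hn0 hx _ _ (hU10 (he g))]
    change nrm ρ φ (e (g * g')) x = ρ g (nrm ρ φ (e g') x) + nrm ρ φ (e g) x
    rw [hval _ _ h1, nrm_add, add_comm, h2]
  · intro g u hu
    refine hval _ _ ?_
    have : (φ ^ (e g))⁻¹ * (g * u) = ((φ ^ (e g))⁻¹ * g) * u := by group
    rw [this]
    exact U1.mul_mem (he g) hu
  · intro k
    refine hval _ _ ?_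
    rw [inv_mul_cancel]
    exact U1.one_mem

/-- `H¹_ur` is right exact, form without quotient modules: a level constant unramified cochain `β`
which is a cocycle modulo a stable subgroup `K` is congruent modulo `K` to an unramified cocycle -/
theorem U2' (h : ProCyc 𝓛 I φ) {p : ℕ} (hp : 0 < p) {U0 : Subgroup D}
    (hU0 : 𝓛.IsOpen U0) (hI : I ≤ U0) (hn0 : U0.Normal) (K : AddSubgroup P)
    (hK : ∀ g, ∀ a ∈ K, ρ g a ∈ K) {β : D → P} (hβ : ∀ g, ∀ u ∈ U0, β (g * u) = β g)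
    (hd : ∀ g g', d1 ρ β g g' ∈ K) (hx : ∀ u ∈ U0, ρ u (β φ) = β φ) (hpx : p • β φ = 0) :
    ∃ U1 : Subgroup D, 𝓛.IsOpen U1 ∧ I ≤ U1 ∧ U1 ≤ U0 ∧ ∃ c : D → P,
      (∀ g g', c (g * g') = ρ g (c g') + c g) ∧ (∀ g, ∀ u ∈ U1, c (g * u) = c g) ∧
      ∀ g, β g - c g ∈ K := by
  obtain ⟨U1, hU1, hIU1, hU10, _, c, hc1, hc2, hc3⟩ := h.exists_cocycle hp hU0 hI hn0 hx hpx
  refine ⟨U1, hU1, hIU1, hU10, c, hc1, hc2, fun g => ?_⟩
  have hpow : ∀ k : ℕ, β (φ ^ k) - nrm ρ φ k (β φ) ∈ K := by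
    intro k
    induction k with
    | zero =>
      have := hd 1 1
      rw [d1_apply, rho_one, mul_one, sub_self, zero_add] at this
      rwa [pow_zero, nrm_zero, sub_zero]
    | succ k ih =>
      have h1 := hd φ (φ ^ k)
      rw [d1_apply] at h1
      have h2 := hK φ _ ih
      rw [map_sub] at h2
      have h3 : β (φ ^ (k + 1)) - nrm ρ φ (k + 1) (β φ) =
          (ρ φ (β (φ ^ k)) - ρ φ (nrm ρ φ k (β φ))) -
            (ρ φ (β (φ ^ k)) - β (φ * φ ^ k) + β φ) := by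
        rw [nrm_succ', pow_succ']; abel
      rw [h3]
      exact K.sub_mem h2 h1
  obtain ⟨k, hk⟩ := h.gen U1 hU1 hIU1 g
  have h1 : g = φ ^ k * ((φ ^ k)⁻¹ * g) := by group
  rw [h1, hβ _ _ (hU10 hk), hc2 _ _ hk, hc3]
  exact hpow k

end Cocycle

/-- the subgroup of right periods of a function -/
def rightStab {X : Type*} (f : D → X) : Subgroup D where
  carrier := {u | ∀ g, f (g * u) = f g}
  mul_mem' := fun {a b} ha hb g => by rw [← mul_assoc, hb, ha]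
  one_mem' := fun g => by rw [mul_one]
  inv_mem' := fun {a} ha g => by
    have := ha (g * a⁻¹)
    rw [inv_mul_cancel_right] at this
    exact this.symm

/-- the stabiliser of an element -/
def stabOf {P : Type*} [AddCommGroup P] (ρ : D →* AddMonoid.End P) (x : P) : Subgroup D where
  carrier := {u | ρ u x = x}
  mul_mem' := fun {a b} ha hb => by
    change ρ (a * b) x = x
    rw [rho_mul, hb, ha]
  one_mem' := rho_one ρ x
  inv_mem' := fun {a} ha => by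
    change ρ a⁻¹ x = x
    have h1 : ρ a⁻¹ (ρ a x) = x := by rw [← rho_mul, inv_mul_cancel, rho_one]
    rwa [ha] at h1

/-- **(U2)** `H¹_ur` is right exact -/
theorem U2 (h : ProCyc 𝓛 I φ) {p : ℕ} (hp : 0 < p) {X Y : Type*} [AddCommGroup X] [AddCommGroup Y]
    {ρX : D →* AddMonoid.End X} {ρY : D →* AddMonoid.End Y} (hsm : Smooth 𝓛 ρX)
    (hIX : ∀ i ∈ I, ∀ x, ρX i x = x) (hpX : ∀ x : X, p • x = 0) {j : X →+ Y}
    (hj : IsHom ρX ρY j) (hsurj : Function.Surjective j) {c : D → Y} (hc : c ∈ Z1 𝓛 ρY)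
    (hcI : ∀ i ∈ I, ∀ g, c (g * i) = c g) :
    ∃ c' ∈ Z1 𝓛 ρX, (∀ i ∈ I, ∀ g, c' (g * i) = c' g) ∧ ∀ g, j (c' g) = c g := by
  let s := Function.surjInv hsurj
  have hs : ∀ y, j (s y) = y := Function.surjInv_eq hsurj
  let β : D → X := fun g => s (c g)
  have hopen : 𝓛.IsOpen (rightStab c ⊓ stabOf ρX (β φ)) := by
    refine isOpen_inf ?_ ?_
    · obtain ⟨W, hW, hWc⟩ := hc.1
      exact ⟨W, hW, fun u hu g => hWc g u hu⟩
    · obtain ⟨W, hW, hWx⟩ := hsm (β φ)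
      exact ⟨W, hW, fun u hu => hWx u hu⟩
  obtain ⟨U0, hn0, hU0, hIU0, hU0le⟩ := h.exists_normal hopen
    (le_inf (fun i hi g => hcI i hi g) (fun i hi => hIX i hi _))
  obtain ⟨U1, hU1, hIU1, _, c', hc1, hc2, hc3⟩ := h.U2' (ρ := ρX) hp hU0 hIU0 hn0 j.ker
    (fun g a ha => by
      rw [AddMonoidHom.mem_ker] at ha ⊢
      rw [hj, ha, map_zero])
    (β := β) (fun g u hu => by
      change s (c (g * u)) = s (c g)
      rw [(hU0le hu).1 g])
    (fun g g' => by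
      rw [AddMonoidHom.mem_ker, d1_apply, map_add, map_sub, hj]
      change ρY g (j (s (c g'))) - j (s (c (g * g'))) + j (s (c g)) = 0
      rw [hs, hs, hs, hc.2 g g']
      abel)
    (fun u hu => (hU0le hu).2) (hpX _)
  refine ⟨c', ⟨lc1_of_isOpen hU1 hc2, hc1⟩, fun i hi g => hc2 g i (hIU1 hi), fun g => ?_⟩
  have := hc3 g
  rw [AddMonoidHom.mem_ker, map_sub, sub_eq_zero] at this
  rw [← this]
  exact hs _

/-- the subgroup of right periods of a function of two variables -/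
def rightStab2 {X : Type*} (f : D → D → X) : Subgroup D where
  carrier := {u | ∀ g h, f (g * u) h = f g h ∧ f g (h * u) = f g h}
  mul_mem' := fun {a b} ha hb g h => by
    rw [← mul_assoc, ← mul_assoc, (hb _ h).1, (ha g h).1, (hb g _).2, (ha g h).2]
    exact ⟨rfl, rfl⟩
  one_mem' := fun g h => by rw [mul_one, mul_one]; exact ⟨rfl, rfl⟩
  inv_mem' := fun {a} ha g h => by
    have h1 := (ha (g * a⁻¹) h).1
    have h2 := (ha g (h * a⁻¹)).2
    rw [inv_mul_cancel_right] at h1 h2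
    exact ⟨h1.symm, h2.symm⟩

/-- **(U1)** `H²_ur = 0` -/
theorem U1 (h : ProCyc 𝓛 I φ) {p : ℕ} (hp : 0 < p) {X : Type*} [AddCommGroup X]
    {ρ : D →* AddMonoid.End X} (hpX : ∀ x : X, p • x = 0) {z : D → D → X} (hz : z ∈ Z2 𝓛 ρ)
    (hzI : ∀ i ∈ I, ∀ g g', z (g * i) g' = z g g' ∧ z g (g' * i) = z g g') :
    ∃ b : D → X, LC1 𝓛 b ∧ (∀ i ∈ I, ∀ g, b (g * i) = b g) ∧ z = d1 ρ b := by
  let ρP : D →* AddMonoid.End (D → X) := Fn (MulAction.toPermHom D D) ρ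
  have hρP : ∀ (g : D) (f : D → X) (s : D), ρP g f s = ρ g (f (g⁻¹ * s)) := fun _ _ _ => rfl
  let β : D → D → X := fun g s => ρ s (z s⁻¹ g)
  have hopen : 𝓛.IsOpen (rightStab2 z) := by
    obtain ⟨W, hW, hWz⟩ := hz.1
    refine ⟨W, hW, fun u hu g g' => ⟨?_, ?_⟩⟩
    · have := hWz g g' u hu 1 (one_mem _)
      rwa [mul_one] at this
    · have := hWz g g' 1 (one_mem _) u hu
      rwa [mul_one] at this
  obtain ⟨U0, hn0, hU0, hIU0, hU0le⟩ := h.exists_normal hopen (fun i hi g g' => hzI i hi g g')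
  have hd : ∀ g g', d1 ρP β g g' = eta D X (z g g') := by
    intro g g'
    ext s
    rw [d1_apply]
    change ρP g (β g') s - β (g * g') s + β g s = z g g'
    rw [hρP]
    change ρ g (ρ (g⁻¹ * s) (z (g⁻¹ * s)⁻¹ g')) - ρ s (z s⁻¹ (g * g')) + ρ s (z s⁻¹ g) = z g g'
    have h1 := hz.2 s⁻¹ g g'
    have h2 : (g⁻¹ * s)⁻¹ = s⁻¹ * g := by group
    rw [← rho_mul, mul_inv_cancel_left, h2, ← map_sub, ← map_add]
    have h3 : z (s⁻¹ * g) g' - z s⁻¹ (g * g') + z s⁻¹ g = ρ s⁻¹ (z g g') := by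
      rw [sub_add_eq_add_sub, h1]; abel
    rw [h3, ← rho_mul, mul_inv_cancel, rho_one]
  obtain ⟨U1, hU1, hIU1, hU10, c, hc1, hc2, hc3⟩ := h.U2' (ρ := ρP) hp hU0 hIU0 hn0
    (eta D X).range
    (fun g a ha => by
      obtain ⟨x, rfl⟩ := ha
      exact ⟨ρ g x, rfl⟩)
    (β := β) (fun g u hu => by
      ext s
      change ρ s (z s⁻¹ (g * u)) = ρ s (z s⁻¹ g)
      rw [((hU0le hu) s⁻¹ g).2])
    (fun g g' => ⟨z g g', (hd g g').symm⟩)
    (fun u hu => by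
      ext s
      rw [hρP]
      change ρ u (ρ (u⁻¹ * s) (z (u⁻¹ * s)⁻¹ φ)) = ρ s (z s⁻¹ φ)
      have h2 : (u⁻¹ * s)⁻¹ = s⁻¹ * u := by group
      rw [← rho_mul, mul_inv_cancel_left, h2, ((hU0le hu) s⁻¹ φ).1])
    (by
      ext s
      exact hpX _)
  have hb : ∀ g, β g - c g = eta D X ((β g - c g) 1) := by
    intro g
    obtain ⟨a, ha⟩ := hc3 g
    rw [← ha]
    rfl
  have hβinv : ∀ g, ∀ u ∈ U1, β (g * u) = β g := by
    intro g u hu
    ext s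
    change ρ s (z s⁻¹ (g * u)) = ρ s (z s⁻¹ g)
    rw [((hU0le (hU10 hu)) s⁻¹ g).2]
  have hbinv : ∀ g, ∀ u ∈ U1, (β (g * u) - c (g * u)) 1 = (β g - c g) 1 := by
    intro g u hu
    rw [hβinv g u hu, hc2 g u hu]
  refine ⟨fun g => (β g - c g) 1, lc1_of_isOpen hU1 hbinv, fun i hi g => hbinv g i (hIU1 hi), ?_⟩
  ext g g'
  have h1 : d1 ρP (fun g => β g - c g) g g' = eta D X (z g g') := by
    rw [← hd g g', d1_apply, d1_apply, map_sub, hc1 g g']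
    abel
  have h2 := congrFun h1 1
  rw [d1_apply, hb g', hb (g * g'), hb g] at h2
  rw [d1_apply]
  exact h2.symm

end ProCyc

end Fermat.Agent.S55
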