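import Fermat.Agent.S55.D.ULevel
import Fermat.Agent.S55.D.ProCyc

/-!
# S55 : `D_q / I_q` is procyclic, generated by a Frobenius  (key `S55/U12-inst`)

`exists_proCyc q : ∃ φ : Dq q, ProCyc (lvlD q) ((Iq q).subgroupOf (Dq q)) φ`.
-/

set_option autoImplicit false

open scoped Pointwise

namespace Fermat.Agent.S55.D

open Fermat.Agent.S55 ExtCitation

/-! ### finite fields -/

open Polynomial in
/-- an endomorphism of a field of characteristic `q` acts on the finite subfield `𝔽_{q^f}` as a power of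
the Frobenius -/
theorem exists_pow_of_ringHom {k : Type*} [Field k] (q : ℕ) [Fact q.Prime] [CharP k q]
    (γ : k →+* k) (f : ℕ) (hf : f ≠ 0) : ∃ n : ℕ, ∀ y : k, y ^ (q ^ f) = y → γ y = y ^ (q ^ n) := by
  let L : Subfield k := (iterateFrobenius k q f).eqLocusField (RingHom.id k)
  have hmem : ∀ y : k, y ∈ L ↔ y ^ (q ^ f) = y := fun y => by
    change iterateFrobenius k q f y = RingHom.id k y ↔ _
    rw [iterateFrobenius_def, RingHom.id_apply]
  have hfin : Finite L := by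
    have h0 : (X ^ q ^ f - X : k[X]) ≠ 0 :=
      FiniteField.X_pow_card_pow_sub_X_ne_zero k hf (Fact.out : q.Prime).one_lt
    refine Set.Finite.to_subtype ((Polynomial.finite_setOfPred_isRoot h0).subset fun y hy => ?_)
    have := (hmem y).1 hy
    simp [IsRoot, this]
  have hchar : CharP L q := RingHom.charP L.subtype L.subtype_injective q
  let _ : Algebra (ZMod q) L := ZMod.algebra L q
  let γL : L →+* L := (γ.comp L.subtype).codRestrict L (fun y => by
    rw [hmem]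
    change γ (y : k) ^ (q ^ f) = γ (y : k)
    rw [← map_pow, (hmem _).1 y.2])
  let γA : L →ₐ[ZMod q] L :=
    { γL with
      commutes' := fun r => DFunLike.congr_fun
        (Subsingleton.elim (γL.comp (algebraMap (ZMod q) L)) (algebraMap (ZMod q) L)) r }
  obtain ⟨n, hn⟩ := (FiniteField.bijective_frobeniusAlgHom_pow (ZMod q) L).2 γA
  refine ⟨n, fun y hy => ?_⟩
  have h1 := DFunLike.congr_fun hn ⟨y, (hmem y).2 hy⟩
  simp only [AlgHom.coe_pow, FiniteField.coe_frobeniusAlgHom, pow_iterate, ZMod.card] at h1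
  have h2 := congrArg Subtype.val h1
  exact h2.symm

/-! ### rigidity of roots of unity of order prime to `l` -/

section Rigid

variable (A : ValuationSubring Qb) {l : ℕ}

theorem mem_of_pow_eq_one {N : ℕ} (hN : 0 < N) {z : Qb} (hz : z ^ N = 1) : z ∈ A :=
  Frob.mem_of_isIntegral A (IsIntegral.of_pow hN (by rw [hz]; exact isIntegral_one))

theorem natCast_mem_nonunits_of_root' {N : ℕ} (hN : 0 < N) {z : Qb} (hz : z ^ N = 1)
    (hz1 : z ≠ 1) (h : 1 - z ∈ A.nonunits) : (N : Qb) ∈ A.nonunits := by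
  have hzA : z ∈ A := mem_of_pow_eq_one A hN hz
  have h0 : ∑ k ∈ Finset.range N, z ^ k = 0 := by
    have := mul_neg_geom_sum z N
    rw [hz, sub_self] at this
    exact (mul_eq_zero.1 this).resolve_left (sub_ne_zero.2 hz1.symm)
  have h1 : (N : Qb) = ∑ k ∈ Finset.range N, (1 - z ^ k) := by
    rw [Finset.sum_sub_distrib, h0, sub_zero]
    simp
  rw [h1]
  refine sum_mem fun k _ => ?_
  rw [← mul_neg_geom_sum z k]
  exact Frob.mul_mem_nonunits A h (sum_mem fun j _ => pow_mem hzA j)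

variable {A}

theorem root_eq_of_sub_mem (hl : l.Prime) (hA : A.LiesOverPrime l) {N : ℕ} (hN : ¬ l ∣ N)
    {a b : Qb} (ha : a ^ N = 1) (hb : b ^ N = 1) (h : a - b ∈ A.nonunits) : a = b := by
  have hN0 : 0 < N := Nat.pos_of_ne_zero (by rintro rfl; exact hN (dvd_zero l))
  by_contra hne
  have hb0 : b ≠ 0 := by
    rintro rfl
    rw [zero_pow hN0.ne'] at hb
    exact zero_ne_one hb
  have hbinv : b⁻¹ ∈ A := mem_of_pow_eq_one A hN0 (by rw [inv_pow, hb, inv_one])
  have h2 : 1 - a * b⁻¹ ∈ A.nonunits := by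
    have h3 : 1 - a * b⁻¹ = -((a - b) * b⁻¹) := by
      field_simp
      ring
    rw [h3]
    exact neg_mem (Frob.mul_mem_nonunits A h hbinv)
  have h4 : (a * b⁻¹) ^ N = 1 := by rw [mul_pow, ha, inv_pow, hb, inv_one, one_mul]
  have h5 : a * b⁻¹ ≠ 1 := by
    intro h
    apply hne
    field_simp at h
    exact h
  have h6 := natCast_mem_nonunits_of_root' A hN0 h4 h5 h2
  have h7 : ¬ (l : ℤ) ∣ (N : ℤ) := fun h => hN (Int.natCast_dvd_natCast.1 h)
  exact Frob.int_not_mem_nonunits A hl hA h7 (by exact_mod_cast h6)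

end Rigid

/-! ### the action on the residue field -/

section Residue

variable {A : ValuationSubring Qb} {l : ℕ}

theorem residue_eq_iff (a b : A) :
    IsLocalRing.residue A a = IsLocalRing.residue A b ↔ (a : Qb) - b ∈ A.nonunits := by
  rw [← sub_eq_zero, ← map_sub, IsLocalRing.residue_eq_zero_iff,
    ValuationSubring.mem_nonunits_iff_exists_mem_maximalIdeal]
  constructor
  · intro h
    exact ⟨(a - b).2, h⟩
  · rintro ⟨_, h⟩
    exact h

theorem coe_smul (g : A.decompositionSubgroup ℚ) (a : A) : ((g • a : A) : Qb) = (g : GQ) (a : Qb) :=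
  rfl

theorem mem_inertia_iff (g : A.decompositionSubgroup ℚ) :
    (g : GQ) ∈ A.inertiaSubgroupIn ℚ ↔ ∀ y : IsLocalRing.ResidueField A, g • y = y := by
  rw [E.mem_inertiaSubgroupIn_iff]
  constructor
  · rintro ⟨_, h⟩ y
    obtain ⟨a, rfl⟩ := IsLocalRing.residue_surjective y
    rw [← IsLocalRing.ResidueField.residue_smul, residue_eq_iff]
    exact h a a.2
  · intro h
    refine ⟨g.2, fun x hx => ?_⟩
    have := h (IsLocalRing.residue A ⟨x, hx⟩)
    rw [← IsLocalRing.ResidueField.residue_smul, residue_eq_iff] at this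
    exact this

theorem frob_pow_smul {φ : GQ} (h : A.IsFrobeniusAt φ l) (m : ℕ)
    (y : IsLocalRing.ResidueField A) :
    ((⟨φ, h.mem_decompositionSubgroup⟩ : A.decompositionSubgroup ℚ) ^ m) • y = y ^ (l ^ m) := by
  induction m with
  | zero => simp
  | succ m ih => rw [pow_succ', mul_smul, ih, h.smul_residue_eq, ← pow_mul, pow_succ]

theorem charP_residue (hl : l.Prime) (hA : A.LiesOverPrime l) :
    CharP (IsLocalRing.ResidueField A) l := by
  refine (CharP.charP_iff_prime_eq_zero hl).2 ?_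
  have h1 : ((l : A) : Qb) - ((0 : A) : Qb) ∈ A.nonunits := by
    have h0 : ((l : A) : Qb) - ((0 : A) : Qb) = (l : Qb) := by simp
    rw [h0]
    exact hA
  have h2 := (residue_eq_iff (l : A) 0).2 h1
  rwa [map_natCast, map_zero] at h2

end Residue

/-! ### lifting inertia -/

section Lift

local notation "Zbar" => integralClosure ℤ (AlgebraicClosure ℚ)

variable {A : ValuationSubring Qb} {l : ℕ}

/-- an element of the decomposition group acting trivially on `Zbar / P` is in the inertia group -/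
theorem mem_inertia_of_Zbar (hl : l.Prime) (hA : A.LiesOverPrime l) {i : GQ}
    (hi : i ∈ A.decompositionSubgroup ℚ) (h : ∀ b : Zbar, i (b : Qb) - b ∈ A.nonunits) :
    i ∈ A.inertiaSubgroupIn ℚ := by
  refine (mem_inertia_iff (⟨i, hi⟩ : A.decompositionSubgroup ℚ)).2 fun y => ?_
  obtain ⟨a, rfl⟩ := IsLocalRing.residue_surjective y
  obtain ⟨s, hs, hsx⟩ := Frob.exists_denominator A hl hA a.2
  let sA : A := ⟨(s : Qb), Frob.mem_of_isIntegral A s.2⟩
  let bA : A := ⟨(s : Qb) * (a : Qb), Frob.mem_of_isIntegral A hsx⟩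
  have hba : bA = sA * a := rfl
  have key : ∀ (c : Zbar) (hc : (c : Qb) ∈ A),
      (⟨i, hi⟩ : A.decompositionSubgroup ℚ) • IsLocalRing.residue A ⟨(c : Qb), hc⟩ =
        IsLocalRing.residue A ⟨(c : Qb), hc⟩ := by
    intro c hc
    rw [← IsLocalRing.ResidueField.residue_smul, residue_eq_iff]
    exact h c
  have h1 := key s sA.2
  have h2 := key ⟨(s : Qb) * (a : Qb), hsx⟩ bA.2
  have h3 : IsLocalRing.residue A sA ≠ 0 := by
    intro h0
    rw [IsLocalRing.residue_eq_zero_iff] at h0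
    exact hs (ValuationSubring.mem_nonunits_iff_exists_mem_maximalIdeal.2 ⟨sA.2, h0⟩)
  change (⟨i, hi⟩ : A.decompositionSubgroup ℚ) • IsLocalRing.residue A bA =
    IsLocalRing.residue A bA at h2
  change (⟨i, hi⟩ : A.decompositionSubgroup ℚ) • IsLocalRing.residue A sA =
    IsLocalRing.residue A sA at h1
  rw [hba, map_mul, smul_mul', h1] at h2
  exact mul_left_cancel₀ h3 h2

theorem smul_primeOf_eq {h : GQ} (hD : h ∈ A.decompositionSubgroup ℚ) :
    h • Frob.primeOf A = Frob.primeOf A := by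
  have h1 : h • A = A := hD
  rw [← primeOf_smul, h1]

/-- an element of the decomposition group acting trivially on the residue field of `A ∩ N` is the product
of an element of the inertia group and an element of the decomposition group fixing `N` -/
theorem exists_inertia_mul (hl : l.Prime) (hA : A.LiesOverPrime l) (N : IntermediateField ℚ Qb)
    {h : GQ} (hD : h ∈ A.decompositionSubgroup ℚ)
    (hh : ∀ x ∈ N, x ∈ A → h x - x ∈ A.nonunits) :
    ∃ i ∈ A.inertiaSubgroupIn ℚ, ∃ d ∈ N.fixingSubgroup,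
      d ∈ A.decompositionSubgroup ℚ ∧ h = i * d := by
  have := Frob.isGaloisQbar
  have := Frob.isAlgebraicQbar
  let _ : TopologicalSpace Zbar := ⊥
  have : DiscreteTopology Zbar := ⟨rfl⟩
  have := Frob.continuousSMul_Zbar
  let H : Subgroup GQ := N.fixingSubgroup
  have hcl : IsClosed (H : Set GQ) := InfiniteGalois.fixingSubgroup_isClosed N
  have : CompactSpace H := isCompact_iff_compactSpace.mp hcl.isCompact
  let A' := FixedPoints.subalgebra ℤ Zbar H
  have : SMulCommClass H A' Zbar := ⟨fun g a b => by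
    change g • ((a : Zbar) * b) = (a : Zbar) * (g • b)
    rw [smul_mul', a.2 g]⟩
  have : Algebra.IsInvariant A' Zbar H := ⟨fun b hb => ⟨⟨b, hb⟩, rfl⟩⟩
  have hQ := Frob.primeOf_isPrime A
  let Q := Frob.primeOf A
  let P := Q.under A'
  have hhQ : h • Q = Q := smul_primeOf_eq hD
  let e0 := Ideal.Quotient.stabilizerHom Q (Q.under ℤ) GQ ⟨h, hhQ⟩
  have he0 : ∀ b : Zbar, e0 (Ideal.Quotient.mk Q b) = Ideal.Quotient.mk Q (h • b) := fun b => rfl
  let e' : (Zbar ⧸ Q) ≃ₐ[A' ⧸ P] (Zbar ⧸ Q) := AlgEquiv.ofRingEquiv (f := e0.toRingEquiv) (by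
    intro r
    obtain ⟨a, rfl⟩ := Ideal.Quotient.mk_surjective r
    change e0 (Ideal.Quotient.mk Q (a : Zbar)) = Ideal.Quotient.mk Q (a : Zbar)
    rw [he0, Ideal.Quotient.eq, Frob.mem_primeOf]
    refine hh _ ?_ (Frob.mem_of_isIntegral A (a : Zbar).2)
    rw [← InfiniteGalois.fixedField_fixingSubgroup N, IntermediateField.mem_fixedField_iff]
    intro g hg
    exact congrArg Subtype.val (a.2 ⟨g, hg⟩))
  obtain ⟨⟨d, hd⟩, hde⟩ := Ideal.Quotient.stabilizerHom_surjective_of_profinite (G := H) P Q e'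
  have hdQ : (d : GQ) • Q = Q := hd
  have hdD : (d : GQ) ∈ A.decompositionSubgroup ℚ := Frob.mem_decompositionSubgroup A hl hA hdQ
  have hcong : ∀ b : Zbar, h (b : Qb) - (d : GQ) (b : Qb) ∈ A.nonunits := by
    intro b
    have h1 := DFunLike.congr_fun hde (Ideal.Quotient.mk Q b)
    change Ideal.Quotient.mk Q (d • b) = Ideal.Quotient.mk Q (h • b) at h1
    rw [eq_comm, Ideal.Quotient.eq, Frob.mem_primeOf] at h1
    exact h1
  refine ⟨h * (d : GQ)⁻¹, ?_, d, d.2, hdD, by group⟩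
  refine mem_inertia_of_Zbar hl hA (mul_mem hD (inv_mem hdD)) fun b => ?_
  have h1 := hcong ((d : GQ)⁻¹ • b)
  have h2 : (d : GQ) ((((d : GQ)⁻¹ • b : Zbar)) : Qb) = (b : Qb) := by
    change (d : GQ) ((d : GQ)⁻¹ (b : Qb)) = (b : Qb)
    rw [← AlgEquiv.mul_apply, mul_inv_cancel, AlgEquiv.one_apply]
  rw [h2] at h1
  exact h1

end Lift

/-! ### the three properties -/

section Main

variable {A : ValuationSubring Qb} {l : ℕ}

theorem dvd_of_pow_sub_one_dvd {q n m : ℕ} (hq : 1 < q) (h : q ^ n - 1 ∣ q ^ m - 1) : n ∣ m := by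
  have h1 := Nat.pow_sub_one_gcd_pow_sub_one q n m
  rw [Nat.gcd_eq_left h] at h1
  have h2 : q ^ n = q ^ (Nat.gcd n m) := by
    have h3 : 0 < q ^ n := Nat.pow_pos (by omega)
    have h4 : 0 < q ^ (Nat.gcd n m) := Nat.pow_pos (by omega)
    omega
  have h5 := Nat.pow_right_injective hq h2
  rw [h5]
  exact Nat.gcd_dvd_right n m

/-- (gen), in `GQ` -/
theorem exists_frob_pow_mul (hl : l.Prime) (hA : A.LiesOverPrime l) {φ : GQ}
    (hφ : A.IsFrobeniusAt φ l) (F : IntermediateField ℚ Qb) (hF : FiniteDimensional ℚ F) {g : GQ}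
    (hg : g ∈ A.decompositionSubgroup ℚ) :
    ∃ k : ℕ, ∃ i ∈ A.inertiaSubgroupIn ℚ, ∃ d ∈ F.fixingSubgroup,
      d ∈ A.decompositionSubgroup ℚ ∧ (φ ^ k)⁻¹ * g = i * d := by
  obtain ⟨f, hf, _, hφf⟩ := Subgroup.exists_pow_mem_of_index_ne_zero
    (E.finiteIndex_fixingSubgroup F hF).index_ne_zero φ
  have : Fact l.Prime := ⟨hl⟩
  have := charP_residue hl hA
  let Φ : A.decompositionSubgroup ℚ := ⟨φ, hφ.mem_decompositionSubgroup⟩
  let G : A.decompositionSubgroup ℚ := ⟨g, hg⟩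
  obtain ⟨n, hn⟩ := exists_pow_of_ringHom l
    (MulSemiringAction.toRingHom (A.decompositionSubgroup ℚ) (IsLocalRing.ResidueField A) G) f hf.ne'
  refine ⟨n, exists_inertia_mul hl hA F (h := (φ ^ n)⁻¹ * g)
    (mul_mem (inv_mem (pow_mem hφ.mem_decompositionSubgroup n)) hg) fun x hxF hxA => ?_⟩
  let y := IsLocalRing.residue A ⟨x, hxA⟩
  have h1 : y ^ (l ^ f) = y := by
    rw [← frob_pow_smul hφ f y, ← IsLocalRing.ResidueField.residue_smul]
    congr 1
    apply Subtype.ext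
    change (φ ^ f) x = x
    exact (IntermediateField.mem_fixingSubgroup_iff F _).1 hφf x hxF
  have h2 : G • y = Φ ^ n • y := by
    rw [frob_pow_smul hφ n y]
    exact hn y h1
  have h3 : ((Φ ^ n)⁻¹ * G) • y = y := by rw [mul_smul, h2, inv_smul_smul]
  rw [← IsLocalRing.ResidueField.residue_smul, residue_eq_iff] at h3
  exact h3

/-- (inf), in `GQ` -/
theorem exists_root_level (hl : l.Prime) (hA : A.LiesOverPrime l) {φ : GQ}
    (hφ : A.IsFrobeniusAt φ l) {n : ℕ} (hn : 0 < n) :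
    ∃ ζ : Qb, (∀ i ∈ A.inertiaSubgroupIn ℚ, i ζ = ζ) ∧ ∀ m : ℕ, (φ ^ m) ζ = ζ → n ∣ m := by
  have hN1 : 1 < l ^ n := Nat.one_lt_pow hn.ne' hl.one_lt
  have : NeZero (l ^ n - 1) := ⟨by omega⟩
  have hlN : ¬ l ∣ l ^ n - 1 := by
    intro h
    have h1 : l ∣ l ^ n := dvd_pow_self l hn.ne'
    have h2 : l ∣ 1 := by
      have := (Nat.dvd_sub h1 h)
      rwa [Nat.sub_sub_self hN1.le] at this
    exact hl.one_lt.ne' (Nat.dvd_one.1 h2)
  obtain ⟨ζ, hζ⟩ := HasEnoughRootsOfUnity.exists_primitiveRoot Qb (l ^ n - 1)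
  have hζA : ζ ∈ A := mem_of_pow_eq_one A (NeZero.pos _) hζ.pow_eq_one
  refine ⟨ζ, fun i hi => ?_, fun m hm => ?_⟩
  · refine root_eq_of_sub_mem hl hA hlN ?_ hζ.pow_eq_one
      (((E.mem_inertiaSubgroupIn_iff A i).1 hi).2 ζ hζA)
    rw [← map_pow, hζ.pow_eq_one, map_one]
  · have h1 := frob_pow_smul hφ m (IsLocalRing.residue A ⟨ζ, hζA⟩)
    rw [← IsLocalRing.ResidueField.residue_smul, ← map_pow, residue_eq_iff] at h1
    have h2 : ζ - ζ ^ (l ^ m) ∈ A.nonunits := by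
      have h3 : (φ ^ m) ζ - ζ ^ (l ^ m) ∈ A.nonunits := h1
      rwa [hm] at h3
    have h4 : ζ = ζ ^ (l ^ m) := by
      refine root_eq_of_sub_mem hl hA hlN hζ.pow_eq_one ?_ h2
      rw [← pow_mul, mul_comm, pow_mul, hζ.pow_eq_one, one_pow]
    have h5 : ζ ^ (l ^ m - 1) = 1 := by
      have h6 : 0 < l ^ m := Nat.pow_pos hl.pos
      have h7 : ζ ^ (l ^ m) = ζ ^ (l ^ m - 1) * ζ := by
        rw [← pow_succ, Nat.sub_add_cancel h6]
      rw [h7] at h4
      have hζ0 : ζ ≠ 0 := hζ.ne_zero (NeZero.ne _)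
      exact (mul_right_cancel₀ hζ0 (by rw [one_mul]; exact h4)).symm
    exact dvd_of_pow_sub_one_dvd hl.one_lt (hζ.dvd_of_pow_eq_one _ h5)

end Main

/-- **`D_q / I_q` is procyclic, generated by a Frobenius** -/
theorem proCyc_of_isFrobeniusAt (q : Nat.Primes) (φ : ↥(Dq q))
    (hφ : (primeLocalPlace q).IsFrobeniusAt (φ : GQ) (q : ℕ)) :
    ProCyc (lvlD q) ((Iq q).subgroupOf (Dq q)) φ where
  normal := ⟨fun n hn g => by
    rw [Subgroup.mem_subgroupOf] at hn ⊢
    have h1 := E.conj_mem_inertia_smul (A := primeLocalPlace q) hn (g : GQ)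
    have h2 : (g : GQ) • primeLocalPlace q = primeLocalPlace q := g.2
    rw [h2] at h1
    exact h1⟩
  gen := by
    rintro U ⟨_, ⟨_, ⟨F, hF, rfl⟩, rfl⟩, hVU⟩ hIU g
    obtain ⟨k, i, hi, d, hdF, hdD, h⟩ := exists_frob_pow_mul q.2 (liesOverPrime_primeLocalPlace q)
      hφ F hF g.2
    have hiD : i ∈ Dq q := ((E.mem_inertiaSubgroupIn_iff _ i).1 hi).1
    refine ⟨k, ?_⟩
    have h1 : (φ ^ k)⁻¹ * g = (⟨i, hiD⟩ : ↥(Dq q)) * ⟨d, hdD⟩ := Subtype.ext h
    rw [h1]
    exact U.mul_mem (hIU (Subgroup.mem_subgroupOf.2 hi)) (hVU hdF)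
  inf := by
    intro n hn
    obtain ⟨ζ, h1, h2⟩ := exists_root_level q.2 (liesOverPrime_primeLocalPlace q) hφ hn
    have := Frob.isAlgebraicQbar
    refine ⟨(MulAction.stabilizer GQ ζ).comap (Dq q).subtype,
      ⟨_, ⟨_, ⟨IntermediateField.adjoin ℚ {ζ}, ?_, rfl⟩, rfl⟩, ?_⟩, ?_, ?_⟩
    · exact IntermediateField.adjoin.finiteDimensional
        (Algebra.IsAlgebraic.isAlgebraic ζ).isIntegral
    · intro g hg
      exact (IntermediateField.mem_fixingSubgroup_iff _ _).1 hg ζ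
        (IntermediateField.mem_adjoin_simple_self ℚ ζ)
    · intro i hi
      exact h1 _ (Subgroup.mem_subgroupOf.1 hi)
    · intro m hm
      exact h2 m hm

theorem exists_proCyc (q : Nat.Primes) :
    ∃ φ : ↥(Dq q), (primeLocalPlace q).IsFrobeniusAt (φ : GQ) (q : ℕ) ∧
      ProCyc (lvlD q) ((Iq q).subgroupOf (Dq q)) φ := by
  obtain ⟨σ, hσ⟩ := Frob.exists_isFrobeniusAt (primeLocalPlace q) q.2
    (liesOverPrime_primeLocalPlace q)
  exact ⟨⟨σ, hσ.mem_decompositionSubgroup⟩, hσ, proCyc_of_isFrobeniusAt q _ hσ⟩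

/-- **(U1)** for `D_q`: `H²_ur = 0` -/
theorem U1_Dq (q : Nat.Primes) {p : ℕ} (hp : 0 < p) {X : Type*} [AddCommGroup X]
    {ρ : ↥(Dq q) →* AddMonoid.End X} (hpX : ∀ x : X, p • x = 0) {z : ↥(Dq q) → ↥(Dq q) → X}
    (hz : z ∈ Z2 (lvlD q) ρ)
    (hzI : ∀ i : ↥(Dq q), (i : GQ) ∈ Iq q → ∀ g g', z (g * i) g' = z g g' ∧ z g (g' * i) = z g g') :
    ∃ b : ↥(Dq q) → X, LC1 (lvlD q) b ∧ (∀ i : ↥(Dq q), (i : GQ) ∈ Iq q → ∀ g, b (g * i) = b g) ∧
      z = d1 ρ b := by
  obtain ⟨φ, _, h⟩ := exists_proCyc q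
  exact h.U1 hp hpX hz hzI

/-- **(U2)** for `D_q`: `H¹_ur` is right exact -/
theorem U2_Dq (q : Nat.Primes) {p : ℕ} (hp : 0 < p) {X Y : Type*} [AddCommGroup X]
    [AddCommGroup Y] {ρX : ↥(Dq q) →* AddMonoid.End X} {ρY : ↥(Dq q) →* AddMonoid.End Y}
    (hsm : Smooth (lvlD q) ρX) (hIX : ∀ i : ↥(Dq q), (i : GQ) ∈ Iq q → ∀ x, ρX i x = x)
    (hpX : ∀ x : X, p • x = 0) {j : X →+ Y} (hj : IsHom ρX ρY j) (hsurj : Function.Surjective j)
    {c : ↥(Dq q) → Y} (hc : c ∈ Z1 (lvlD q) ρY)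
    (hcI : ∀ i : ↥(Dq q), (i : GQ) ∈ Iq q → ∀ g, c (g * i) = c g) :
    ∃ c' ∈ Z1 (lvlD q) ρX, (∀ i : ↥(Dq q), (i : GQ) ∈ Iq q → ∀ g, c' (g * i) = c' g) ∧
      ∀ g, j (c' g) = c g := by
  obtain ⟨φ, _, h⟩ := exists_proCyc q
  exact h.U2 hp hsm hIX hpX hj hsurj hc hcI

end Fermat.Agent.S55.D
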