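import Fermat.Agent.S55.D.Zero
import Fermat.Agent.S55.A.Main

/-!
# S55 / layer D : inputs from the formal layer A (helper8) and existence of good `G`-sets

Everything is stated for `G = GQ`, `lvlQ`, `Dq`, `χ = cycloChar p` and a `Datum`.  helper8: these are the
statements D consumes; fill them by one-liners from your general theorems (or tell helper15 the shape you prefer).
`tloc dat v hφ x = t_v (φ_* x)`.
-/

set_option autoImplicit false

noncomputable section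

namespace Fermat.Agent.S55.D

open ExtCitation

variable {p : ℕ} [Fact p.Prime]

/-- `T = μ_p` restricted to `D_v` -/
abbrev Tv (p : ℕ) [Fact p.Prime] (v : Nat.Primes) : ↥(Dq v) →* AddMonoid.End (ZMod p) :=
  rv Dq (rhoChi (cycloChar p)) v

/-- `x ↦ t_v (φ_* x)` -/
def tloc (dat : Datum p lvlQ (cycloChar p) Dq) (v : Nat.Primes) {X : Type*} [AddCommGroup X]
    {ρv : ↥(Dq v) →* AddMonoid.End X} {φ : X →+ ZMod p} (hφ : IsHom ρv (Tv p v) φ) :
    H2 (lvlD v) ρv →+ ZMod p :=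
  (dat.t v).comp (H2c (lvlD v) hφ)

variable (dat : Datum p lvlQ (cycloChar p) Dq)

/-- `μ_p` is smooth -/
theorem smooth_rhoT_lvlQ_aux (p : ℕ) [Fact p.Prime] : Smooth lvlQ (rhoChi (cycloChar p)) :=
  smooth_lvlQ_aux (S := {pPrime p}) (smooth_lvlS_rhoT p (Finset.mem_singleton_self _))

omit [Fact p.Prime] in
theorem finMod_lvlQ_aux {S : Finset Nat.Primes} {A : Type*} [AddCommGroup A]
    {ρ : GQ →* AddMonoid.End A} (hM : FinMod p (lvlS S) ρ) : FinMod p lvlQ ρ :=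
  ⟨hM.fin, hM.tors, smooth_lvlQ_aux hM.smooth⟩

/-- **(Loc-2, injectivity)** [layer A] -/
theorem loc2_inj (v : Nat.Primes) {X : Type} [AddCommGroup X] (ρv : ↥(Dq v) →* AddMonoid.End X)
    (hX : FinMod p (lvlD v) ρv) (x : H2 (lvlD v) ρv)
    (h : ∀ (φ : X →+ ZMod p) (hφ : IsHom ρv (Tv p v) φ), tloc dat v hφ x = 0) : x = 0 := by
  refine (dat.loc v).inj ((smooth_rhoT_lvlQ_aux p).res lvlQ (Dq v).subtype) hX x ?_
  ext φ
  exact h φ.1 (isHom_of_mem φ.2)

/-- **(Loc-2, surjectivity)** [layer A] : every functional on `Hom_{D_v}(X, T)` comes from `H²(D_v, X)` -/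
theorem loc2_surj (v : Nat.Primes) {X : Type} [AddCommGroup X] (ρv : ↥(Dq v) →* AddMonoid.End X)
    (hX : FinMod p (lvlD v) ρv) (l : (X →+ ZMod p) →+ ZMod p) :
    ∃ x : H2 (lvlD v) ρv, ∀ (φ : X →+ ZMod p) (hφ : IsHom ρv (Tv p v) φ), tloc dat v hφ x = l φ := by
  obtain ⟨y, hy⟩ := (dat.loc v).exists_pair_eq ((smooth_rhoT_lvlQ_aux p).res lvlQ (Dq v).subtype) hX
    (l.comp (H0 (dualRho ((cycloChar p).comp (Dq v).subtype) ρv)).subtype)
  refine ⟨y, fun φ hφ => ?_⟩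
  exact DFunLike.congr_fun hy (⟨φ, mem_H0_dualRho.2 hφ⟩ :
    ↥(H0 (dualRho ((cycloChar p).comp (Dq v).subtype) ρv)))

/-- **(Fin)** a global class is locally trivial almost everywhere [layer A] -/
theorem finite_loc2 (_dat : Datum p lvlQ (cycloChar p) Dq) {X : Type} [AddCommGroup X]
    (ρX : GQ →* AddMonoid.End X)
    (hX : FinMod p lvlQ ρX) (w : H2 lvlQ ρX) : {v | loc2 ρX v w ≠ 0}.Finite :=
  _dat.fin_all (smooth_rhoT_lvlQ_aux p) hX w

/-- **(Rec)** reciprocity [layer A, from `dat.recip`] -/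
theorem recip {X : Type} [AddCommGroup X] (ρX : GQ →* AddMonoid.End X)
    (hX : FinMod p lvlQ ρX) (w : H2 lvlQ ρX) (φ : X →+ ZMod p)
    (hφ : IsHom ρX (rhoChi (cycloChar p)) φ) :
    ∑ᶠ v, tloc dat v (hφ.res (Dq v).subtype) (loc2 ρX v w) = 0 :=
  dat.recip' w ⟨φ, mem_H0_dualRho.2 hφ⟩

/-- **(G0')** a family of local classes killed by all global functionals is global [layer A] -/
theorem glob2 {X : Type} [AddCommGroup X] (ρX : GQ →* AddMonoid.End X)
    (hX : FinMod p lvlQ ρX) (z : ∀ v, H2 (lvlD v) (rv Dq ρX v)) (hz : {v | z v ≠ 0}.Finite)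
    (h : ∀ (φ : X →+ ZMod p) (hφ : IsHom ρX (rhoChi (cycloChar p)) φ),
      ∑ᶠ v, tloc dat v (hφ.res (Dq v).subtype) (z v) = 0) :
    ∃ w : H2 lvlQ ρX, ∀ v, loc2 ρX v w = z v := by
  have : Nonempty Nat.Primes := ⟨pPrime p⟩
  obtain ⟨w, hw⟩ := dat.glob (smooth_rhoT_lvlQ_aux p) hX z hz
    (fun φ => h φ.1 (isHom_of_mem φ.2))
  exact ⟨w, fun v => congrFun hw v⟩

variable (S : Finset Nat.Primes) {A : Type} [AddCommGroup A] (ρ : GQ →* AddMonoid.End A)

/-- untwisting over a coset space `G ⧸ R` (`R` any subgroup acting trivially) -/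
theorem isInd_coset_aux {X : Type} [AddCommGroup X] {ρX : GQ →* AddMonoid.End X}
    (hX : FinMod p lvlQ ρX) {R : Subgroup GQ} (hfin : Finite (GQ ⧸ R))
    (hsm : SmoothSet (cosetPerm R) lvlQ) (h1 : TrivOn R ρX)
    (h2 : TrivOn R (rhoChi (cycloChar p))) :
    IsInd lvlQ (cycloChar p) (Fn (cosetPerm R) ρX) := by
  have := hX.fin
  obtain ⟨n, ⟨e⟩⟩ := LA.exists_equiv_fun (p := p) hX.tors
  have : Fintype (GQ ⧸ R) := Fintype.ofFinite _
  have h3 : TrivOn R (Fn (1 : GQ →* Equiv.Perm (Fin n)) (rhoChi (cycloChar p))) := by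
    intro u hu f
    ext i
    rw [Fn_apply, h2 u hu]
    rfl
  refine ⟨(GQ ⧸ R) × Fin n, inferInstance, prodPerm (cosetPerm R) 1,
    (uncurryFn (GQ ⧸ R) (Fin n) (ZMod p)).comp
      (tw R ρX (Fn 1 (rhoChi (cycloChar p))) e.toAddMonoidHom),
    (tw R (Fn 1 (rhoChi (cycloChar p))) ρX e.symm.toAddMonoidHom).comp
      (curryFn (GQ ⧸ R) (Fin n) (ZMod p)),
    smoothSet_prodPerm hsm smoothSet_one,
    (isHom_uncurryFn _ _ _).comp (isHom_tw h1 h3 _), (isHom_tw h3 h1 _).comp (isHom_curryFn _ _ _),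
    fun x => ?_⟩
  rw [AddMonoidHom.comp_apply, AddMonoidHom.comp_apply, curryFn_uncurryFn, tw_tw]
  have : e.symm.toAddMonoidHom.comp e.toAddMonoidHom = AddMonoidHom.id X := by
    ext c; simp
  rw [this, tw_id]

/-- a retract of an induced module is induced -/
theorem isInd_of_retract_aux {X Y : Type} [AddCommGroup X] [AddCommGroup Y]
    {ρX : GQ →* AddMonoid.End X} {ρY : GQ →* AddMonoid.End Y}
    (hY : IsInd lvlQ (cycloChar p) ρY) {a : X →+ Y} {b : Y →+ X} (ha : IsHom ρX ρY a)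
    (hb : IsHom ρY ρX b) (hab : ∀ x, b (a x) = x) : IsInd lvlQ (cycloChar p) ρX := by
  obtain ⟨Sg, i, π, a', b', hπ, ha', hb', hab'⟩ := hY
  exact ⟨Sg, i, π, a'.comp a, b.comp b', hπ, ha'.comp ha, hb.comp hb', fun x => by
    rw [AddMonoidHom.comp_apply, AddMonoidHom.comp_apply, hab', hab]⟩

/-- **untwisting** for good `G`-sets -/
theorem isInd_of_good (hM : FinMod p (lvlS S) ρ) {Sg : Type} [Fintype Sg]
    (π : GQ →* Equiv.Perm Sg) (hπ : Good S ρ p π) : IsInd lvlQ (cycloChar p) (Fn π ρ) := by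
  obtain ⟨s₀⟩ := hπ.trans.1
  let R : Subgroup GQ := (MulAction.stabilizer (Equiv.Perm Sg) s₀).comap π
  have hR : ∀ g, g ∈ R ↔ π g s₀ = s₀ := fun g => Iff.rfl
  have hfix : ∀ u ∈ R, π u s₀ = s₀ := fun u hu => (hR u).1 hu
  have hinj : Function.Injective (orbitMap π s₀ hfix) := by
    intro a b
    induction a using QuotientGroup.induction_on with
    | H x =>
    induction b using QuotientGroup.induction_on with
    | H y =>
      intro hxy
      rw [orbitMap_mk, orbitMap_mk] at hxy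
      rw [QuotientGroup.eq, hR, map_mul, Equiv.Perm.mul_apply, ← hxy, map_inv]
      simp
  have hsurj : Function.Surjective (orbitMap π s₀ hfix) := by
    intro s
    obtain ⟨g, hg⟩ := hπ.trans.2 s₀ s
    exact ⟨(g : GQ ⧸ R), hg⟩
  have hfin : Finite (GQ ⧸ R) := Finite.of_injective _ hinj
  have hsm : SmoothSet (cosetPerm R) lvlQ := by
    obtain ⟨U, hU, hu⟩ := hπ.smooth
    refine ⟨U, lvlS_sets_subset S hU, fun u hu' => ?_⟩
    ext x
    apply hinj
    rw [isSetMap_orbitMap π s₀ hfix u x, hu u hu']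
    rfl
  have h1 : TrivOn R ρ := fun u hu a => by
    rw [(hπ.triv u s₀ (hfix u hu)).1]
    rfl
  have h2 : TrivOn R (rhoChi (cycloChar p)) := fun u hu a => by
    rw [rhoChi_apply, (hπ.triv u s₀ (hfix u hu)).2]
    simp
  have hI := isInd_coset_aux (finMod_lvlQ_aux hM) hfin hsm h1 h2
  let e : (GQ ⧸ R) ≃ Sg := Equiv.ofBijective _ ⟨hinj, hsurj⟩
  have he : IsSetMap π (cosetPerm R) e := isSetMap_orbitMap π s₀ hfix
  have he' : IsSetMap (cosetPerm R) π e.symm := by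
    intro g s
    apply e.injective
    rw [he, e.apply_symm_apply, e.apply_symm_apply]
  refine isInd_of_retract_aux hI (isHom_pull ρ he) (isHom_pull ρ he') (fun f => ?_)
  ext s
  rw [pull_apply, pull_apply, e.apply_symm_apply]

/-- **(Hasse)** for induced modules [layer A, from `dat.hasse` + untwisting] -/
theorem hasse_Fn (_dat : Datum p lvlQ (cycloChar p) Dq) (hM : FinMod p (lvlS S) ρ) {Sg : Type} [Fintype Sg] (π : GQ →* Equiv.Perm Sg)
    (hπ : Good S ρ p π) (x : H2 lvlQ (Fn π ρ)) (hx : x ∈ ShaA2 lvlQ Dq (Fn π ρ)) : x = 0 :=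
  _dat.hasse_ind (isInd_of_good S ρ hM π hπ) x (funext hx)

/-- **(Ш¹)** for the dual of an induced module [layer A, from `dat.sha1` + untwisting] -/
theorem sha1_dual_Fn (_dat : Datum p lvlQ (cycloChar p) Dq) (hM : FinMod p (lvlS S) ρ) {Sg : Type} [Fintype Sg]
    (π : GQ →* Equiv.Perm Sg) (hπ : Good S ρ p π)
    (x : H1 lvlQ (dualRho (cycloChar p) (Fn π ρ)))
    (hx : x ∈ ShaA1 lvlQ Dq (dualRho (cycloChar p) (Fn π ρ))) : x = 0 :=
  sha1_ind _dat (isInd_of_good S ρ hM π hπ) x hx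

/-- `μ_p` is `S`-smooth [key S55/D-U34, helper25] -/
theorem smooth_rhoT_lvlS (hpS : pPrime p ∈ S) : Smooth (lvlS S) (rhoChi (cycloChar p)) :=
  smooth_lvlS_rhoT p hpS

/-- existence of good `G`-sets below a given one and with small stabilisers
[key S55/D-GOOD: `U` a normal `S`-level contained in `U₁`, in the kernel of `π₀`, `ρ` (`FinMod.exists_trivial`) and
`cycloChar p` (`smooth_rhoT_lvlS`); `Sg = GQ ⧸ U`, `π = cosetPerm U`, `j (g U) = π₀ g s₀`] -/
theorem exists_good_le (hpS : pPrime p ∈ S) (hM : FinMod p (lvlS S) ρ) {Sg₀ : Type}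
    (π₀ : GQ →* Equiv.Perm Sg₀) (h₀ : SmoothSet π₀ (lvlS S)) (s₀ : Sg₀)
    (U₁ : Subgroup GQ) (hU₁ : U₁ ∈ (lvlS S).sets) :
    ∃ (Sg : Type) (_ : Fintype Sg) (π : GQ →* Equiv.Perm Sg) (j : Sg → Sg₀),
      IsSetMap π₀ π j ∧ Good S ρ p π ∧ ∀ g s, π g s = s → g ∈ U₁ := by
  obtain ⟨U₀, hU₀, h₀'⟩ := h₀
  obtain ⟨U₂, hU₂, -, h₂⟩ := hM.exists_trivial
  obtain ⟨U₃, hU₃, h₃⟩ := smooth_rhoT_lvlS (p := p) S hpS 1
  obtain ⟨W, hW, hW'⟩ := (lvlS S).inter U₀ hU₀ U₂ hU₂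
  obtain ⟨W₂, hW₂, hW₂'⟩ := (lvlS S).inter W hW U₃ hU₃
  obtain ⟨W₃, hW₃, hW₃'⟩ := (lvlS S).inter W₂ hW₂ U₁ hU₁
  obtain ⟨U, hU, hUW, hn⟩ := (lvlS S).normal W₃ hW₃
  have hUU₁ : U ≤ U₁ := fun g hg => (hW₃' (hUW hg)).2
  have hUU₃ : U ≤ U₃ := fun g hg => (hW₂' (hW₃' (hUW hg)).1).2
  have hUU₂ : U ≤ U₂ := fun g hg => (hW' (hW₂' (hW₃' (hUW hg)).1).1).2
  have hUU₀ : U ≤ U₀ := fun g hg => (hW' (hW₂' (hW₃' (hUW hg)).1).1).1
  have hfi := (lvlS S).fin U hU
  have hfin : Finite (GQ ⧸ U) := Subgroup.finite_quotient_of_finiteIndex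
  have hstab : ∀ (g : GQ) (s : GQ ⧸ U), cosetPerm U g s = s → g ∈ U := by
    intro g s
    induction s using QuotientGroup.induction_on with
    | H h =>
      intro hs
      have h1 : ((g * h : GQ) : GQ ⧸ U) = (h : GQ ⧸ U) := hs
      rw [eq_comm, QuotientGroup.eq] at h1
      have h2 := hn.conj_mem _ h1 h
      have h3 : h * (h⁻¹ * (g * h)) * h⁻¹ = g := by group
      rwa [h3] at h2
  let j : GQ ⧸ U → Sg₀ := Quotient.lift (fun g : GQ => π₀ g s₀) (by
    intro a b hab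
    have h1 : a⁻¹ * b ∈ U := QuotientGroup.leftRel_apply.1 hab
    have h2 : b = a * (a⁻¹ * b) := by group
    change π₀ a s₀ = π₀ b s₀
    rw [h2, map_mul, h₀' _ (hUU₀ h1), mul_one])
  refine ⟨GQ ⧸ U, Fintype.ofFinite _, cosetPerm U, j, ?_, ⟨⟨U, hU, fun u hu => ?_⟩, ?_, ?_⟩, ?_⟩
  · intro g s
    induction s using QuotientGroup.induction_on with
    | H h =>
      change π₀ (g * h) s₀ = π₀ g (π₀ h s₀)
      rw [map_mul]
      rfl
  · ext x
    induction x using QuotientGroup.induction_on with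
    | H g =>
      change ((u * g : GQ) : GQ ⧸ U) = (g : GQ ⧸ U)
      rw [eq_comm, QuotientGroup.eq]
      have : g⁻¹ * (u * g) = g⁻¹ * u * g⁻¹⁻¹ := by group
      rw [this]
      exact hn.conj_mem u hu g⁻¹
  · refine ⟨⟨((1 : GQ) : GQ ⧸ U)⟩, fun a b => ?_⟩
    induction a using QuotientGroup.induction_on with
    | H g =>
      induction b using QuotientGroup.induction_on with
      | H g' => exact ⟨g' * g⁻¹, by
          change ((g' * g⁻¹ * g : GQ) : GQ ⧸ U) = _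
          simp⟩
  · intro g s hs
    have hg := hstab g s hs
    refine ⟨?_, ?_⟩
    · ext a
      exact h₂ g (hUU₂ hg) a
    · have h1 := h₃ g (hUU₃ hg)
      rw [rhoChi_apply, mul_one] at h1
      exact Units.ext h1
  · intro g s hs
    exact hUU₁ (hstab g s hs)

theorem exists_good (hpS : pPrime p ∈ S) (hM : FinMod p (lvlS S) ρ) :
    ∃ (Sg : Type) (_ : Fintype Sg) (π : GQ →* Equiv.Perm Sg), Good S ρ p π := by
  obtain ⟨U, hU⟩ := (lvlS S).nonempty
  obtain ⟨Sg, i, π, _, _, h, _⟩ := exists_good_le S ρ hpS hM (1 : GQ →* Equiv.Perm Unit)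
    ⟨U, hU, fun _ _ => rfl⟩ () U hU
  exact ⟨Sg, i, π, h⟩

end Fermat.Agent.S55.D
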