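import Fermat.Agent.S55.D.Cap
import Fermat.Agent.S55.D.InputsA

/-!
# S55 / layer D : step D4 (ONTO)  `infl2 : Ш²_S → Ш²_all` is onto

`x ∈ ShaA2`.  `π` good (`exists_good`), `I = Fn π ρ`, `0 → ρ → I → Q → 0` (`ses_cok (isHom_eta π ρ)`).
`eta_* x ∈ ShaA2 (Fn π ρ)` (`res2_H2c`), so `eta_* x = 0` (`hasse_Fn`), `x = delta1 y`, `y ∈ H¹(G, Q)`
(`H2c_i_eq_zero_iff`).  For every `v`: `delta1 (loc_v y) = loc_v x = 0` (`res2_delta1`), so `loc_v y = pr_* u_v`,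
`u_v ∈ H¹(D_v, I)` (`delta1_eq_zero_iff`); if `loc_v y` is unramified (almost all `v`, `locFam_mem_FamG`) choose
`u_v` unramified (`H1ur_surjective`).  So `u ∈ FamG S I`.  `cap` gives `π'`, `j`, and `w ∈ H¹(G, I')` with
`loc_v w ~ pull_* u_v` (`v ∉ S`).  `pull` induces `Q → Q'`; `y'' = pullbar_* y - pr'_* w ∈ H¹(G, Q')` is unramified outside
`S`, so `y'' = infl1 ỹ` (`mem_range_infl1_iff`; `Q'` is `S`-smooth), and
`x = delta1' (pullbar_* y) = delta1' y'' = infl2 (delta1'_S ỹ)` (`delta1_natural` twice: for the morphism of sequences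
`(id, pull, pullbar)` and for the change of levels `lvlMap_infl S`).
-/

set_option autoImplicit false

namespace Fermat.Agent.S55.D

open ExtCitation

variable {p : ℕ} [Fact p.Prime] (S : Finset Nat.Primes)
  {A : Type} [AddCommGroup A] (ρ : GQ →* AddMonoid.End A)

/-- [key S55/D-4] **D4** -/
theorem exists_infl2_eq (_dat : Datum p lvlQ (cycloChar p) Dq) (hpS : pPrime p ∈ S) (hM : FinMod p (lvlS S) ρ) (x : H2 lvlQ ρ)
    (hx : x ∈ ShaA2 lvlQ Dq ρ) : ∃ y : H2 (lvlS S) ρ, infl2 S ρ y = x := by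
  have := hM.fin
  obtain ⟨Sg, _, π, hπ⟩ := exists_good S ρ hpS hM
  obtain ⟨s₀⟩ := hπ.trans.1
  have hinj : Function.Injective (eta Sg A) := fun a a' h => congrFun h s₀
  have Ses := ses_cok (isHom_eta π ρ) hinj
  have hIs : Smooth (lvlS S) (Fn π ρ) := (FinMod.fn hπ.smooth hM).smooth
  have hIQ : Smooth lvlQ (Fn π ρ) := smooth_lvlQ_aux hIs
  have h0 : H2c lvlQ Ses.hi x = 0 := by
    refine hasse_Fn S ρ _dat hM π hπ _ fun v => ?_
    rw [res2_H2c, hx v, map_zero]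
  obtain ⟨y, rfl⟩ := (H2c_i_eq_zero_iff Ses hIQ x).1 h0
  -- local lifts
  have hloc : ∀ v : Nat.Primes, ∃ u : H1 (lvlD v) (rv Dq (Fn π ρ) v),
      H1c (lvlD v) (Ses.hj.res (Dq v).subtype) u = loc1 _ v y ∧
        (v ∉ S → loc1 _ v y ∈ H1ur v _ → u ∈ H1ur v _) := by
    intro v
    by_cases hv : v ∉ S ∧ loc1 _ v y ∈ H1ur v _
    · obtain ⟨u, hu, huy⟩ := H1ur_surjective v _ _ (hIQ.res lvlQ (Dq v).subtype)
        (fun i hi => rho_Iq hIs hv.1 i hi) (Ses.hj.res (Dq v).subtype) Ses.surj _ hv.2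
      exact ⟨u, huy, fun _ _ => hu⟩
    · have h1 := hx v
      rw [res2_delta1] at h1
      obtain ⟨u, hu⟩ := (delta1_eq_zero_iff _ _ _).1 h1
      exact ⟨u, hu, fun h2 h3 => absurd ⟨h2, h3⟩ hv⟩
  choose u hu hur using hloc
  have huF : u ∈ FamG S (Fn π ρ) := by
    refine Set.Finite.subset (locFam_mem_FamG S _ y) ?_
    rintro v ⟨hv, h⟩
    exact ⟨hv, fun h1 => h (hur v hv h1)⟩
  obtain ⟨Sg', _, π', j, hj, hπ', hglob⟩ := cap S hpS ρ hM π hπ u huF
  obtain ⟨w, hw⟩ := (mem_GlobG S _).1 hglob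
  obtain ⟨s₀'⟩ := hπ'.trans.1
  have hinj' : Function.Injective (eta Sg' A) := fun a a' h => congrFun h s₀'
  have Ses' := ses_cok (isHom_eta π' ρ) hinj'
  have hIs' : Smooth (lvlS S) (Fn π' ρ) := (FinMod.fn hπ'.smooth hM).smooth
  have hIQ' : Smooth lvlQ (Fn π' ρ) := smooth_lvlQ_aux hIs'
  have hQs' := Ses'.smoothC hIs'
  -- the induced map on the quotients
  have hle : (eta Sg A).range ≤ (eta Sg' A).range.comap (pull A j) := by
    rintro _ ⟨a, rfl⟩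
    exact ⟨a, rfl⟩
  set pb : ((Sg → A) ⧸ (eta Sg A).range) →+ ((Sg' → A) ⧸ (eta Sg' A).range) :=
    QuotientAddGroup.map _ _ (pull A j) hle with hpbdef
  have hpbmk : ∀ b, QuotientAddGroup.mk' (eta Sg' A).range (pull A j b) =
      pb (QuotientAddGroup.mk' (eta Sg A).range b) := fun b => rfl
  have hpb : IsHom (quotRho (stable_range (isHom_eta π ρ)))
      (quotRho (stable_range (isHom_eta π' ρ))) pb := by
    intro g q
    obtain ⟨b, rfl⟩ := QuotientAddGroup.mk'_surjective _ q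
    have h1 := Ses.hj g b
    have h2 := Ses'.hj g (pull A j b)
    rw [← h1, ← hpbmk, ← hpbmk, ← h2, isHom_pull ρ hj g b]
  set y'' : H1 lvlQ (quotRho (stable_range (isHom_eta π' ρ))) :=
    H1c lvlQ hpb y - H1c lvlQ Ses'.hj w with hy''
  have hur'' : ∀ v ∉ S, loc1 _ v y'' ∈ H1ur v (rv Dq _ v) := by
    intro v hv
    have h1 := H1c_mem_H1ur v (Ses'.hj.res (Dq v).subtype) (hw v hv)
    have h2 : loc1 _ v (H1c lvlQ Ses'.hj w) =
        H1c (lvlD v) (Ses'.hj.res (Dq v).subtype) (loc1 _ v w) :=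
      res1_H1c lvlQ (Dq v).subtype Ses'.hj w
    have h3 : loc1 _ v (H1c lvlQ hpb y) =
        H1c (lvlD v) (hpb.res (Dq v).subtype) (loc1 _ v y) :=
      res1_H1c lvlQ (Dq v).subtype hpb y
    have h4 : H1c (lvlD v) (hpb.res (Dq v).subtype) (loc1 _ v y) =
        H1c (lvlD v) (Ses'.hj.res (Dq v).subtype) (famMap (isHom_pull ρ hj) u v) := by
      rw [← hu v, famMap_apply]
      have hc : IsHom (rv Dq (Fn π ρ) v) (rv Dq (quotRho (stable_range (isHom_eta π' ρ))) v)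
          (pb.comp (QuotientAddGroup.mk' (eta Sg A).range)) := fun g b => by
        rw [AddMonoidHom.comp_apply, AddMonoidHom.comp_apply,
          (Ses.hj.res (Dq v).subtype) g b, (hpb.res (Dq v).subtype) g]
      rw [H1c_H1c (lvlD v) _ _ hc (fun a => rfl), H1c_H1c (lvlD v) _ _ hc (fun a => rfl)]
    rw [hy'', map_sub, h2, h3, h4, ← map_sub]
    exact h1
  obtain ⟨yt, hyt⟩ := (mem_range_infl1_iff S _ hQs' _).2 hur''
  refine ⟨delta1 Ses' hIs' yt, ?_⟩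
  have e1 : infl2 S ρ (delta1 Ses' hIs' yt) = delta1 Ses' hIQ' (infl1 S _ yt) :=
    delta1_natural (φA := AddMonoidHom.id _) (φB := AddMonoidHom.id _) (φC := AddMonoidHom.id _)
      Ses' hIs' Ses' hIQ' (lvlMap_infl S) (fun _ _ => rfl) (fun _ _ => rfl)
      (fun _ _ => rfl) (fun _ => rfl) (fun _ => rfl) yt
  have e2 : H2c lvlQ (IsHom.id ρ) (delta1 Ses hIQ y) = delta1 Ses' hIQ' (H1c lvlQ hpb y) :=
    delta1_natural Ses hIQ Ses' hIQ' (LvlMap.id _) (IsHom.id ρ).along (isHom_pull ρ hj).along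
      hpb.along (fun _ => rfl) hpbmk y
  have e3 : delta1 Ses' hIQ' (H1c lvlQ Ses'.hj w) = 0 :=
    (delta1_eq_zero_iff Ses' hIQ' _).2 ⟨w, rfl⟩
  rw [e1, hyt, hy'', map_sub, e3, sub_zero, ← e2, H2c_id]

/-- [key S55/D-4b; `infl2` restricted to `Sha2S` is onto `ShaA2` with kernel `KK`:
`AddSubgroup.card_eq_card_quotient_mul_card_addSubgroup` or `Nat.card` of fibres] -/
theorem card_Sha2S (_dat : Datum p lvlQ (cycloChar p) Dq) (hpS : pPrime p ∈ S) (hM : FinMod p (lvlS S) ρ) (hK : Finite (KK S ρ))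
    (hA : Finite (ShaA2 lvlQ Dq ρ)) :
    Finite (Sha2S S ρ) ∧
      Nat.card (Sha2S S ρ) = Nat.card (KK S ρ) * Nat.card (ShaA2 lvlQ Dq ρ) := by
  have := hM.fin
  let f : ↥(Sha2S S ρ) →+ ↥(ShaA2 lvlQ Dq ρ) :=
    ((infl2 S ρ).comp (Sha2S S ρ).subtype).codRestrict _
      (fun x => infl2_mem_ShaA2 S ρ hM.smooth x x.2)
  have hf : Function.Surjective f := by
    rintro ⟨x, hx⟩
    obtain ⟨y, hy⟩ := exists_infl2_eq S ρ _dat hpS hM x hx
    refine ⟨⟨y, fun q _ => ?_⟩, Subtype.ext hy⟩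
    rw [hy]
    exact hx q
  have e : ↥f.ker ≃ ↥(KK S ρ) :=
    { toFun := fun x => ⟨x.1.1, congrArg Subtype.val x.2⟩
      invFun := fun x => ⟨⟨x.1, KK_le_Sha2S S ρ x.2⟩, Subtype.ext x.2⟩
      left_inv := fun _ => rfl
      right_inv := fun _ => rfl }
  have hker : Finite ↥f.ker := Finite.of_equiv _ e.symm
  have e2 := QuotientAddGroup.quotientKerEquivOfSurjective f hf
  have hq : Finite (↥(Sha2S S ρ) ⧸ f.ker) := Finite.of_equiv _ e2.symm.toEquiv
  have e3 := AddSubgroup.addGroupEquivQuotientProdAddSubgroup (s := f.ker)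
  refine ⟨Finite.of_equiv _ e3.symm, ?_⟩
  rw [AddSubgroup.card_eq_card_quotient_mul_card_addSubgroup f.ker, Nat.card_congr e2.toEquiv,
    Nat.card_congr e, mul_comm]

end Fermat.Agent.S55.D
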