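import Fermat.Agent.S55.D.Cap
import Fermat.Agent.S55.D.InputsA

/-!
# S55 / layer D : step D5 (THETA)  `KK = ker (H²_S → H²) ≅ FamG / GlobG`

`x = [z] ∈ KK`: `z = d1 c` with `c` `LC1 lvlQ`.  For `v ∉ S`: `z|D_v = d1 b_v`, `b_v` `I_v`-invariant (`H2ur_eq_zero`),
`n_v = [c|D_v - b_v]`.  `IsRam S ρ x n` : `n` is such a "ramification family" of `x`.

* `exists_isRam`: as above; for almost all `v` (`finite_ramified` for a level of `c`) `c|D_v` is `I_v`-invariant and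
  one may take `b_v = c|D_v`; in general any two choices of `b_v` differ by an `I_v`-invariant cocycle.
* `IsRam.congr`: `n'_v = n_v + [e']`, `e'` a cocycle vanishing on `I_v`: replace `b_v` by `b_v - e'`
  (`e' (g i) = e' g + g e' i = e' g`).
* `IsRam.add_loc`: replace `c` by `c + x₀` (`x₀` a global cocycle).
* `IsRam.eq_zero`: after `congr`, `add_loc` we may assume `n_v = 0` for `v ∉ S`: `c|D_v - b_v = d0 a`, so `c|D_v` is
  `I_v`-invariant (`rho_Iq`).  `z` is `S`-level, so invariant under all inertia groups outside `S`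
  (`inertia_le_of_mem_lvlS`).  From `z g i' = z g 1`: `c (g i') = c g + g (c i' - c 1)`.  From
  `z (h i) h⁻¹ = z h h⁻¹`: `c (h i h⁻¹) = c 1 + h (c i - c 1) = c 1`.  With `exists_conj_inertia`: `c (g i') = c g` for all
  inertia elements outside `S`; `LC1_lvlS_of_inertia`: `c` is `S`-level, `x = [d1 c] = 0`.
* `IsRam.mem_GlobG`: `0 = [z]`, `z = d1 a`, `a` `S`-level; `x₀ = c - a` is a global cocycle and
  `c|D_v - b_v - x₀|D_v = a|D_v - b_v` is an `I_v`-invariant cocycle, so it vanishes on `I_v`.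
* `exists_of_mem_FamG`: `π` good (`exists_good`), `u = famMap eta n`, `cap` gives `π'` and a global cocycle
  `u : G → Fn π' ρ` with `loc_v u ~ eta_* n_v` (note `pull ∘ eta = eta`).  `Q' = Fn π' ρ / ρ` (`ses_cok`).  `pr ∘ u` is
  unramified outside `S` (`pr_* eta_* = 0`), so by `mem_range_infl1_iff` (after changing `u` by a coboundary)
  `pr ∘ u = y` is an `S`-level cocycle.  `ỹ` an `S`-level lift of `y` (`SES.exists_lift1`), `eta ∘ c = u - ỹ`,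
  `eta ∘ z = - d1 ỹ`.  Then `IsRam [z] n'` with `eta_* n'_v ~ loc_v u ~ eta_* n_v`, so `n' ~ n` by `mem_H1ur_of_H1c`; `congr`.
* `exists_equiv_KK`: `n ↦ x` is a well defined (`sub`, `eq_zero`) additive surjection `FamG → KK` with kernel
  `GlobG` (`mem_GlobG`, `eq_zero`); `QuotientAddGroup.quotientKerEquivOfSurjective`.
-/

set_option autoImplicit false

namespace Fermat.Agent.S55.D

open ExtCitation

variable {A : Type} [AddCommGroup A] (S : Finset Nat.Primes) (ρ : GQ →* AddMonoid.End A)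

/-- `n` is a ramification family of `x` -/
def IsRam (x : H2 (lvlS S) ρ) (n : Fam ρ) : Prop :=
  ∃ (z : ↥(Z2 (lvlS S) ρ)) (c : GQ → A), H2.mk _ _ z = x ∧ LC1 lvlQ c ∧
    (z : GQ → GQ → A) = d1 ρ c ∧
    ∀ v ∉ S, ∃ (b : ↥(Dq v) → A) (e : ↥(Z1 (lvlD v) (rv Dq ρ v))),
      LC1 (lvlD v) b ∧ (∀ g, ∀ i ∈ IqD v, b (g * i) = b g) ∧
      (∀ g : ↥(Dq v), (e : ↥(Dq v) → A) g = c g - b g) ∧ n v = H1.mk _ _ e

variable {S ρ}

/-- [key S55/D-5a] -/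
theorem IsRam.mem_KK {x : H2 (lvlS S) ρ} {n : Fam ρ} (h : IsRam S ρ x n) : x ∈ KK S ρ := by
  obtain ⟨z, c, rfl, hc, hz, -⟩ := h
  rw [D.mem_KK, infl2_mk_aux]
  exact ⟨c, hc, hz⟩

/-- [key S55/D-5a] -/
theorem IsRam.mem_FamG {x : H2 (lvlS S) ρ} {n : Fam ρ} (h : IsRam S ρ x n) : n ∈ FamG S ρ := by
  obtain ⟨z, c, rfl, ⟨U, ⟨F, hF, rfl⟩, hc⟩, hz, hv⟩ := h
  refine (finite_ramified F hF).subset ?_
  rintro v ⟨hvS, hnv⟩ hle
  apply hnv
  obtain ⟨b, e, hb, hbI, he, hn⟩ := hv v hvS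
  refine ⟨e, hn.symm, fun i hi => ?_⟩
  have h1 : (e : ↥(Dq v) → A) 1 = 0 := Z1_one_aux e
  rw [he] at h1 ⊢
  have h2 := hbI 1 i hi
  have h3 := hc 1 (i : GQ) (hle hi)
  rw [one_mul] at h2 h3
  rw [h2, h3]
  exact h1

/-- the local data of a ramification family, for given `z = d1 c` -/
theorem exists_fam_aux [Finite A] (hρ : Smooth (lvlS S) ρ) (z : ↥(Z2 (lvlS S) ρ)) (c : GQ → A)
    (hc : LC1 lvlQ c) (hz : (z : GQ → GQ → A) = d1 ρ c) :
    ∃ n : Fam ρ, ∀ v ∉ S, ∃ (b : ↥(Dq v) → A) (e : ↥(Z1 (lvlD v) (rv Dq ρ v))),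
      LC1 (lvlD v) b ∧ (∀ g, ∀ i ∈ IqD v, b (g * i) = b g) ∧
      (∀ g : ↥(Dq v), (e : ↥(Dq v) → A) g = c g - b g) ∧ n v = H1.mk _ _ e := by
  have key : ∀ v : Nat.Primes, ∃ nv : H1 (lvlD v) (rv Dq ρ v), v ∉ S →
      ∃ (b : ↥(Dq v) → A) (e : ↥(Z1 (lvlD v) (rv Dq ρ v))),
      LC1 (lvlD v) b ∧ (∀ g, ∀ i ∈ IqD v, b (g * i) = b g) ∧
      (∀ g : ↥(Dq v), (e : ↥(Dq v) → A) g = c g - b g) ∧ nv = H1.mk _ _ e := by
    intro v
    by_cases hv : v ∈ S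
    · exact ⟨0, fun h => absurd hv h⟩
    obtain ⟨b, hb, hbI, hzb⟩ := exists_b_aux hρ z hv
    have he : (fun g : ↥(Dq v) => c g - b g) ∈ Z1 (lvlD v) (rv Dq ρ v) := by
      rw [mem_Z1_iff_d1]
      refine ⟨(LC1_res_aux hc v).comp₂ hb (· - ·), ?_⟩
      ext g h
      have h1 := congrFun (congrFun hzb g) h
      have h2 := congrFun (congrFun hz g) h
      simp only [d1_apply] at h1 h2 ⊢
      simp only [h2] at h1
      simp only [map_sub, MonoidHom.comp_apply, Subgroup.coe_subtype, Subgroup.coe_mul,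
        Pi.zero_apply] at h1 ⊢
      rw [← sub_eq_zero] at h1
      rw [← h1]
      abel
    exact ⟨H1.mk _ _ ⟨_, he⟩, fun _ => ⟨b, ⟨_, he⟩, hb, hbI, fun g => rfl, rfl⟩⟩
  choose n hn using key
  exact ⟨n, fun v hv => hn v hv⟩

/-- [key S55/D-5a] -/
theorem exists_isRam [Finite A] (hρ : Smooth (lvlS S) ρ) {x : H2 (lvlS S) ρ} (hx : x ∈ KK S ρ) :
    ∃ n, IsRam S ρ x n := by
  obtain ⟨z, rfl⟩ := H2.mk_surjective _ _ x
  rw [D.mem_KK, infl2_mk_aux] at hx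
  obtain ⟨c, hc, hz⟩ := hx
  obtain ⟨n, hn⟩ := exists_fam_aux hρ z c hc hz
  exact ⟨n, z, c, rfl, hc, hz, hn⟩

/-- [key S55/D-5a] -/
theorem IsRam.add {x x' : H2 (lvlS S) ρ} {n n' : Fam ρ} (h : IsRam S ρ x n)
    (h' : IsRam S ρ x' n') : IsRam S ρ (x + x') (n + n') := by
  obtain ⟨z, c, rfl, hc, hz, hv⟩ := h
  obtain ⟨z', c', rfl, hc', hz', hv'⟩ := h'
  refine ⟨z + z', c + c', map_add _ _ _, hc.comp₂ hc' (· + ·), ?_, fun v hvS => ?_⟩
  · rw [AddSubgroup.coe_add, hz, hz', map_add]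
  · obtain ⟨b, e, hb, hbI, he, hn⟩ := hv v hvS
    obtain ⟨b', e', hb', hbI', he', hn'⟩ := hv' v hvS
    refine ⟨b + b', e + e', hb.comp₂ hb' (· + ·), fun g i hi => ?_, fun g => ?_, ?_⟩
    · rw [Pi.add_apply, Pi.add_apply, hbI g i hi, hbI' g i hi]
    · rw [AddSubgroup.coe_add, Pi.add_apply, he, he', Pi.add_apply, Pi.add_apply]
      abel
    · rw [Pi.add_apply, hn, hn', map_add]

/-- [key S55/D-5a] -/
theorem IsRam.neg {x : H2 (lvlS S) ρ} {n : Fam ρ} (h : IsRam S ρ x n) : IsRam S ρ (-x) (-n) := by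
  obtain ⟨z, c, rfl, hc, hz, hv⟩ := h
  refine ⟨-z, -c, map_neg _ _, hc.comp (- ·), ?_, fun v hvS => ?_⟩
  · rw [AddSubgroup.coe_neg, hz, map_neg]
  · obtain ⟨b, e, hb, hbI, he, hn⟩ := hv v hvS
    refine ⟨-b, -e, hb.comp (- ·), fun g i hi => ?_, fun g => ?_, ?_⟩
    · rw [Pi.neg_apply, Pi.neg_apply, hbI g i hi]
    · rw [AddSubgroup.coe_neg, Pi.neg_apply, he, Pi.neg_apply, Pi.neg_apply]
      abel
    · rw [Pi.neg_apply, hn, map_neg]

/-- [key S55/D-5a] -/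
theorem IsRam.congr {x : H2 (lvlS S) ρ} {n n' : Fam ρ} (h : IsRam S ρ x n)
    (hn : n' - n ∈ UrG S ρ) : IsRam S ρ x n' := by
  obtain ⟨z, c, rfl, hc, hz, hv⟩ := h
  refine ⟨z, c, rfl, hc, hz, fun v hvS => ?_⟩
  obtain ⟨b, e, hb, hbI, he, hnv⟩ := hv v hvS
  obtain ⟨e', he', he'I⟩ := hn v hvS
  refine ⟨fun g => b g - (e' : ↥(Dq v) → A) g, e + e', hb.comp₂ e'.2.1 (· - ·),
    fun g i hi => ?_, fun g => ?_, ?_⟩
  · simp only
    rw [hbI g i hi, e'.2.2 g i, he'I i hi, map_zero, zero_add]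
  · rw [AddSubgroup.coe_add, Pi.add_apply, he]
    change _ = c g - (b g - (e' : ↥(Dq v) → A) g)
    abel
  · rw [map_add, he', ← hnv, Pi.sub_apply]
    abel

/-- [key S55/D-5a] -/
theorem IsRam.add_loc {x : H2 (lvlS S) ρ} {n : Fam ρ} (h : IsRam S ρ x n) (y : H1 lvlQ ρ) :
    IsRam S ρ x (n + locFam ρ y) := by
  obtain ⟨z, c, rfl, hc, hz, hv⟩ := h
  obtain ⟨y0, rfl⟩ := H1.mk_surjective _ _ y
  refine ⟨z, c + (y0 : GQ → A), rfl, hc.comp₂ y0.2.1 (· + ·), ?_, fun v hvS => ?_⟩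
  · rw [map_add, ((mem_Z1_iff_d1).1 y0.2).2, add_zero, hz]
  · obtain ⟨b, e, hb, hbI, he, hnv⟩ := hv v hvS
    refine ⟨b, e + resZ1 ρ v y0, hb, hbI, fun g => ?_, ?_⟩
    · rw [AddSubgroup.coe_add, Pi.add_apply, he, resZ1_apply, Pi.add_apply]
      abel
    · rw [Pi.add_apply, hnv, map_add, locFam_apply, loc1_mk_aux]

/-- [key S55/D-5b] **D5 (a)** -/
theorem IsRam.eq_zero (hρ : Smooth (lvlS S) ρ) {x : H2 (lvlS S) ρ} {n : Fam ρ}
    (h : IsRam S ρ x n) (hn : n ∈ GlobG S ρ) : x = 0 := by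
  obtain ⟨y, hy⟩ := (D.mem_GlobG S ρ).1 hn
  have h0 : IsRam S ρ x 0 := by
    refine (h.add_loc (-y)).congr ?_
    intro v hv
    have := (H1ur v (rv Dq ρ v)).neg_mem (hy v hv)
    convert this using 1
    simp only [Pi.sub_apply, Pi.zero_apply, Pi.add_apply, Pi.neg_apply, locFam_apply, map_neg]
    abel
  obtain ⟨z, c, rfl, hc, hz, hv⟩ := h0
  obtain ⟨U, hU, hzU⟩ := z.2.1
  -- `c` is constant on `Iq q`
  have hcI : ∀ q : Nat.Primes, q ∉ S → ∀ i ∈ Iq q, c i = c 1 := by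
    intro q hq i hi
    obtain ⟨b, e, hb, hbI, he, hnv⟩ := hv q hq
    have hiD : i ∈ Dq q := Iq_le_Dq_aux q hi
    have h1 : H1.mk _ _ e = 0 := hnv.symm
    rw [H1.mk_eq_zero_iff] at h1
    obtain ⟨-, a, ha⟩ := h1
    have e1 := he ⟨i, hiD⟩
    have e2 := he 1
    rw [ha, d0_apply] at e1 e2
    have e3 := hbI 1 ⟨i, hiD⟩ hi
    rw [one_mul] at e3
    have e4 : rv Dq ρ q ⟨i, hiD⟩ = 1 := rho_Iq hρ hq i hi
    rw [e4, e3] at e1
    rw [map_one] at e2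
    have e5 : c i - b 1 = c 1 - b 1 := by
      have : c ((⟨i, hiD⟩ : ↥(Dq q)) : GQ) - b 1 = c ((1 : ↥(Dq q)) : GQ) - b 1 := by
        rw [← e1, ← e2]
      simpa using this
    exact sub_left_injective e5
  -- first formula
  have hf1 : ∀ g, ∀ i ∈ U, c (g * i) = c g + ρ g (c i - c 1) := by
    intro g i hi
    have h1 := hzU g 1 1 U.one_mem i hi
    rw [hz, d1_apply, d1_apply, mul_one, one_mul] at h1
    rw [map_sub]
    have : c (g * i) = ρ g (c i) + c g - (ρ g (c i) - c (g * i) + c g) := by abel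
    rw [this, h1]
    abel
  have hall : ∀ q : Nat.Primes, q ∉ S → ∀ B : ValuationSubring Qb, B.LiesOverPrime (q : ℕ) →
      ∀ i ∈ B.inertiaSubgroupIn ℚ, ∀ g, c (g * i) = c g := by
    intro q hq B hB i hi g
    have hiU : i ∈ U := inertia_le_of_mem_lvlS hU hq B hB hi
    obtain ⟨h, hh⟩ := exists_conj_inertia q B hB
    obtain ⟨i₀, hi₀, rfl⟩ := hh i hi
    have hi₀U : i₀ ∈ U := Iq_le_of_mem_lvlS hU hq hi₀
    have h1 := hzU h h⁻¹ i₀ hi₀U 1 U.one_mem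
    rw [hz, d1_apply, d1_apply, mul_one, mul_inv_cancel, map_mul, rho_Iq hρ hq i₀ hi₀, mul_one,
      hf1 h i₀ hi₀U, hcI q hq i₀ hi₀, sub_self, map_zero, add_zero] at h1
    have h2 : c (h * i₀ * h⁻¹) = c 1 := by
      exact sub_right_injective (add_right_cancel h1)
    rw [hf1 g _ hiU, h2, sub_self, map_zero, add_zero]
  have hcS := LC1_lvlS_of_inertia S c hc hall
  rw [H2.mk_eq_zero_iff]
  exact ⟨c, hcS, hz⟩

/-- [key S55/D-5b] -/
theorem IsRam.mem_GlobG (hρ : Smooth (lvlS S) ρ) {n : Fam ρ} (h : IsRam S ρ 0 n) :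
    n ∈ GlobG S ρ := by
  obtain ⟨z, c, hz0, hc, hz, hv⟩ := h
  rw [H2.mk_eq_zero_iff] at hz0
  obtain ⟨a, ha, hza⟩ := hz0
  have hx0 : (fun g => c g - a g) ∈ Z1 lvlQ ρ := by
    rw [mem_Z1_iff_d1]
    refine ⟨hc.comp₂ (LC1_lvlQ_of_lvlS_aux ha) (· - ·), ?_⟩
    have : (fun g => c g - a g) = c - a := rfl
    rw [this, map_sub, ← hz, ← hza, sub_self]
  rw [D.mem_GlobG]
  refine ⟨H1.mk _ _ ⟨_, hx0⟩, fun v hvS => ?_⟩
  obtain ⟨b, e, hb, hbI, he, hnv⟩ := hv v hvS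
  obtain ⟨U, hU, haU⟩ := ha
  refine ⟨e - resZ1 ρ v ⟨_, hx0⟩, ?_, fun i hi => ?_⟩
  · rw [map_sub, hnv, loc1_mk_aux]
  · have h1 : ∀ g : ↥(Dq v), ((e - resZ1 ρ v ⟨_, hx0⟩ : ↥(Z1 (lvlD v) (rv Dq ρ v))) :
        ↥(Dq v) → A) g = a g - b g := by
      intro g
      rw [AddSubgroup.coe_sub, Pi.sub_apply, he, resZ1_apply]
      change c g - b g - (c g - a g) = _
      abel
    have h2 := Z1_one_aux (e - resZ1 ρ v ⟨_, hx0⟩)
    rw [h1] at h2 ⊢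
    have h3 := hbI 1 i hi
    have h4 := haU 1 (i : GQ) (Iq_le_of_mem_lvlS hU hvS hi)
    rw [one_mul] at h3 h4
    rw [h3, h4]
    exact h2

/-- [key S55/D-5c] **D5 (b)** -/
theorem exists_of_mem_FamG {p : ℕ} [Fact p.Prime] (hpS : pPrime p ∈ S)
    (hM : FinMod p (lvlS S) ρ) {n : Fam ρ} (hn : n ∈ FamG S ρ) : ∃ x, IsRam S ρ x n := by
  have := hM.fin
  have hρ := hM.smooth
  obtain ⟨Sg, _, π, hπ⟩ := exists_good S ρ hpS hM
  obtain ⟨Sg', _, π', j, hj, hπ', hglob⟩ := cap S hpS ρ hM π hπ (famMap (isHom_eta π ρ) n)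
    (famMap_mem_FamG _ hn)
  have hfam : famMap (isHom_pull ρ hj) (famMap (isHom_eta π ρ) n) = famMap (isHom_eta π' ρ) n := by
    funext v
    exact H1c_H1c (lvlD v) ((isHom_pull ρ hj).res (Dq v).subtype)
      ((isHom_eta π ρ).res (Dq v).subtype) ((isHom_eta π' ρ).res (Dq v).subtype)
      (fun a => rfl) (n v)
  rw [hfam] at hglob
  obtain ⟨Ucl, hU⟩ := (D.mem_GlobG S _).1 hglob
  obtain ⟨s₀⟩ := hπ'.trans.1
  have hinj : Function.Injective (eta Sg' A) := fun a a' h => congrFun h s₀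
  have Ses := ses_cok (isHom_eta π' ρ) hinj
  have hIs : Smooth (lvlS S) (Fn π' ρ) := (FinMod.fn hπ'.smooth hM).smooth
  have hIQ : Smooth lvlQ (Fn π' ρ) := smooth_lvlQ_aux hIs
  have hQs := Ses.smoothC hIs
  -- `pr_* U` is unramified outside `S`
  have hur : ∀ v ∉ S, loc1 _ v (H1c lvlQ Ses.hj Ucl) ∈ H1ur v (rv Dq _ v) := by
    intro v hv
    have h1 := H1c_mem_H1ur v (Ses.hj.res (Dq v).subtype) (hU v hv)
    have h2 : loc1 _ v (H1c lvlQ Ses.hj Ucl) =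
        H1c (lvlD v) (Ses.hj.res (Dq v).subtype) (loc1 _ v Ucl) :=
      res1_H1c lvlQ (Dq v).subtype Ses.hj Ucl
    have h3 : H1c (lvlD v) (Ses.hj.res (Dq v).subtype) (famMap (isHom_eta π' ρ) n v) = 0 := by
      rw [famMap_apply, H1c_H1c (lvlD v) _ _ (IsHom.zero _ _) (fun a => Ses.comp_eq_zero a),
        H1c_zero]
    rw [map_sub, h3, zero_sub, ← h2] at h1
    have := (H1ur v _).neg_mem h1
    rwa [neg_neg] at this
  obtain ⟨ycl, hycl⟩ := (mem_range_infl1_iff S _ hQs _).2 hur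
  obtain ⟨y, rfl⟩ := H1.mk_surjective _ _ ycl
  -- a representative `u` of `U` with `pr ∘ u = y`
  obtain ⟨u, hu, huy⟩ : ∃ u : ↥(Z1 lvlQ (Fn π' ρ)), H1.mk _ _ u = Ucl ∧
      ∀ g, QuotientAddGroup.mk' (eta Sg' A).range ((u : GQ → Sg' → A) g) = (y : GQ → _) g := by
    obtain ⟨u, rfl⟩ := H1.mk_surjective _ _ Ucl
    rw [infl1_mk_aux, H1c_mk, ← sub_eq_zero, ← map_sub, H1.mk_eq_zero_iff] at hycl
    obtain ⟨-, qb, hqb⟩ := hycl
    obtain ⟨w, rfl⟩ := Ses.surj qb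
    refine ⟨u + ⟨_, d0_mem_Z1 hIQ w⟩, ?_, fun g => ?_⟩
    · rw [map_add, add_eq_left, H1.mk_eq_zero_iff]
      exact ⟨LC1_d0 hIQ w, w, rfl⟩
    · have h1 := congrFun hqb g
      rw [AddSubgroup.coe_sub, Pi.sub_apply, ← Ses.j_d0] at h1
      rw [AddSubgroup.coe_add, Pi.add_apply, map_add, ← h1]
      simp only [coe_Z1map, pp1_apply, MonoidHom.id_apply]
      abel
  obtain ⟨yt, hyt, hyt'⟩ := Ses.exists_lift1 (𝓛 := lvlS S) y.2.1
  obtain ⟨c, hc, hc'⟩ := Ses.exists_pre1 (𝓛 := lvlQ) (x := fun g => (u : GQ → Sg' → A) g - yt g)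
    (u.2.1.comp₂ (LC1_lvlQ_of_lvlS_aux hyt) (· - ·)) (fun g => by
      rw [map_sub, huy, hyt', sub_self])
  have hd1y : ∀ g h, QuotientAddGroup.mk' (eta Sg' A).range (d1 (Fn π' ρ) yt g h) = 0 := by
    intro g h
    rw [Ses.j_d1, show (fun k => QuotientAddGroup.mk' (eta Sg' A).range (yt k)) = (y : GQ → _) from
      funext hyt', ((mem_Z1_iff_d1).1 y.2).2]
    rfl
  obtain ⟨z, hz, hz'⟩ := Ses.exists_pre2 (𝓛 := lvlS S) (x := fun g h => - d1 (Fn π' ρ) yt g h)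
    ((LC2_d1 hIs hyt).comp (- ·)) (fun g h => by rw [map_neg, hd1y, neg_zero])
  have hzZ : z ∈ Z2 (lvlS S) ρ := by
    refine Ses.mem_Z2_of hz fun g h k => ?_
    rw [hz', hz', hz', hz', map_neg, ← neg_add, ← neg_add, d1_cocycle]
  have hzc : z = d1 ρ c := by
    funext g h
    apply Ses.inj
    rw [hz', Ses.i_d1, show (fun k => eta Sg' A (c k)) = (u : GQ → Sg' → A) - yt from funext hc',
      map_sub, ((mem_Z1_iff_d1).1 u.2).2, zero_sub]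
    rfl
  obtain ⟨n', hn'⟩ := exists_fam_aux hρ ⟨z, hzZ⟩ c hc hzc
  have hram : IsRam S ρ (H2.mk _ _ ⟨z, hzZ⟩) n' := ⟨⟨z, hzZ⟩, c, rfl, hc, hzc, hn'⟩
  refine ⟨_, hram.congr fun v hv => ?_⟩
  apply mem_H1ur_of_H1c v ((isHom_eta π' ρ).res (Dq v).subtype) hinj
    (fun i hi => rho_Iq hIs hv i hi)
  have h1 := hU v hv
  rw [famMap_apply] at h1
  have h2 : H1c (lvlD v) ((isHom_eta π' ρ).res (Dq v).subtype) (n' v) - loc1 _ v Ucl ∈
      H1ur v (rv Dq (Fn π' ρ) v) := by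
    obtain ⟨b, e, hb, hbI, he, hnv⟩ := hn' v hv
    rw [hnv, ← hu, loc1_mk_aux, H1c_mk, ← map_sub]
    refine ⟨_, rfl, ?_⟩
    have hval : ∀ g : ↥(Dq v), ((Z1map (LvlMap.id (lvlD v))
        ((isHom_eta π' ρ).res (Dq v).subtype).along e - resZ1 (Fn π' ρ) v u :
          ↥(Z1 (lvlD v) (rv Dq (Fn π' ρ) v))) : ↥(Dq v) → Sg' → A) g =
        - yt g - eta Sg' A (b g) := by
      intro g
      rw [AddSubgroup.coe_sub, Pi.sub_apply, resZ1_apply, coe_Z1map, pp1_apply, MonoidHom.id_apply,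
        he, map_sub, hc']
      abel
    intro i hi
    have h3 := Z1_one_aux (Z1map (LvlMap.id (lvlD v))
        ((isHom_eta π' ρ).res (Dq v).subtype).along e - resZ1 (Fn π' ρ) v u)
    rw [hval] at h3 ⊢
    obtain ⟨U0, hU0, hytU⟩ := hyt
    have h4 := hytU 1 (i : GQ) (Iq_le_of_mem_lvlS hU0 hv hi)
    have h5 := hbI 1 i hi
    rw [one_mul] at h4 h5
    rw [h4, h5]
    exact h3
  have h3 := (H1ur v _).sub_mem h1 h2
  rw [Pi.sub_apply, map_sub]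
  convert h3 using 1
  abel

/-- [key S55/D-5d] **D5** -/
theorem exists_equiv_KK {p : ℕ} [Fact p.Prime] (hpS : pPrime p ∈ S)
    (hM : FinMod p (lvlS S) ρ) : Nonempty (↥(KK S ρ) ≃+ RQ S ρ) := by
  have := hM.fin
  have hρ := hM.smooth
  have huniq : ∀ {x x' : H2 (lvlS S) ρ} {n : Fam ρ}, IsRam S ρ x n → IsRam S ρ x' n → x = x' := by
    intro x x' n h h'
    have h1 := h.add h'.neg
    rw [add_neg_cancel] at h1
    exact add_neg_eq_zero.mp (h1.eq_zero hρ (GlobG S ρ).zero_mem)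
  choose Φ hΦ using fun n : ↥(FamG S ρ) => exists_of_mem_FamG hpS hM n.2
  let f : ↥(FamG S ρ) →+ ↥(KK S ρ) := AddMonoidHom.mk' (fun n => ⟨Φ n, (hΦ n).mem_KK⟩)
    (fun a b => Subtype.ext (huniq (hΦ (a + b)) ((hΦ a).add (hΦ b))))
  have hf : ∀ n, ((f n : ↥(KK S ρ)) : H2 (lvlS S) ρ) = Φ n := fun n => rfl
  have hsurj : Function.Surjective f := by
    intro x
    obtain ⟨n, hn⟩ := exists_isRam hρ x.2
    exact ⟨⟨n, hn.mem_FamG⟩, Subtype.ext (huniq (hΦ _) hn)⟩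
  have hker : (GlobG S ρ).addSubgroupOf (FamG S ρ) = f.ker := by
    ext n
    rw [AddSubgroup.mem_addSubgroupOf, AddMonoidHom.mem_ker]
    constructor
    · intro hn
      exact Subtype.ext ((hΦ n).eq_zero hρ hn)
    · intro hn
      have h1 := hΦ n
      rw [← hf, hn] at h1
      exact IsRam.mem_GlobG hρ h1
  exact ⟨((QuotientAddGroup.quotientAddEquivOfEq hker).trans
    (QuotientAddGroup.quotientKerEquivOfSurjective f hsurj)).symm⟩

end Fermat.Agent.S55.D
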