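import Fermat.Agent.S55.D.Ind
import Fermat.Agent.S55.D.Theta
import Fermat.Agent.S55.D.Onto

/-!
# S55 / layer D : step D9 and the final count

* `exists_setMap` : `s₁ ∈ Sg`, `s₀ ∈ Sg₀`, `j s = π₀ (gsec ht s₁ s) s₀`; `gsec (π g s) ⁻¹ * g * gsec s` fixes `s₁`, so it acts trivially on `Sg₀`.
* `good_Fn` : the stabilisers of `π` act trivially on `Sg₀` and on `μ_p`, so on `Fn π₀ μ_p`.
* `famMap_eps_mem_GlobG` : `θ k`, `ι k` from `exists_untw` for `π₀`; `eps_π = eps_{π₀} ∘ push j` (`eps_push`) `= ∑ k, (eps_{π₀} ∘ ι k) ∘ (θ k ∘ push j)`.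
  `f k = θ k ∘ push j : Fn π ρ → M₀` is `eps ∘ F k` (`exists_factor_eps`).  `m k = eps_* (F k)_* r ∈ FamG M₀` lies in `LK` (`BB_famMap_eps`), so in
  `GlobG M₀` (`hI`).  `eps_* r = ∑ k, (eps_{π₀} ∘ ι k)_* (m k)` (`H1c_sum`, `H1c_H1c`, componentwise) lies in `GlobG` (`famMap_mem_GlobG`).
-/

set_option autoImplicit false
set_option linter.unusedSectionVars false

noncomputable section

namespace Fermat.Agent.S55.D

open ExtCitation

variable {p : ℕ} [Fact p.Prime] {S : Finset Nat.Primes} {A : Type} [AddCommGroup A]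
  {ρ : GQ →* AddMonoid.End A}

/-- [key S55/D-9a] -/
theorem exists_setMap {Sg Sg₀ : Type} {π : GQ →* Equiv.Perm Sg} {π₀ : GQ →* Equiv.Perm Sg₀}
    (ht : IsTrans π) (h0 : Nonempty Sg₀) (h : ∀ g s, π g s = s → π₀ g = 1) :
    ∃ j : Sg → Sg₀, IsSetMap π₀ π j := by
  obtain ⟨s₁⟩ := ht.1
  obtain ⟨s₀⟩ := h0
  have key : ∀ a b : GQ, π a s₁ = π b s₁ → π₀ a = π₀ b := by
    intro a b hab
    have h1 : π (b⁻¹ * a) s₁ = s₁ := by
      rw [map_mul, Equiv.Perm.mul_apply, hab, ← Equiv.Perm.mul_apply, ← map_mul, inv_mul_cancel,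
        map_one]
      rfl
    have h2 := h _ _ h1
    rw [map_mul, map_inv, inv_mul_eq_one] at h2
    exact h2.symm
  refine ⟨fun s => π₀ (gsec ht s₁ s) s₀, fun g s => ?_⟩
  have h1 : π (gsec ht s₁ (π g s)) s₁ = π (g * gsec ht s₁ s) s₁ := by
    rw [gsec_spec, map_mul, Equiv.Perm.mul_apply, gsec_spec]
  change π₀ (gsec ht s₁ (π g s)) s₀ = π₀ g (π₀ (gsec ht s₁ s) s₀)
  rw [key _ _ h1, map_mul, Equiv.Perm.mul_apply]

/-- [key S55/D-9a] -/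
theorem good_Fn {Sg Sg₀ : Type} {π : GQ →* Equiv.Perm Sg} {π₀ : GQ →* Equiv.Perm Sg₀}
    (hπ : Good S ρ p π) (h : ∀ g s, π g s = s → π₀ g = 1) : Good S (Fn π₀ (rhoT p)) p π := by
  refine ⟨hπ.smooth, hπ.trans, fun g s hg => ⟨?_, (hπ.triv g s hg).2⟩⟩
  have hT : rhoT p g = 1 := by
    ext a
    change ((cycloChar p g : (ZMod p)ˣ) : ZMod p) * a = a
    rw [(hπ.triv g s hg).2]
    simp
  ext f t
  rw [Fn_apply, h g s hg, hT]
  rfl

/-- [key S55/D-9b] -/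
theorem famMap_eps_mem_GlobG (dat : Datum p lvlQ (cycloChar p) Dq) (hpS : pPrime p ∈ S)
    (hM : FinMod p (lvlS S) ρ) {Sg₀ : Type} [Fintype Sg₀] {π₀ : GQ →* Equiv.Perm Sg₀}
    (hπ₀ : Good S ρ p π₀) {Sg : Type} [Fintype Sg] {π : GQ →* Equiv.Perm Sg} (hπ : Good S ρ p π)
    {j : Sg → Sg₀} (hj : IsSetMap π₀ π j) (hπ' : Good S (Fn π₀ (rhoT p)) p π)
    (hI : LK dat (finModP (finModT hpS) hπ₀.toT) hπ' =
      (GlobG S (Fn π₀ (rhoT p))).addSubgroupOf (FamG S (Fn π₀ (rhoT p))))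
    (r : Fam (Fn π ρ)) (hr : r ∈ FamG S (Fn π ρ)) :
    famMap (isHom_eps π ρ) r ∈ GlobG S ρ := by
  obtain ⟨n, θ, ι, hθ, hι, hsum⟩ := exists_untw hM hπ₀
  -- the maps `f k`
  have hf : ∀ k, IsHom (Fn π ρ) (Fn π₀ (rhoT p)) ((θ k).comp (push A j)) :=
    fun k => (hθ k).comp (isHom_push ρ hj)
  choose F hF hFe using fun k => exists_factor_eps (hf k)
  have hg : ∀ k, IsHom (Fn π₀ (rhoT p)) ρ ((eps Sg₀ A).comp (ι k)) :=
    fun k => (isHom_eps π₀ ρ).comp (hι k)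
  -- the families `m k`
  have hm : ∀ k, famMap (isHom_eps π (Fn π₀ (rhoT p))) (famMap (hF k) r) ∈
      GlobG S (Fn π₀ (rhoT p)) := by
    intro k
    have h1 : famMap (hF k) r ∈ FamG S (Fn π (Fn π₀ (rhoT p))) := famMap_mem_FamG (hF k) hr
    have h2 : famMap (isHom_eps π (Fn π₀ (rhoT p))) (famMap (hF k) r) ∈
        FamG S (Fn π₀ (rhoT p)) := famMap_mem_FamG _ h1
    have h3 : (⟨_, h2⟩ : ↥(FamG S (Fn π₀ (rhoT p)))) ∈
        LK dat (finModP (finModT hpS) hπ₀.toT) hπ' :=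
      fun φ _ => BB_famMap_eps dat _ hπ' ⟨_, h2⟩ (famMap (hF k) r) rfl φ
    rw [hI] at h3
    exact h3
  have hsumG : ∑ k, famMap (hg k) (famMap (isHom_eps π (Fn π₀ (rhoT p))) (famMap (hF k) r)) ∈
      GlobG S ρ :=
    (GlobG S ρ).sum_mem fun k _ => famMap_mem_GlobG (hg k) (hm k)
  have e : famMap (isHom_eps π ρ) r =
      ∑ k, famMap (hg k) (famMap (isHom_eps π (Fn π₀ (rhoT p))) (famMap (hF k) r)) := by
    ext v
    rw [Finset.sum_apply]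
    simp only [famMap_apply]
    have hc : ∀ k, IsHom (Fn π ρ) ρ (((eps Sg₀ A).comp (ι k)).comp ((θ k).comp (push A j))) :=
      fun k => (hg k).comp (hf k)
    have e1 : ∀ k, H1c (lvlD v) ((hg k).res (Dq v).subtype)
        (H1c (lvlD v) ((isHom_eps π (Fn π₀ (rhoT p))).res (Dq v).subtype)
          (H1c (lvlD v) ((hF k).res (Dq v).subtype) (r v))) =
        H1c (lvlD v) ((hc k).res (Dq v).subtype) (r v) := by
      intro k
      rw [H1c_H1c (lvlD v) ((isHom_eps π (Fn π₀ (rhoT p))).res (Dq v).subtype)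
        ((hF k).res (Dq v).subtype) ((hf k).res (Dq v).subtype) (fun a => hFe k a)]
      exact H1c_H1c (lvlD v) _ _ _ (fun a => rfl) _
    simp only [e1]
    rw [← H1c_sum (lvlD v) Finset.univ (fun k => (hc k).res (Dq v).subtype)]
    refine H1c_congr (lvlD v) _ _ ?_ _
    ext a
    rw [AddMonoidHom.finsetSum_apply]
    simp only [AddMonoidHom.comp_apply]
    rw [← map_sum, hsum, eps_push]
  rw [e]
  exact hsumG

/-- **D9** : for small good `π` the left kernel of the pairing is `GlobG` -/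
theorem left_kernel (dat : Datum p lvlQ (cycloChar p) Dq) (hp2 : p ≠ 2) (hpS : pPrime p ∈ S)
    (hM : FinMod p (lvlS S) ρ) :
    ∃ U₁ ∈ (lvlS S).sets, ∀ {Sg : Type} [Fintype Sg] (π : GQ →* Equiv.Perm Sg)
      (hπ : Good S ρ p π), StabLe π U₁ →
        LK dat hM hπ = (GlobG S ρ).addSubgroupOf (FamG S ρ) := by
  obtain ⟨Sg₀, _, π₀, hπ₀⟩ := exists_good S ρ hpS hM
  obtain ⟨UI, hUI, hI⟩ := ind dat hp2 hpS hπ₀.toT
  obtain ⟨V, hV, hV0⟩ := hπ₀.smooth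
  obtain ⟨W, hW, hWle⟩ := (lvlS S).inter UI hUI V hV
  refine ⟨W, hW, fun {Sg} _ π hπ hst => ?_⟩
  have h0 : ∀ g s, π g s = s → π₀ g = 1 := fun g s hg => hV0 g (hWle (hst g s hg)).2
  obtain ⟨j, hj⟩ := exists_setMap hπ.trans hπ₀.trans.1 h0
  have hπ' : Good S (Fn π₀ (rhoT p)) p π := good_Fn hπ h0
  have hI' := hI π hπ' (fun g s hg => (hWle (hst g s hg)).1)
  refine le_antisymm ?_ (GlobG_le_LK dat hpS hM hπ)
  intro n hn
  obtain ⟨x₀, r, hr, hu⟩ := left_weak dat hpS hM hπ n hn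
  have h1 := famMap_eps_mem_GlobG dat hpS hM hπ₀ hπ hj hπ' hI' r hr
  have h2 : locFam ρ x₀ ∈ GlobG S ρ := AddSubgroup.mem_sup_left ⟨x₀, rfl⟩
  have h3 : n.1 - locFam ρ x₀ - famMap (isHom_eps π ρ) r ∈ GlobG S ρ :=
    AddSubgroup.mem_sup_right hu
  have h4 := (GlobG S ρ).add_mem ((GlobG S ρ).add_mem h3 h1) h2
  rw [AddSubgroup.mem_addSubgroupOf]
  have e : n.1 - locFam ρ x₀ - famMap (isHom_eps π ρ) r + famMap (isHom_eps π ρ) r + locFam ρ x₀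
      = n.1 := by abel
  rw [e] at h4
  exact h4

/-- existence of good sets with small stabilisers -/
theorem exists_good_stabLe (hpS : pPrime p ∈ S) (hM : FinMod p (lvlS S) ρ) (U : Subgroup GQ)
    (hU : U ∈ (lvlS S).sets) :
    ∃ (Sg : Type) (_ : Fintype Sg) (π : GQ →* Equiv.Perm Sg), Good S ρ p π ∧ StabLe π U := by
  obtain ⟨Sg, i, π, _, _, h, h'⟩ := exists_good_le S ρ hpS hM (1 : GQ →* Equiv.Perm Unit)
    ⟨U, hU, fun _ _ => rfl⟩ () U hU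
  exact ⟨Sg, i, π, h, h'⟩

/-- the count `#RQ * #Ш¹_all(M') = #Ш¹_S(M')` -/
theorem card_RQ (dat : Datum p lvlQ (cycloChar p) Dq) (hp2 : p ≠ 2) (hpS : pPrime p ∈ S)
    (hM : FinMod p (lvlS S) ρ) :
    Finite (RQ S ρ) ∧ Finite (Sha1S S (dualRho (cycloChar p) ρ)) ∧
      Nat.card (RQ S ρ) * Nat.card (ShaA1 lvlQ Dq (dualRho (cycloChar p) ρ)) =
        Nat.card (Sha1S S (dualRho (cycloChar p) ρ)) := by
  obtain ⟨U₁, hU₁, hL⟩ := left_kernel dat hp2 hpS hM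
  have key : ∀ {Sg : Type} [Fintype Sg] (π : GQ →* Equiv.Perm Sg), Good S ρ p π → StabLe π U₁ →
      Finite (RQ S ρ) ∧ Finite (ShaE p S π ρ) ∧
        Nat.card (RQ S ρ) * Nat.card (ShaA1 lvlQ Dq (dualRho (cycloChar p) ρ)) =
          Nat.card (ShaE p S π ρ) := by
    intro Sg _ π hπ hst
    obtain ⟨h1, h2⟩ := card_LK dat hpS hM hπ
    obtain ⟨-, h4, h5⟩ := card_ShaE dat hpS hM hπ
    rw [hL π hπ hst] at h1 h2
    exact ⟨h1, h4, by rw [← h5, ← h2]⟩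
  obtain ⟨hfin, U₂, hU₂, hE⟩ := sha1S_eq_ShaE hpS hM U₁ hU₁
    (Nat.card (RQ S ρ) * Nat.card (ShaA1 lvlQ Dq (dualRho (cycloChar p) ρ)))
    (fun π hπ hst => ⟨(key π hπ hst).2.1, (key π hπ hst).2.2.ge⟩)
  obtain ⟨W, hW, hWle⟩ := (lvlS S).inter U₁ hU₁ U₂ hU₂
  obtain ⟨Sg, _, π, hπ, hst⟩ := exists_good_stabLe hpS hM W hW
  obtain ⟨k1, -, k3⟩ := key π hπ (hst.mono (fun _ h => (hWle h).1))
  refine ⟨k1, hfin, ?_⟩
  rw [k3, hE π hπ (hst.mono (fun _ h => (hWle h).2))]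

/-- **layer D** : comparison of `S` with "all places" -/
theorem card_sha_S_of_datum (dat : Datum p lvlQ (cycloChar p) Dq) (hp2 : p ≠ 2)
    (hpS : pPrime p ∈ S) (hM : FinMod p (lvlS S) ρ) (hA2 : Finite (ShaA2 lvlQ Dq ρ)) :
    Finite (Sha2S S ρ) ∧ Finite (Sha1S S (dualRho (cycloChar p) ρ)) ∧
      Nat.card (Sha2S S ρ) * Nat.card (ShaA1 lvlQ Dq (dualRho (cycloChar p) ρ)) =
        Nat.card (ShaA2 lvlQ Dq ρ) * Nat.card (Sha1S S (dualRho (cycloChar p) ρ)) := by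
  obtain ⟨h1, h2, h3⟩ := card_RQ dat hp2 hpS hM
  obtain ⟨e⟩ := exists_equiv_KK hpS hM
  have hK : Finite (KK S ρ) := Finite.of_equiv _ e.symm.toEquiv
  obtain ⟨h4, h5⟩ := card_Sha2S S ρ dat hpS hM hK hA2
  refine ⟨h4, h2, ?_⟩
  rw [h5, Nat.card_congr e.toEquiv, ← h3]
  ring

end Fermat.Agent.S55.D
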