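import Fermat.Agent.S55.D.Untw
import Fermat.Agent.S55.D.Ar.CapT

/-!
# S55 / layer D : step D3 (CAP) capitulation of ramification data inside `ℚ_S`

`cap` : `π` good for `ρ`.  A family `u` of the induced module `Fn π ρ` (unramified almost everywhere) becomes
global up to unramified classes after pull back to a smaller good `G`-set `π'`.

Reduction to `ρ = T = rhoT p` (key `S55/D-CAP`, uses `Untw.lean`):
`lam k`, `a k` from `exists_basis`; choose a base point `s₀`; `θ k = utw ht s₀ ρ T (lam k)`.  By induction on `m ≤ n` there are `π_m → π` good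
(for `μ_p`, hence for `ρ`: `Good.of_setMap`) with `pull_* θ_k_* u ∈ GlobG` for `k < m`: apply `capT` to `pull_* θ_m_* u` (`famMap_mem_FamG`);
`GlobG` is stable under `pull_*` (`famMap_mem_GlobG`); `pull (j ∘ j') = pull j' ∘ pull j`.  At the end choose `s₀'` with `j s₀' = s₀`
(`j` is onto because `π` is transitive: `j (π' g s') = π g (j s')`), `ι' k = utw ht' s₀' T ρ (a k)`:
`pull f = ∑ k, pull (ι k (θ k f)) = ∑ k, ι' k (pull (θ k f))` (`utw_utw`, `utw_sum`, `utw_id`, `pull_utw`), so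
`pull_* u = ∑ k, ι'_k_* (pull_* θ_k_* u) ∈ GlobG` (`H1c_sum`, `H1c_H1c`).

`capT` : sub-layer `S55/D-AR` (helper19), files `D/Ar/*.lean` (they must not import this file).
-/

set_option autoImplicit false

namespace Fermat.Agent.S55.D

open ExtCitation

variable {p : ℕ} [Fact p.Prime] (S : Finset Nat.Primes)

/-- **(CAP) for `μ_p`** [keys S55/D-CAPT-*, file `CapT.lean`] -/
theorem capT (hpS : pPrime p ∈ S) {Sg : Type} [Fintype Sg] (π : GQ →* Equiv.Perm Sg)
    (hπ : Good S (rhoT p) p π) (u : Fam (Fn π (rhoT p))) (hu : u ∈ FamG S (Fn π (rhoT p))) :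
    ∃ (Sg' : Type) (_ : Fintype Sg') (π' : GQ →* Equiv.Perm Sg') (j : Sg' → Sg)
      (hj : IsSetMap π π' j), Good S (rhoT p) p π' ∧
        famMap (isHom_pull (rhoT p) hj) u ∈ GlobG S (Fn π' (rhoT p)) :=
  capT' S hpS π hπ u hu

/-- composition of coefficient maps on families -/
theorem cap_famMap_famMap {A B C : Type*} [AddCommGroup A] [AddCommGroup B] [AddCommGroup C]
    {ρA : GQ →* AddMonoid.End A} {ρB : GQ →* AddMonoid.End B} {ρC : GQ →* AddMonoid.End C}
    {f : A →+ B} {g : B →+ C} {h : A →+ C} (hg : IsHom ρB ρC g) (hf : IsHom ρA ρB f)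
    (hh : IsHom ρA ρC h) (e : ∀ a, g (f a) = h a) (n : Fam ρA) :
    famMap hg (famMap hf n) = famMap hh n := by
  funext v
  exact H1c_H1c (lvlD v) (hg.res (Dq v).subtype) (hf.res (Dq v).subtype) (hh.res (Dq v).subtype) e
    (n v)

/-- sums of coefficient maps on families -/
theorem cap_famMap_sum {A B : Type*} [AddCommGroup A] [AddCommGroup B]
    {ρA : GQ →* AddMonoid.End A} {ρB : GQ →* AddMonoid.End B} {ι : Type*} (s : Finset ι)
    {f : ι → A →+ B} (hf : ∀ k, IsHom ρA ρB (f k)) {h : A →+ B} (hh : IsHom ρA ρB h)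
    (e : ∀ a, ∑ k ∈ s, f k a = h a) (n : Fam ρA) :
    ∑ k ∈ s, famMap (hf k) n = famMap hh n := by
  funext v
  rw [Finset.sum_apply]
  simp only [famMap_apply]
  rw [← H1c_sum (lvlD v) s (fun k => (hf k).res (Dq v).subtype)]
  refine H1c_congr (lvlD v) _ _ ?_ (n v)
  ext a
  rw [AddMonoidHom.finsetSum_apply, e]

theorem cap_isSetMap_comp {G : Type*} [Group G] {Sg Sg' Sg'' : Type*} {π : G →* Equiv.Perm Sg}
    {π' : G →* Equiv.Perm Sg'} {π'' : G →* Equiv.Perm Sg''} {j : Sg' → Sg} {j' : Sg'' → Sg'}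
    (hj : IsSetMap π π' j) (hj' : IsSetMap π' π'' j') : IsSetMap π π'' (j ∘ j') := fun g s => by
  rw [Function.comp_apply, hj', hj, Function.comp_apply]

/-- **(CAP)** [key S55/D-CAP] -/
theorem cap (hpS : pPrime p ∈ S) {A : Type} [AddCommGroup A] (ρ : GQ →* AddMonoid.End A)
    (hM : FinMod p (lvlS S) ρ) {Sg : Type} [Fintype Sg] (π : GQ →* Equiv.Perm Sg)
    (hπ : Good S ρ p π) (u : Fam (Fn π ρ)) (hu : u ∈ FamG S (Fn π ρ)) :
    ∃ (Sg' : Type) (_ : Fintype Sg') (π' : GQ →* Equiv.Perm Sg') (j : Sg' → Sg)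
      (hj : IsSetMap π π' j), Good S ρ p π' ∧
        famMap (isHom_pull ρ hj) u ∈ GlobG S (Fn π' ρ) := by
  have := hM.fin
  obtain ⟨n, lam, a, hsum⟩ := exists_basis (p := p) hM.tors
  have ht := hπ.trans
  obtain ⟨s₀⟩ := ht.1
  have hθ : ∀ k, IsHom (Fn π ρ) (Fn π (rhoT p)) (utw ht s₀ ρ (rhoT p) (lam k)) :=
    fun k => isHom_utw ht s₀ (hπ.trivAt s₀) (hπ.trivAtT s₀) (lam k)
  -- induction over the basis
  have key : ∀ m ≤ n, ∃ (Sg' : Type) (_ : Fintype Sg') (π' : GQ →* Equiv.Perm Sg') (j : Sg' → Sg)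
      (hj : IsSetMap π π' j), Good S (rhoT p) p π' ∧ ∀ k : Fin n, (k : ℕ) < m →
        famMap (isHom_pull (rhoT p) hj) (famMap (hθ k) u) ∈ GlobG S (Fn π' (rhoT p)) := by
    intro m
    induction m with
    | zero =>
      intro _
      exact ⟨Sg, inferInstance, π, id, fun _ _ => rfl, hπ.toT,
        fun k hk => absurd hk (Nat.not_lt_zero _)⟩
    | succ m ih =>
      intro hm
      obtain ⟨Sg1, _, π1, j1, hj1, hg1, h1⟩ := ih (by omega)
      obtain ⟨Sg2, i2, π2, j2, hj2, hg2, h2⟩ := capT S hpS π1 hg1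
        (famMap (isHom_pull (rhoT p) hj1) (famMap (hθ ⟨m, hm⟩) u))
        (famMap_mem_FamG _ (famMap_mem_FamG _ hu))
      refine ⟨Sg2, i2, π2, j1 ∘ j2, cap_isSetMap_comp hj1 hj2, hg2, fun k hk => ?_⟩
      rw [← cap_famMap_famMap (isHom_pull (rhoT p) hj2) (isHom_pull (rhoT p) hj1) _ (fun _ => rfl)]
      rcases Nat.lt_succ_iff_lt_or_eq.1 hk with hk' | hk'
      · exact famMap_mem_GlobG _ (h1 k hk')
      · have hkm : k = ⟨m, hm⟩ := Fin.ext hk'
        rw [hkm]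
        exact h2
  obtain ⟨Sg', i', π', j, hj, hg', h'⟩ := key n le_rfl
  have hgood : Good S ρ p π' := hπ.of_setMap hg' hj
  refine ⟨Sg', i', π', j, hj, hgood, ?_⟩
  have ht' := hg'.trans
  obtain ⟨s1⟩ := ht'.1
  obtain ⟨g, hg⟩ := ht.2 (j s1) s₀
  have hs : j (π' g s1) = s₀ := by rw [hj, hg]
  generalize π' g s1 = s₀' at hs
  have hι : ∀ k, IsHom (Fn π' (rhoT p)) (Fn π' ρ) (utw ht' s₀' (rhoT p) ρ (a k)) :=
    fun k => isHom_utw ht' s₀' (hgood.trivAtT s₀') (hgood.trivAt s₀') (a k)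
  have e : ∀ f : Sg → A, ∑ k, ((utw ht' s₀' (rhoT p) ρ (a k)).comp
      ((pull (ZMod p) j).comp (utw ht s₀ ρ (rhoT p) (lam k)))) f = pull A j f := by
    intro f
    have h1 : ∀ k, ((utw ht' s₀' (rhoT p) ρ (a k)).comp
        ((pull (ZMod p) j).comp (utw ht s₀ ρ (rhoT p) (lam k)))) f =
        utw ht' s₀' ρ ρ ((a k).comp (lam k)) (pull A j f) := by
      intro k
      rw [AddMonoidHom.comp_apply, AddMonoidHom.comp_apply,
        pull_utw ht s₀ ht' s₀' hj hs (hπ.trivAt s₀) (hπ.trivAtT s₀), utw_utw]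
    simp only [h1]
    rw [← utw_sum, hsum, utw_id]
  rw [← cap_famMap_sum Finset.univ
    (fun k => (hι k).comp ((isHom_pull (rhoT p) hj).comp (hθ k))) (isHom_pull ρ hj) e u]
  refine sum_mem fun k _ => ?_
  rw [← cap_famMap_famMap (hι k) ((isHom_pull (rhoT p) hj).comp (hθ k)) _ (fun _ => rfl),
    ← cap_famMap_famMap (isHom_pull (rhoT p) hj) (hθ k) _ (fun _ => rfl)]
  exact famMap_mem_GlobG _ (h' k k.2)

end Fermat.Agent.S55.D
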