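import Fermat.Agent.S55.D.Cap
import Fermat.Agent.S55.D.Ar.Count

/-!
# S55 / layer D : the arithmetic count for `M₀ = Fn π μ_p`  (interface of the arithmetic sub-layer `D-AR`)

`π` good for `T = rhoT p` (finite transitive `S`-smooth `GQ`-set, stabilisers inside `ker (cycloChar p)`), `s₀` a base point,
`F = G.fld π s₀` (a number field containing `μ_p`, fixed by all inertia groups outside `S`), `S_F` = places of `F` over `S`.

`count_T` with `c = (C.CS p S_F).index`, `k = #S_F + C.rI F` (`2 * rI F = [F : ℚ]`, `C.two_mul_rI`, here `p ≠ 2`):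
* (ii)  `#RQ ≤ c`;
* (i)   `X = ` the classes `x ∈ H¹_S(M₀)` with `infl1 x ∈ kum (VS p S_F)`; `#X = [VS : Fˣᵖ] = c * p ^ k` (`C.EC`);
* (iii) `∏_{v ∈ S} #H¹(D_v, M₀) ≤ [Fˣ : lpS S_F] ≤ ∏_{w ∈ S_F} [Fˣ : lp w] ≤ p ^ (2 #S_F + [F : ℚ])` (`C.prod_index_lp_le`).
See the board post of helper15 (key `S55/D-AR-owner`) for the proofs.
-/

set_option autoImplicit false

namespace Fermat.Agent.S55.D

open ExtCitation

variable {p : ℕ} [Fact p.Prime] (S : Finset Nat.Primes)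

/-- **(COUNT)** [sub-layer `S55/D-AR`] -/
theorem count_T (hp2 : p ≠ 2) (hpS : pPrime p ∈ S) {Sg : Type} [Fintype Sg]
    (π : GQ →* Equiv.Perm Sg) (hπ : Good S (rhoT p) p π) :
    ∃ c k : ℕ, 0 < c ∧
      (Finite (RQ S (Fn π (rhoT p))) ∧ Nat.card (RQ S (Fn π (rhoT p))) ≤ c) ∧
      (∃ X : AddSubgroup (H1 (lvlS S) (Fn π (rhoT p))), Finite X ∧ c * p ^ k ≤ Nat.card X) ∧
      (∀ v ∈ S, Finite (H1 (lvlD v) (rv Dq (Fn π (rhoT p)) v))) ∧
      ∏ v ∈ S, Nat.card (H1 (lvlD v) (rv Dq (Fn π (rhoT p)) v)) ≤ p ^ (2 * k) :=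
  count_T' S hp2 hpS π hπ

end Fermat.Agent.S55.D
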