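import Fermat.Agent.S55.Dual.Datum
import Fermat.Agent.S55.A.Mod

/-!
# S55 / layer D (S versus all places) : definitions

Blueprint: `select body from briefing where title like 'S55-BLUEPRINT layer D%'` (helper28), with the
simplifications of helper15 (board).  Notation: `G = GQ`, `H^i = H^i(lvlQ)`, `H^i_S = H^i(lvlS S)`,
`D_v = Dq v`, `I_v = Iq v`.

* `IqD v`       : the inertia group as a subgroup of `↥(Dq v)`.
* `H1ur v ρv`   : unramified classes in `H¹(D_v, X)` (classes of cocycles vanishing on `I_v`).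
* `FamG S ρ`    : families `(n_v)_v`, `n_v ∈ H¹(D_v, M)`, unramified for almost all `v ∉ S`
                  (the components at `v ∈ S` are irrelevant).
* `GlobG S ρ`   : families which are, at all `v ∉ S`, unramified modifications of a global class.
* `KK S ρ`      : `ker (infl2 : H²_S → H²)`.
* `RQ S ρ`      : `FamG / GlobG`.
* `Good p S π ρ` : `π` is a finite transitive `S`-smooth `G`-set whose stabilisers act trivially on `ρ`, `μ_p`.
-/

set_option autoImplicit false

noncomputable section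

namespace Fermat.Agent.S55.D

open ExtCitation

/-! ### the cokernel sequence -/

section Cok

variable {G : Type*} [Group G] {A B : Type*} [AddCommGroup A] [AddCommGroup B]
  {ρA : G →* AddMonoid.End A} {ρB : G →* AddMonoid.End B} {φ : A →+ B}

/-- the cokernel sequence of an equivariant injection -/
theorem ses_cok (h : IsHom ρA ρB φ) (hi : Function.Injective φ) :
    SES ρA ρB (quotRho (stable_range h)) φ (QuotientAddGroup.mk' φ.range) where
  hi := h
  hj := isHom_mk' _
  inj := hi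
  surj := QuotientAddGroup.mk'_surjective _
  exact := fun b => by
    rw [QuotientAddGroup.mk'_apply, QuotientAddGroup.eq_zero_iff]
    exact Iff.rfl

end Cok

/-! ### unramified classes, families -/

/-- the inertia group inside the decomposition group -/
def IqD (v : Nat.Primes) : Subgroup ↥(Dq v) := (Iq v).subgroupOf (Dq v)

theorem mem_IqD {v : Nat.Primes} {i : ↥(Dq v)} : i ∈ IqD v ↔ (i : GQ) ∈ Iq v := Iff.rfl

variable {A : Type*} [AddCommGroup A]

/-- unramified classes: classes of cocycles vanishing on inertia -/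
def H1ur (v : Nat.Primes) (ρv : ↥(Dq v) →* AddMonoid.End A) : AddSubgroup (H1 (lvlD v) ρv) where
  carrier := {x | ∃ c : ↥(Z1 (lvlD v) ρv), H1.mk _ _ c = x ∧ ∀ i ∈ IqD v, (c : ↥(Dq v) → A) i = 0}
  add_mem' := by
    rintro _ _ ⟨c, rfl, hc⟩ ⟨c', rfl, hc'⟩
    exact ⟨c + c', map_add _ _ _, fun i hi => by
      rw [AddSubgroup.coe_add, Pi.add_apply, hc i hi, hc' i hi, add_zero]⟩
  zero_mem' := ⟨0, map_zero _, fun _ _ => rfl⟩
  neg_mem' := by
    rintro _ ⟨c, rfl, hc⟩
    exact ⟨-c, map_neg _ _, fun i hi => by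
      rw [AddSubgroup.coe_neg, Pi.neg_apply, hc i hi, neg_zero]⟩

theorem mem_H1ur {v : Nat.Primes} {ρv : ↥(Dq v) →* AddMonoid.End A} {x : H1 (lvlD v) ρv} :
    x ∈ H1ur v ρv ↔ ∃ c : ↥(Z1 (lvlD v) ρv), H1.mk _ _ c = x ∧
      ∀ i ∈ IqD v, (c : ↥(Dq v) → A) i = 0 := Iff.rfl

variable (S : Finset Nat.Primes) (ρ : GQ →* AddMonoid.End A)

/-- the type of all families of local classes -/
abbrev Fam : Type _ := ∀ v : Nat.Primes, H1 (lvlD v) (rv Dq ρ v)

/-- families which are unramified at almost all `v ∉ S` -/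
def FamG : AddSubgroup (Fam ρ) where
  carrier := {n | {v | v ∉ S ∧ n v ∉ H1ur v (rv Dq ρ v)}.Finite}
  add_mem' := by
    intro a b ha hb
    refine (ha.union hb).subset ?_
    rintro v ⟨hv, h⟩
    by_contra hcon
    rw [Set.mem_union, not_or] at hcon
    have h1 : a v ∈ H1ur v (rv Dq ρ v) := by
      by_contra h1; exact hcon.1 ⟨hv, h1⟩
    have h2 : b v ∈ H1ur v (rv Dq ρ v) := by
      by_contra h2; exact hcon.2 ⟨hv, h2⟩
    exact h ((H1ur v (rv Dq ρ v)).add_mem h1 h2)
  zero_mem' := by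
    refine Set.Finite.subset Set.finite_empty ?_
    rintro v ⟨_, h⟩
    exact h (H1ur v (rv Dq ρ v)).zero_mem
  neg_mem' := by
    intro a ha
    refine ha.subset ?_
    rintro v ⟨hv, h⟩
    exact ⟨hv, fun h1 => h ((H1ur v (rv Dq ρ v)).neg_mem h1)⟩

/-- families which are unramified at all `v ∉ S` -/
def UrG : AddSubgroup (Fam ρ) where
  carrier := {n | ∀ v ∉ S, n v ∈ H1ur v (rv Dq ρ v)}
  add_mem' := fun ha hb v hv => (H1ur v (rv Dq ρ v)).add_mem (ha v hv) (hb v hv)
  zero_mem' := fun v _ => (H1ur v (rv Dq ρ v)).zero_mem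
  neg_mem' := fun ha v hv => (H1ur v (rv Dq ρ v)).neg_mem (ha v hv)

/-- the family of localisations of a global class -/
def locFam : H1 lvlQ ρ →+ Fam ρ where
  toFun x v := loc1 ρ v x
  map_zero' := by ext v; exact map_zero _
  map_add' x y := by ext v; exact map_add _ _ _

@[simp] theorem locFam_apply (x : H1 lvlQ ρ) (v : Nat.Primes) : locFam ρ x v = loc1 ρ v x := rfl

/-- families which are global up to unramified classes (at all `v ∉ S`) -/
def GlobG : AddSubgroup (Fam ρ) := (locFam ρ).range ⊔ UrG S ρ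

theorem mem_GlobG {n : Fam ρ} : n ∈ GlobG S ρ ↔
    ∃ x : H1 lvlQ ρ, ∀ v ∉ S, n v - loc1 ρ v x ∈ H1ur v (rv Dq ρ v) := by
  rw [GlobG, AddSubgroup.mem_sup]
  constructor
  · rintro ⟨_, ⟨x, rfl⟩, u, hu, rfl⟩
    exact ⟨x, fun v hv => by
      rw [Pi.add_apply, locFam_apply, add_sub_cancel_left]; exact hu v hv⟩
  · rintro ⟨x, hx⟩
    exact ⟨locFam ρ x, ⟨x, rfl⟩, n - locFam ρ x, hx, by abel⟩

/-- `ker (H²_S → H²)` -/
def KK : AddSubgroup (H2 (lvlS S) ρ) := (infl2 S ρ).ker

theorem mem_KK {x : H2 (lvlS S) ρ} : x ∈ KK S ρ ↔ infl2 S ρ x = 0 := Iff.rfl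

/-- push forward of families along a coefficient map -/
def famMap {B : Type*} [AddCommGroup B] {ρ : GQ →* AddMonoid.End A} {ρB : GQ →* AddMonoid.End B}
    {f : A →+ B} (hf : IsHom ρ ρB f) : Fam ρ →+ Fam ρB where
  toFun n v := H1c (lvlD v) (hf.res (Dq v).subtype) (n v)
  map_zero' := by ext v; exact map_zero _
  map_add' x y := by ext v; exact map_add _ _ _

@[simp] theorem famMap_apply {B : Type*} [AddCommGroup B] {ρ : GQ →* AddMonoid.End A}
    {ρB : GQ →* AddMonoid.End B} {f : A →+ B} (hf : IsHom ρ ρB f) (n : Fam ρ) (v : Nat.Primes) :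
    famMap hf n v = H1c (lvlD v) (hf.res (Dq v).subtype) (n v) := rfl

/-- `FamG / GlobG` -/
abbrev RQ : Type _ := ↥(FamG S ρ) ⧸ (GlobG S ρ).addSubgroupOf (FamG S ρ)

/-- good `G`-sets: finite (by instance), transitive, `S`-smooth, stabilisers trivial on `ρ` and `μ_p` -/
structure Good (p : ℕ) [Fact p.Prime] {Sg : Type} (π : GQ →* Equiv.Perm Sg) : Prop where
  smooth : SmoothSet π (lvlS S)
  trans : IsTrans π
  triv : ∀ g s, π g s = s → ρ g = 1 ∧ cycloChar p g = 1

end Fermat.Agent.S55.D
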