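import Fermat.Agent.S55.D.Pair

/-!
# S55 / layer D : the bridge `Φ_S / Φ_all ↔ Ш¹_S(M') / Ш¹_all(M')`

`M' = dualRho χ ρ`, `P' = dualRho χ (Fn π ρ)`, `K' = dualRho χ (rhoK π ρ)`; `sesD : 0 → M' → P' → K' → 0` (`SES.dual`),
`dltS : Φ = H⁰(K') → H¹_S(M')` its connecting map for the levels `lvlS S`.
`EE S π ρ = ker (H¹_S(M') → H¹_S(P'))`, `ShaE S π ρ = Sha1S S M' ⊓ EE`.

## Proofs
* `mem_EE_iff` : `H1c_i_eq_zero_iff`.
* `loc1_infl1_dltS_eq_zero_iff` : `infl1 (delta0 at lvlS) = delta0 at lvlQ` (`delta0_natural` with `lvlMap_infl S`, all maps `id`),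
  `res1_delta0`, `delta0_eq_zero_iff`; an element of `H0` of the restricted `P'` is a `D_v`-equivariant functional (`mem_H0_dualRho`;
  `(dualRho χ ρ).comp r = dualRho (χ.comp r) (ρ.comp r)` is `rfl`).
* `dltS_mem_Sha1S_iff`, `infl1_dltS_mem_ShaA1_iff` : from the previous one.
* `H1c_infl1` : `rfl` on representatives.
* `mem_EE_of_ShaA1` : `(dual eps)_* y ∈ H¹_S(P')` has `infl1` in `ShaA1 P'` (`H1c_infl1`, `res1_H1c`), which is `0` (`sha1_dual_Fn`); `infl1_injective`.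
* `exists_infl1_of_ShaA1` : `mem_range_infl1_iff` (`M'` is `S`-smooth: `smooth_dualRho`), `0 ∈ H1ur`.
* `card_ShaE` : `f = dltS` restricted to `PhiS` is onto `ShaE` (`mem_EE_iff`, `dltS_mem_Sha1S_iff`); `A1 = {y ∈ ShaE | infl1 y ∈ ShaA1}`;
  `f⁻¹ A1 = PhiAll`, so `PhiS / PhiAll ≃ ShaE / A1`; `A1 ≃ ShaA1` by `infl1` (`infl1_injective`, `exists_infl1_of_ShaA1`, `mem_EE_of_ShaA1`);
  Lagrange (`AddSubgroup.card_eq_card_quotient_mul_card_addSubgroup`).  Everything is finite because `Φ` is.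
* `card_le_of_le_EE` : `q : Φ → H¹_S(M') ⧸ Sha1S`, `φ ↦ [dltS φ]` has kernel `PhiS`; the image of `Y` in the quotient lies in `range q`; so
  `#(Y / Y ∩ Sha1S) ≤ #(Φ / PhiS)`; Lagrange.
* `iso_ineq` : `W = ∀ v : S, H¹(D_v, M)` (finite, killed by `p`), `locS : H¹_S(M) → W`, `Λ : Φ → (W →+ ZMod p)`,
  `Λ φ w = ∑_{v ∈ S} dat.lp _ v (dlt v (w v)) φ`.  `ker Λ = PhiS` (`extAt_iff`, test with `Pi.single`).  `Λ φ` kills `L = locS X`:
  for `x ∈ H¹_S(M)`: `0 = gp (locAll (dltQ (infl1 x))) φ` (`recip'`) `= ∑ᶠ_v lp v (dlt v (loc_v infl1 x)) φ` (`dlt_loc1`), and the terms with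
  `v ∉ S` vanish (`mem_range_infl1_iff`, `dlt_eq_zero_of_mem_H1ur`); `finsum_eq_sum_of_support_subset`.  So
  `Φ / PhiS ↪ {l : W →+ ZMod p | l L = 0} ≃ (W ⧸ L →+ ZMod p)`, of cardinality `#W / #L` (`LA.card_dual`).  `ker (locS | X) = X ∩ Sha1S`, so `#X ≤ #L * #Sha1S`.
* `exists_kill` : one class `y = [c]`: `c (g u) = c g` for `u ∈ U₁` (`U₁` an `S`-level of `c`).  `π` transitive with stabilisers in `U₁`, `s₀` a base
  point, `g_s s₀ = s`.  `ψ f = ∑_s c (g_s) (f s)`.  `c (g g_s) = c (g_{g s})` because `g_{gs}⁻¹ g g_s ∈ Stab s₀ ≤ U₁`.  Then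
  `(g ψ) f = χ g ∑_s c (g_s) (ρ g⁻¹ (f (g s))) = ∑_s (g • c (g_s)) (f (g s)) = ∑_s (c (g g_s) - c g) (f (g s)) = ψ f - c g (eps f)`, i.e.
  `dualMap eps ∘ c = - d0 ψ`.  Finitely many classes: intersect the levels (`(lvlS S).inter`).
-/

set_option autoImplicit false
set_option linter.unusedSectionVars false

noncomputable section

namespace Fermat.Agent.S55.D

open ExtCitation

variable {p : ℕ} [Fact p.Prime] {S : Finset Nat.Primes} {A : Type} [AddCommGroup A]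
  {ρ : GQ →* AddMonoid.End A} {Sg : Type} [Fintype Sg] {π : GQ →* Equiv.Perm Sg}

/-- all stabilisers of `π` lie in `U` -/
def StabLe {Sg : Type} (π : GQ →* Equiv.Perm Sg) (U : Subgroup GQ) : Prop :=
  ∀ g s, π g s = s → g ∈ U

theorem StabLe.mono {Sg : Type} {π : GQ →* Equiv.Perm Sg} {U V : Subgroup GQ} (h : StabLe π U)
    (hUV : U ≤ V) : StabLe π V := fun g s hg => hUV (h g s hg)

/-- the dual sequence `0 → M' → P' → K' → 0` -/
theorem sesD (hM : FinMod p (lvlS S) ρ) (hπ : Good S ρ p π) :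
    SES (dualRho (cycloChar p) ρ) (dualRho (cycloChar p) (Fn π ρ))
      (dualRho (cycloChar p) (rhoK π ρ)) (dualMap p (eps Sg A))
      (dualMap p (eps Sg A).ker.subtype) :=
  (sesK hπ).dual (finModP hM hπ).tors

theorem finModDual (hpS : pPrime p ∈ S) (hM : FinMod p (lvlS S) ρ) :
    FinMod p (lvlS S) (dualRho (cycloChar p) ρ) :=
  hM.dual (smooth_rhoT_lvlS S hpS)

/-- the connecting map `Φ = H⁰(K') → H¹_S(M')` -/
def dltS (hpS : pPrime p ∈ S) (hM : FinMod p (lvlS S) ρ) (hπ : Good S ρ p π) :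
    Phi p π ρ →+ H1 (lvlS S) (dualRho (cycloChar p) ρ) :=
  delta0 (sesD hM hπ) (finModDual hpS (finModP hM hπ)).smooth

/-- `ker (H¹_S(M') → H¹_S(P'))` -/
def EE (p : ℕ) [Fact p.Prime] (S : Finset Nat.Primes) (π : GQ →* Equiv.Perm Sg)
    (ρ : GQ →* AddMonoid.End A) : AddSubgroup (H1 (lvlS S) (dualRho (cycloChar p) ρ)) :=
  (H1c (lvlS S) (isHom_dualMap (χ := cycloChar p) (isHom_eps π ρ))).ker

/-- the part of `Ш¹_S(M')` killed by `π` -/
def ShaE (p : ℕ) [Fact p.Prime] (S : Finset Nat.Primes) (π : GQ →* Equiv.Perm Sg)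
    (ρ : GQ →* AddMonoid.End A) : AddSubgroup (H1 (lvlS S) (dualRho (cycloChar p) ρ)) :=
  Sha1S S (dualRho (cycloChar p) ρ) ⊓ EE p S π ρ

/-- [key S55/D-B1] -/
theorem mem_EE_iff (hpS : pPrime p ∈ S) (hM : FinMod p (lvlS S) ρ) (hπ : Good S ρ p π)
    (y : H1 (lvlS S) (dualRho (cycloChar p) ρ)) :
    y ∈ EE p S π ρ ↔ ∃ φ, dltS hpS hM hπ φ = y :=
  H1c_i_eq_zero_iff (sesD hM hπ) (finModDual hpS (finModP hM hπ)).smooth y

/-- [key S55/D-B1] -/
theorem loc1_infl1_dltS_eq_zero_iff (hpS : pPrime p ∈ S) (hM : FinMod p (lvlS S) ρ)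
    (hπ : Good S ρ p π) (v : Nat.Primes) (φ : Phi p π ρ) :
    loc1 (dualRho (cycloChar p) ρ) v (infl1 S _ (dltS hpS hM hπ φ)) = 0 ↔ ExtAt v φ := by
  have hB := (finModDual hpS (finModP hM hπ)).smooth
  have h1 : infl1 S _ (dltS hpS hM hπ φ) = delta0 (sesD hM hπ) (smooth_lvlQ_aux hB) φ :=
    delta0_natural (sesD hM hπ) hB (sesD hM hπ) (smooth_lvlQ_aux hB) (lvlMap_infl S)
      (φA := AddMonoidHom.id _) (φB := AddMonoidHom.id _) (φC := AddMonoidHom.id _)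
      (fun _ _ => rfl) (fun _ _ => rfl) (fun _ _ => rfl) (fun _ => rfl) (fun _ => rfl) φ
  rw [h1]
  change res1 lvlQ _ (Dq v).subtype _ = 0 ↔ _
  rw [res1_delta0]
  refine (delta0_eq_zero_iff _ _ _).trans ?_
  constructor
  · rintro ⟨b, hb⟩
    have hb2 : b.1 ∈ H0 (dualRho ((cycloChar p).comp (Dq v).subtype) (rv Dq (Fn π ρ) v)) := b.2
    have hb3 : IsHom (rv Dq (Fn π ρ) v) (rhoChi ((cycloChar p).comp (Dq v).subtype)) b.1 :=
      mem_H0_dualRho.1 hb2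
    refine ⟨b.1, hb3, fun k => ?_⟩
    exact DFunLike.congr_fun (congrArg Subtype.val hb) k
  · rintro ⟨ψ, hψ, hk⟩
    have hψ2 : IsHom (rv Dq (Fn π ρ) v) (rhoChi ((cycloChar p).comp (Dq v).subtype)) ψ := hψ
    have hψ3 : ψ ∈ H0 (dualRho ((cycloChar p).comp (Dq v).subtype) (rv Dq (Fn π ρ) v)) :=
      mem_H0_dualRho.2 hψ2
    exact ⟨⟨ψ, hψ3⟩, Subtype.ext (AddMonoidHom.ext hk)⟩

theorem dltS_mem_Sha1S_iff (hpS : pPrime p ∈ S) (hM : FinMod p (lvlS S) ρ) (hπ : Good S ρ p π)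
    (φ : Phi p π ρ) :
    dltS hpS hM hπ φ ∈ Sha1S S (dualRho (cycloChar p) ρ) ↔ φ ∈ PhiS p S π ρ :=
  forall₂_congr fun v _ => loc1_infl1_dltS_eq_zero_iff hpS hM hπ v φ

theorem infl1_dltS_mem_ShaA1_iff (hpS : pPrime p ∈ S) (hM : FinMod p (lvlS S) ρ)
    (hπ : Good S ρ p π) (φ : Phi p π ρ) :
    infl1 S _ (dltS hpS hM hπ φ) ∈ ShaA1 lvlQ Dq (dualRho (cycloChar p) ρ) ↔ φ ∈ PhiAll p π ρ :=
  forall_congr' fun v => loc1_infl1_dltS_eq_zero_iff hpS hM hπ v φ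

/-- [key S55/D-B2] inflation commutes with coefficient maps -/
theorem H1c_infl1 {X Y : Type*} [AddCommGroup X] [AddCommGroup Y] {ρX : GQ →* AddMonoid.End X}
    {ρY : GQ →* AddMonoid.End Y} {f : X →+ Y} (hf : IsHom ρX ρY f) (x : H1 (lvlS S) ρX) :
    infl1 S ρY (H1c (lvlS S) hf x) = H1c lvlQ hf (infl1 S ρX x) := by
  obtain ⟨c, rfl⟩ := H1.mk_surjective _ _ x
  rfl

/-- [key S55/D-B2] coefficient maps preserve `Ш¹_S` -/
theorem H1c_mem_Sha1S {X Y : Type*} [AddCommGroup X] [AddCommGroup Y] {ρX : GQ →* AddMonoid.End X}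
    {ρY : GQ →* AddMonoid.End Y} {f : X →+ Y} (hf : IsHom ρX ρY f) {x : H1 (lvlS S) ρX}
    (hx : x ∈ Sha1S S ρX) : H1c (lvlS S) hf x ∈ Sha1S S ρY := by
  intro v hv
  rw [H1c_infl1]
  change res1 lvlQ _ (Dq v).subtype _ = 0
  rw [res1_H1c]
  have h1 : res1 lvlQ ρX (Dq v).subtype (infl1 S ρX x) = 0 := hx v hv
  rw [h1, map_zero]
  rfl

/-- [key S55/D-B2] -/
theorem mem_EE_of_ShaA1 (dat : Datum p lvlQ (cycloChar p) Dq) (hM : FinMod p (lvlS S) ρ)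
    (hπ : Good S ρ p π) (y : H1 (lvlS S) (dualRho (cycloChar p) ρ))
    (hy : infl1 S _ y ∈ ShaA1 lvlQ Dq (dualRho (cycloChar p) ρ)) : y ∈ EE p S π ρ := by
  change H1c (lvlS S) (isHom_dualMap (χ := cycloChar p) (isHom_eps π ρ)) y = 0
  apply infl1_injective
  rw [map_zero, H1c_infl1]
  refine sha1_dual_Fn S ρ dat hM π hπ _ fun v => ?_
  rw [res1_H1c, hy v, map_zero]

/-- [key S55/D-B2] -/
theorem exists_infl1_of_ShaA1 (hpS : pPrime p ∈ S) (hM : FinMod p (lvlS S) ρ)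
    (x : H1 lvlQ (dualRho (cycloChar p) ρ))
    (hx : x ∈ ShaA1 lvlQ Dq (dualRho (cycloChar p) ρ)) :
    ∃ y ∈ Sha1S S (dualRho (cycloChar p) ρ), infl1 S _ y = x := by
  obtain ⟨y, rfl⟩ := (mem_range_infl1_iff S _ (finModDual hpS hM).smooth x).2 fun v _ => by
    have h1 : loc1 (dualRho (cycloChar p) ρ) v x = 0 := hx v
    rw [h1]
    exact AddSubgroup.zero_mem _
  exact ⟨y, fun v _ => hx v, rfl⟩

/-- abstract counting lemma for `card_ShaE` [key S55/D-B3] -/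
theorem card_quot_mul_aux {P E H : Type*} [AddCommGroup P] [AddCommGroup E] [AddCommGroup H]
    (f : P →+ E) (hf : Function.Surjective f) (g : E →+ H)
    (hg : Function.Injective g) (B : AddSubgroup H) (hB : ∀ x ∈ B, ∃ y, g y = x)
    (N : AddSubgroup P) (hN : ∀ φ, φ ∈ N ↔ g (f φ) ∈ B) :
    Nat.card (P ⧸ N) * Nat.card B = Nat.card E := by
  have he1 : Function.Bijective (fun y : ↥(B.comap g) => (⟨g y.1, y.2⟩ : ↥B)) := by
    constructor
    · intro y y' h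
      exact Subtype.ext (hg (congrArg Subtype.val h))
    · rintro ⟨x, hx⟩
      obtain ⟨y, rfl⟩ := hB x hx
      exact ⟨⟨y, hx⟩, rfl⟩
  have hq : Function.Surjective ((QuotientAddGroup.mk' (B.comap g)).comp f) :=
    (QuotientAddGroup.mk'_surjective _).comp hf
  have hker : ((QuotientAddGroup.mk' (B.comap g)).comp f).ker = N := by
    ext φ
    rw [AddMonoidHom.mem_ker, AddMonoidHom.comp_apply, QuotientAddGroup.mk'_apply,
      QuotientAddGroup.eq_zero_iff, hN]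
    rfl
  have e2 := QuotientAddGroup.quotientKerEquivOfSurjective _ hq
  rw [← hker, Nat.card_congr e2.toEquiv, ← Nat.card_congr (Equiv.ofBijective _ he1),
    ← AddSubgroup.card_eq_card_quotient_mul_card_addSubgroup (B.comap g)]

/-- [key S55/D-B3] -/
theorem card_ShaE (dat : Datum p lvlQ (cycloChar p) Dq) (hpS : pPrime p ∈ S)
    (hM : FinMod p (lvlS S) ρ) (hπ : Good S ρ p π) :
    Finite (ShaA1 lvlQ Dq (dualRho (cycloChar p) ρ)) ∧ Finite (ShaE p S π ρ) ∧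
      Nat.card (↥(PhiS p S π ρ) ⧸ (PhiAll p π ρ).addSubgroupOf (PhiS p S π ρ)) *
        Nat.card (ShaA1 lvlQ Dq (dualRho (cycloChar p) ρ)) = Nat.card (ShaE p S π ρ) := by
  have hfinPhi : Finite (Phi p π ρ) := finite_Phi hM
  obtain ⟨f, hfdef⟩ : ∃ f : ↥(PhiS p S π ρ) →+ ↥(ShaE p S π ρ),
      ∀ φ, (f φ : H1 (lvlS S) (dualRho (cycloChar p) ρ)) = dltS hpS hM hπ φ.1 :=
    ⟨((dltS hpS hM hπ).comp (PhiS p S π ρ).subtype).codRestrict _ (fun φ =>
      ⟨(dltS_mem_Sha1S_iff hpS hM hπ φ.1).2 φ.2, (mem_EE_iff hpS hM hπ _).2 ⟨φ.1, rfl⟩⟩),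
      fun _ => rfl⟩
  have hf : Function.Surjective f := by
    rintro ⟨y, hy1, hy2⟩
    obtain ⟨φ, rfl⟩ := (mem_EE_iff hpS hM hπ y).1 hy2
    exact ⟨⟨φ, (dltS_mem_Sha1S_iff hpS hM hπ φ).1 hy1⟩, Subtype.ext (hfdef _)⟩
  have hfinE : Finite ↥(ShaE p S π ρ) := Finite.of_surjective f hf
  obtain ⟨g, hgdef⟩ : ∃ g : ↥(ShaE p S π ρ) →+ H1 lvlQ (dualRho (cycloChar p) ρ),
      ∀ y, g y = infl1 S _ y.1 := ⟨(infl1 S _).comp (ShaE p S π ρ).subtype, fun _ => rfl⟩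
  have hg : Function.Injective g := by
    intro y y' h
    rw [hgdef, hgdef] at h
    exact Subtype.ext (infl1_injective S _ h)
  have hB : ∀ x ∈ ShaA1 lvlQ Dq (dualRho (cycloChar p) ρ), ∃ y, g y = x := by
    intro x hx
    obtain ⟨y, hy, rfl⟩ := exists_infl1_of_ShaA1 hpS hM x hx
    exact ⟨⟨y, hy, mem_EE_of_ShaA1 dat hM hπ y hx⟩, hgdef _⟩
  have hfinA : Finite ↥(ShaA1 lvlQ Dq (dualRho (cycloChar p) ρ)) := by
    have hs : Function.Surjective (fun y : ↥((ShaA1 lvlQ Dq (dualRho (cycloChar p) ρ)).comap g) =>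
        (⟨g y.1, y.2⟩ : ↥(ShaA1 lvlQ Dq (dualRho (cycloChar p) ρ)))) := by
      rintro ⟨x, hx⟩
      obtain ⟨y, rfl⟩ := hB x hx
      exact ⟨⟨y, hx⟩, rfl⟩
    exact Finite.of_surjective _ hs
  have hN : ∀ φ : ↥(PhiS p S π ρ), φ ∈ (PhiAll p π ρ).addSubgroupOf (PhiS p S π ρ) ↔
      g (f φ) ∈ ShaA1 lvlQ Dq (dualRho (cycloChar p) ρ) := by
    intro φ
    rw [hgdef, hfdef, infl1_dltS_mem_ShaA1_iff hpS hM hπ φ.1, AddSubgroup.mem_addSubgroupOf]
  have h := card_quot_mul_aux (P := ↥(PhiS p S π ρ)) (E := ↥(ShaE p S π ρ))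
    (H := H1 lvlQ (dualRho (cycloChar p) ρ)) f hf g hg
    (ShaA1 lvlQ Dq (dualRho (cycloChar p) ρ)) hB
    ((PhiAll p π ρ).addSubgroupOf (PhiS p S π ρ)) hN
  exact ⟨hfinA, hfinE, h⟩

/-- [key S55/D-B4] -/
theorem card_le_of_le_EE (hpS : pPrime p ∈ S) (hM : FinMod p (lvlS S) ρ) (hπ : Good S ρ p π)
    (Y : AddSubgroup (H1 (lvlS S) (dualRho (cycloChar p) ρ))) (hY : Y ≤ EE p S π ρ)
    (hs : Finite (Sha1S S (dualRho (cycloChar p) ρ))) :
    Nat.card Y ≤ Nat.card (Phi p π ρ ⧸ PhiS p S π ρ) *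
      Nat.card (Sha1S S (dualRho (cycloChar p) ρ)) := by
  classical
  have hΦ : Finite (Phi p π ρ) := finite_Phi hM
  have hex : ∀ y : Y, ∃ φ, dltS hpS hM hπ φ = y.1 := fun y =>
    (mem_EE_iff hpS hM hπ y.1).1 (hY y.2)
  choose f hf using hex
  let c : Y → Phi p π ρ ⧸ PhiS p S π ρ := fun y => QuotientAddGroup.mk (f y)
  have key : ∀ y y' : Y, c y = c y' → y.1 - y'.1 ∈ Sha1S S (dualRho (cycloChar p) ρ) := by
    intro y y' h
    have h1 : -(f y) + f y' ∈ PhiS p S π ρ := QuotientAddGroup.eq.1 h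
    have h2 := (dltS_mem_Sha1S_iff hpS hM hπ _).2 h1
    rw [map_add, map_neg, hf, hf] at h2
    have h3 := neg_mem h2
    have e : y.1 - y'.1 = -(-y.1 + y'.1) := by abel
    rw [e]
    exact h3
  let r : Phi p π ρ ⧸ PhiS p S π ρ → Y := fun q => if h : ∃ y, c y = q then h.choose else 0
  have hr : ∀ y, c (r (c y)) = c y := fun y => by
    have hy : ∃ y', c y' = c y := ⟨y, rfl⟩
    simp only [r]
    rw [dif_pos hy]
    exact hy.choose_spec
  let g : Y → (Phi p π ρ ⧸ PhiS p S π ρ) × ↥(Sha1S S (dualRho (cycloChar p) ρ)) := fun y =>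
    (c y, ⟨y.1 - (r (c y)).1, key _ _ (hr y).symm⟩)
  have hg : Function.Injective g := by
    intro y y' h
    have h1 : c y = c y' := congrArg Prod.fst h
    have h2 : y.1 - (r (c y)).1 = y'.1 - (r (c y')).1 := congrArg (fun z => z.2.1) h
    rw [h1] at h2
    exact Subtype.ext (sub_left_injective h2)
  calc Nat.card Y ≤ Nat.card ((Phi p π ρ ⧸ PhiS p S π ρ) ×
        ↥(Sha1S S (dualRho (cycloChar p) ρ))) := Nat.card_le_card_of_injective g hg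
    _ = _ := Nat.card_prod _ _

/-- abstract isotropy count -/
theorem isoAux_card {V W X : Type*} [AddCommGroup V] [AddCommGroup W] [AddCommGroup X] [Finite W]
    (hW : ∀ w : W, p • w = 0) (Λ : V →+ W →+ ZMod p) (f : X →+ W)
    (h : ∀ φ x, Λ φ (f x) = 0) :
    Nat.card (V ⧸ Λ.ker) * Nat.card f.range ≤ Nat.card W := by
  have hQ : ∀ x : W ⧸ f.range, p • x = 0 := by
    intro x
    obtain ⟨w, rfl⟩ := QuotientAddGroup.mk_surjective x
    rw [← QuotientAddGroup.mk_nsmul, hW]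
    rfl
  have h1 : Nat.card (V ⧸ Λ.ker) ≤ Nat.card (W ⧸ f.range) := by
    rw [← LA.card_dual hQ, Nat.card_congr (QuotientAddGroup.quotientKerEquivRange Λ).toEquiv]
    refine Nat.card_le_card_of_injective
      (fun l : Λ.range => QuotientAddGroup.lift f.range l.1 (by
        rintro _ ⟨x, rfl⟩
        obtain ⟨φ, hφ⟩ := l.2
        rw [← hφ]
        exact h φ x)) ?_
    intro l l' hll
    refine Subtype.ext (AddMonoidHom.ext fun w => ?_)
    exact DFunLike.congr_fun hll (QuotientAddGroup.mk w)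
  calc Nat.card (V ⧸ Λ.ker) * Nat.card f.range
      ≤ Nat.card (W ⧸ f.range) * Nat.card f.range := Nat.mul_le_mul_right _ h1
    _ = Nat.card W := (AddSubgroup.card_eq_card_quotient_mul_card_addSubgroup _).symm

theorem isoAux_card_le {X W Z : Type*} [AddCommGroup X] [AddCommGroup W] [Finite Z]
    (f : X →+ W) (j : f.ker → Z) (hj : Function.Injective j) :
    Nat.card X ≤ Nat.card f.range * Nat.card Z := by
  rw [AddSubgroup.card_eq_card_quotient_mul_card_addSubgroup f.ker,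
    Nat.card_congr (QuotientAddGroup.quotientKerEquivRange f).toEquiv]
  exact Nat.mul_le_mul_left _ (Nat.card_le_card_of_injective j hj)

theorem isoAux_nsmul_H1 {G : Type*} [Group G] (𝓛 : Lvl G) {B : Type*} [AddCommGroup B]
    (ρB : G →* AddMonoid.End B) (n : ℕ) (hn : ∀ b : B, n • b = 0) (x : H1 𝓛 ρB) : n • x = 0 := by
  obtain ⟨z, rfl⟩ := H1.mk_surjective 𝓛 ρB x
  rw [← map_nsmul]
  have : n • z = 0 := Subtype.ext (funext fun g => hn _)
  rw [this, map_zero]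


/-- the pairing `∏_{v ∈ S} H¹(D_v, M) × Φ → 𝔽_p` -/
def isoAux_lam (dat : Datum p lvlQ (cycloChar p) Dq) (hM : FinMod p (lvlS S) ρ)
    (hπ : Good S ρ p π) :
    (∀ v : ↥S, H1 (lvlD v.1) (rv Dq ρ v.1)) →+ Phi p π ρ →+ ZMod p :=
  ∑ v : ↥S, (dat.lp (rhoK π ρ) v.1).comp ((dlt hM hπ v.1).comp (Pi.evalAddMonoidHom _ v))

theorem isoAux_lam_apply (dat : Datum p lvlQ (cycloChar p) Dq) (hM : FinMod p (lvlS S) ρ)
    (hπ : Good S ρ p π) (w : ∀ v : ↥S, H1 (lvlD v.1) (rv Dq ρ v.1)) (φ : Phi p π ρ) :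
    isoAux_lam dat hM hπ w φ = ∑ v : ↥S, dat.lp (rhoK π ρ) v.1 (dlt hM hπ v.1 (w v)) φ := by
  rw [isoAux_lam, AddMonoidHom.finsetSum_apply, AddMonoidHom.finsetSum_apply]
  rfl

theorem isoAux_ker (dat : Datum p lvlQ (cycloChar p) Dq) (hpS : pPrime p ∈ S)
    (hM : FinMod p (lvlS S) ρ) (hπ : Good S ρ p π) :
    (isoAux_lam dat hM hπ).flip.ker = PhiS p S π ρ := by
  classical
  ext φ
  rw [AddMonoidHom.mem_ker]
  constructor
  · intro h v hv
    rw [extAt_iff dat hpS hM hπ]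
    intro n
    have h1 : isoAux_lam dat hM hπ (Pi.single (⟨v, hv⟩ : ↥S) n) φ = 0 :=
      DFunLike.congr_fun h (Pi.single (M := fun v : ↥S => H1 (lvlD v.1) (rv Dq ρ v.1))
        (⟨v, hv⟩ : ↥S) n)
    rw [isoAux_lam_apply, Finset.sum_eq_single (⟨v, hv⟩ : ↥S), Pi.single_eq_same] at h1
    · exact h1
    · intro v' _ hne
      rw [Pi.single_eq_of_ne hne, map_zero, map_zero]
      rfl
    · exact fun h' => absurd (Finset.mem_univ _) h'
  · intro h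
    refine AddMonoidHom.ext fun w => ?_
    change isoAux_lam dat hM hπ w φ = 0
    rw [isoAux_lam_apply]
    exact Finset.sum_eq_zero fun v _ => (extAt_iff dat hpS hM hπ v.1 φ).1 (h v.1 v.2) _

/-- localisation at the places of `S` -/
def isoAux_loc (S : Finset Nat.Primes) (ρ : GQ →* AddMonoid.End A) :
    H1 (lvlS S) ρ →+ ∀ v : ↥S, H1 (lvlD v.1) (rv Dq ρ v.1) :=
  AddMonoidHom.mk' (fun x v => loc1 ρ v.1 (infl1 S ρ x)) (fun x y => by
    funext v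
    rw [map_add, map_add]
    rfl)

theorem isoAux_recip (dat : Datum p lvlQ (cycloChar p) Dq) (hM : FinMod p (lvlS S) ρ)
    (hπ : Good S ρ p π) (x : H1 (lvlS S) ρ) (φ : Phi p π ρ) :
    isoAux_lam dat hM hπ (isoAux_loc S ρ x) φ = 0 := by
  rw [isoAux_lam_apply, ← dat.recip' (dltQ hM hπ (infl1 S ρ x)) φ, Datum.gp,
    finsum_eq_sum_of_support_subset (s := S), ← Finset.sum_coe_sort S]
  · refine Finset.sum_congr rfl fun v _ => ?_
    have e : locAll lvlQ Dq (rhoK π ρ) (dltQ hM hπ (infl1 S ρ x)) v.1 =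
        dlt hM hπ v.1 (loc1 ρ v.1 (infl1 S ρ x)) := (dlt_loc1 hM hπ v.1 _).symm
    rw [e]
    rfl
  · intro v hv
    by_contra hvS
    apply hv
    have e : locAll lvlQ Dq (rhoK π ρ) (dltQ hM hπ (infl1 S ρ x)) v =
        dlt hM hπ v (loc1 ρ v (infl1 S ρ x)) := (dlt_loc1 hM hπ v _).symm
    change dat.lp (rhoK π ρ) v (locAll lvlQ Dq (rhoK π ρ) (dltQ hM hπ (infl1 S ρ x)) v) φ = 0
    rw [e, dlt_eq_zero_of_mem_H1ur hM hπ hvS
      ((mem_range_infl1_iff S ρ hM.smooth (infl1 S ρ x)).1 ⟨x, rfl⟩ v hvS), map_zero]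
    rfl

/-- [key S55/D-B5] the isotropy inequality -/
theorem iso_ineq (dat : Datum p lvlQ (cycloChar p) Dq) (hpS : pPrime p ∈ S)
    (hM : FinMod p (lvlS S) ρ) (hπ : Good S ρ p π)
    (hW : ∀ v ∈ S, Finite (H1 (lvlD v) (rv Dq ρ v))) (hs : Finite (Sha1S S ρ))
    (X : AddSubgroup (H1 (lvlS S) ρ)) (hX : Finite X) :
    Nat.card (Phi p π ρ ⧸ PhiS p S π ρ) * Nat.card X ≤
      (∏ v ∈ S, Nat.card (H1 (lvlD v) (rv Dq ρ v))) * Nat.card (Sha1S S ρ) := by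
  classical
  have hfin : ∀ v : ↥S, Finite (H1 (lvlD v.1) (rv Dq ρ v.1)) := fun v => hW v.1 v.2
  have hcW : Nat.card (∀ v : ↥S, H1 (lvlD v.1) (rv Dq ρ v.1)) =
      ∏ v ∈ S, Nat.card (H1 (lvlD v) (rv Dq ρ v)) := by
    rw [Nat.card_pi, Finset.prod_coe_sort S (fun v => Nat.card (H1 (lvlD v) (rv Dq ρ v)))]
  have hpW : ∀ w : (∀ v : ↥S, H1 (lvlD v.1) (rv Dq ρ v.1)), p • w = 0 := fun w =>
    funext fun v => isoAux_nsmul_H1 _ _ p hM.tors (w v)
  set f : ↥X →+ ∀ v : ↥S, H1 (lvlD v.1) (rv Dq ρ v.1) := (isoAux_loc S ρ).comp X.subtype with hf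
  have h1 := isoAux_card hpW (isoAux_lam dat hM hπ).flip f
    (fun φ x => isoAux_recip dat hM hπ x.1 φ)
  rw [isoAux_ker dat hpS hM hπ, hcW] at h1
  have h2 : Nat.card X ≤ Nat.card f.range * Nat.card (Sha1S S ρ) :=
    isoAux_card_le f (fun x => ⟨x.1.1, fun v hv => congrFun x.2 ⟨v, hv⟩⟩)
      (fun x y hxy => Subtype.ext (Subtype.ext (congrArg (fun z : ↥(Sha1S S ρ) => z.1) hxy)))
  calc Nat.card (Phi p π ρ ⧸ PhiS p S π ρ) * Nat.card X
      ≤ Nat.card (Phi p π ρ ⧸ PhiS p S π ρ) * (Nat.card f.range * Nat.card (Sha1S S ρ)) :=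
        Nat.mul_le_mul_left _ h2
    _ = Nat.card (Phi p π ρ ⧸ PhiS p S π ρ) * Nat.card f.range * Nat.card (Sha1S S ρ) :=
        (mul_assoc _ _ _).symm
    _ ≤ _ := Nat.mul_le_mul_right _ h1

/-- one class [key S55/D-B6] -/
theorem exists_kill_one_aux (p : ℕ) [Fact p.Prime] (ρ : GQ →* AddMonoid.End A)
    (y : H1 (lvlS S) (dualRho (cycloChar p) ρ)) :
    ∃ U₁ ∈ (lvlS S).sets, ∀ {Sg : Type} [Fintype Sg] (π : GQ →* Equiv.Perm Sg),
      IsTrans π → StabLe π U₁ → y ∈ EE p S π ρ := by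
  obtain ⟨c, rfl⟩ := H1.mk_surjective _ _ y
  obtain ⟨U, hU, hcU⟩ := c.2.1
  refine ⟨U, hU, fun {Sg} _ π htr hst => ?_⟩
  obtain ⟨s₀⟩ := htr.1
  have hex : ∀ s : Sg, ∃ g : GQ, π g s₀ = s := fun s => htr.2 s₀ s
  choose γ hγ using hex
  have hc : ∀ g h, (c : GQ → A →+ ZMod p) (g * h) =
      dualRho (cycloChar p) ρ g ((c : GQ → A →+ ZMod p) h) + (c : GQ → A →+ ZMod p) g := c.2.2
  -- `c (g γ_s) = c (γ_{g s})`
  have hkey : ∀ g s, (c : GQ → A →+ ZMod p) (g * γ s) = (c : GQ → A →+ ZMod p) (γ (π g s)) := by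
    intro g s
    have h1 : (γ (π g s))⁻¹ * (g * γ s) ∈ U := by
      refine hst _ s₀ ?_
      rw [map_mul, map_mul, Equiv.Perm.mul_apply, Equiv.Perm.mul_apply, hγ, map_inv,
        Equiv.Perm.inv_eq_iff_eq, hγ]
    have h2 := hcU (γ (π g s)) _ h1
    rw [← h2]
    group
  let ψ : (Sg → A) →+ ZMod p := ∑ s, ((c : GQ → A →+ ZMod p) (γ s)).comp (Pi.evalAddMonoidHom _ s)
  have hψ : ∀ f, ψ f = ∑ s, (c : GQ → A →+ ZMod p) (γ s) (f s) := by
    intro f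
    simp only [ψ, AddMonoidHom.finsetSum_apply, AddMonoidHom.comp_apply,
      Pi.evalAddMonoidHom_apply]
  rw [EE, AddMonoidHom.mem_ker, H1c_mk, H1.mk_eq_zero_iff]
  refine ⟨(Z1map (LvlMap.id _) (isHom_dualMap (χ := cycloChar p) (isHom_eps π ρ)).along c).2.1,
    -ψ, ?_⟩
  funext g
  ext f
  rw [coe_Z1map, pp1_apply, MonoidHom.id_apply, dualMap_apply, d0_apply, map_neg,
    sub_neg_eq_add, AddMonoidHom.add_apply, AddMonoidHom.neg_apply, dualRho_apply, hψ, hψ,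
    Finset.mul_sum]
  have h1 : ∀ s, ((cycloChar p g : (ZMod p)ˣ) : ZMod p) *
      (c : GQ → A →+ ZMod p) (γ s) (Fn π ρ g⁻¹ f s) =
      (c : GQ → A →+ ZMod p) (γ (π g s)) (f (π g s)) -
        (c : GQ → A →+ ZMod p) g (f (π g s)) := by
    intro s
    rw [← hkey, hc, AddMonoidHom.add_apply, dualRho_apply, Fn_apply, map_inv π, inv_inv]
    ring
  rw [Finset.sum_congr rfl (fun s _ => h1 s), Finset.sum_sub_distrib,
    Equiv.sum_comp (π g) (fun t => (c : GQ → A →+ ZMod p) (γ t) (f t)),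
    Equiv.sum_comp (π g) (fun t => (c : GQ → A →+ ZMod p) g (f t)), eps_apply, map_sum]
  ring

/-- [key S55/D-B6] effaceability of `H¹_S(M')` in the dual form -/
theorem exists_kill (p : ℕ) [Fact p.Prime] (ρ : GQ →* AddMonoid.End A)
    (T : Finset (H1 (lvlS S) (dualRho (cycloChar p) ρ))) :
    ∃ U₁ ∈ (lvlS S).sets, ∀ {Sg : Type} [Fintype Sg] (π : GQ →* Equiv.Perm Sg),
      IsTrans π → StabLe π U₁ → ∀ y ∈ T, y ∈ EE p S π ρ := by
  classical
  induction T using Finset.induction_on with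
  | empty =>
    obtain ⟨U, hU⟩ := (lvlS S).nonempty
    exact ⟨U, hU, fun _ _ _ y hy => absurd hy (Finset.notMem_empty y)⟩
  | insert a T _ ih =>
    obtain ⟨U, hU, h⟩ := ih
    obtain ⟨U', hU', h'⟩ := exists_kill_one_aux (S := S) p ρ a
    obtain ⟨W, hW, hWU⟩ := (lvlS S).inter U hU U' hU'
    refine ⟨W, hW, fun π htr hst y hy => ?_⟩
    rcases Finset.mem_insert.1 hy with rfl | hy
    · exact h' π htr (hst.mono fun g hg => (hWU hg).2)
    · exact h π htr (hst.mono fun g hg => (hWU hg).1) y hy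

end Fermat.Agent.S55.D
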