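import Fermat.Agent.S55.D.DualB
import Fermat.Agent.S55.D.Count

/-!
# S55 / layer D : step D8 (the induced case, by counting)

## `sha1S_eq_ShaE`  (key `S55/D-8a`)
If `#ShaE_π ≤ N` for all good `π` with stabilisers in `U₀`, then `Ш¹_S(M')` is finite and equal to `ShaE_π` for all small good `π`.
*Finite*: otherwise there is a `Finset T` of `N + 1` elements of `Sha1S` (`Infinite.exists_subset_card_eq`); `exists_kill T` gives `U_T`;
`(lvlS S).inter U₀ U_T`; `exists_good_le` gives a good `π` with stabilisers in it; `T ⊆ ShaE_π`, so `N + 1 ≤ #ShaE_π`.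
*Equal*: `T = ` all of `Sha1S`, `U₁ = U_T`.

## `eq_of_card_quot_le`  (key `S55/D-8a`)
`AddSubgroup.relIndex_mul_index`, `AddSubgroup.index_eq_card`, `relIndex_eq_one`.

## `ind`  (key `S55/D-8b`)
`M₀ = Fn π₀ μ_p`, `c, k, X` from `count_T`, `u, u'` from `exists_selfdual`.
1. For every good `π` (for `M₀`): `#ShaE_π = #(FamG / LK_π)` (`card_LK`, `card_ShaE`, and `ShaA1 M₀' = 0` by `sha1_dual_Fn` for `(rhoT p, π₀)`, so its
   cardinality is `1`) `≤ #RQ ≤ c` (`GlobG_le_LK`: surjection `RQ → FamG / LK`).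
2. `sha1S_eq_ShaE` with `N = c`: `s = #Ш¹_S(M₀')` is finite, `ShaE_π = Ш¹_S(M₀')` for `StabLe π U₁`.
3. `Y = X.map (H1c u)`, finite; `exists_kill` for `Y`: `U₂`.  `H1c u` is injective (`H1c_retract`), so `#Y = #X`, and it maps `Sha1S M₀` into
   `Sha1S M₀'` (`H1c_mem_Sha1S`), so `Sha1S M₀` is finite with `≤ s` elements.  For `StabLe π (U₁ ⊓ U₂)`, `a = #(Φ / PhiS)`:
   `#X = #Y ≤ a s` (`card_le_of_le_EE`), `a #X ≤ p^(2k) s` (`iso_ineq`).  So `(c p^k)² ≤ #X² ≤ a s #X ≤ s² p^(2k)`, `c ≤ s`.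
4. `#(FamG / LK_π) = #ShaE_π = s ≥ c ≥ #RQ`, `GlobG ≤ LK_π`: `eq_of_card_quot_le`.
-/

set_option autoImplicit false
set_option linter.unusedSectionVars false

noncomputable section

namespace Fermat.Agent.S55.D

open ExtCitation

variable {p : ℕ} [Fact p.Prime] {S : Finset Nat.Primes} {A : Type} [AddCommGroup A]
  {ρ : GQ →* AddMonoid.End A}

/-- finite subsets of `Ш¹_S(M')` are bounded -/
theorem d8a_card_le (hpS : pPrime p ∈ S) (hM : FinMod p (lvlS S) ρ) (U₀ : Subgroup GQ)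
    (hU₀ : U₀ ∈ (lvlS S).sets) (N : ℕ)
    (hN : ∀ {Sg : Type} [Fintype Sg] (π : GQ →* Equiv.Perm Sg), Good S ρ p π → StabLe π U₀ →
      Finite (ShaE p S π ρ) ∧ Nat.card (ShaE p S π ρ) ≤ N)
    (T : Finset (H1 (lvlS S) (dualRho (cycloChar p) ρ)))
    (hT : ∀ y ∈ T, y ∈ Sha1S S (dualRho (cycloChar p) ρ)) : T.card ≤ N := by
  obtain ⟨U, hU, hkill⟩ := exists_kill (S := S) p ρ T
  obtain ⟨W, hW, hWle⟩ := (lvlS S).inter U₀ hU₀ U hU
  obtain ⟨Sg, _, π, -, -, hgood, hst⟩ := exists_good_le S ρ hpS hM (1 : GQ →* Equiv.Perm Unit)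
    ⟨U₀, hU₀, fun _ _ => rfl⟩ () W hW
  have hst' : StabLe π W := hst
  obtain ⟨hfin, hcard⟩ := hN π hgood (hst'.mono fun g hg => (hWle hg).1)
  have hsub : (T : Set (H1 (lvlS S) (dualRho (cycloChar p) ρ))) ⊆ (ShaE p S π ρ : Set _) :=
    fun y hy => ⟨hT y hy, hkill π hgood.trans (hst'.mono fun g hg => (hWle hg).2) y hy⟩
  have h1 := Set.ncard_le_ncard hsub (Set.toFinite _)
  rw [Set.ncard_coe_finset] at h1
  refine h1.trans (le_trans (le_of_eq ?_) hcard)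
  exact (Nat.card_coe_set_eq _).symm

/-- [key S55/D-8a] -/
theorem sha1S_eq_ShaE (hpS : pPrime p ∈ S) (hM : FinMod p (lvlS S) ρ) (U₀ : Subgroup GQ)
    (hU₀ : U₀ ∈ (lvlS S).sets) (N : ℕ)
    (hN : ∀ {Sg : Type} [Fintype Sg] (π : GQ →* Equiv.Perm Sg), Good S ρ p π → StabLe π U₀ →
      Finite (ShaE p S π ρ) ∧ Nat.card (ShaE p S π ρ) ≤ N) :
    Finite (Sha1S S (dualRho (cycloChar p) ρ)) ∧ ∃ U₁ ∈ (lvlS S).sets,
      ∀ {Sg : Type} [Fintype Sg] (π : GQ →* Equiv.Perm Sg), Good S ρ p π → StabLe π U₁ →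
        ShaE p S π ρ = Sha1S S (dualRho (cycloChar p) ρ) := by
  classical
  have hfin : Finite (Sha1S S (dualRho (cycloChar p) ρ)) := by
    by_contra hinf
    rw [not_finite_iff_infinite] at hinf
    obtain ⟨s, hs⟩ := Infinite.exists_subset_card_eq (Sha1S S (dualRho (cycloChar p) ρ)) (N + 1)
    have h1 := d8a_card_le hpS hM U₀ hU₀ N hN (s.map (Function.Embedding.subtype _)) (by
      intro y hy
      obtain ⟨z, -, rfl⟩ := Finset.mem_map.1 hy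
      exact z.2)
    rw [Finset.card_map, hs] at h1
    omega
  refine ⟨hfin, ?_⟩
  have hfin' : (Sha1S S (dualRho (cycloChar p) ρ) :
      Set (H1 (lvlS S) (dualRho (cycloChar p) ρ))).Finite := Set.toFinite _
  obtain ⟨U₁, hU₁, hkill⟩ := exists_kill (S := S) p ρ hfin'.toFinset
  refine ⟨U₁, hU₁, fun π hπ hst => inf_eq_left.2 fun y hy => ?_⟩
  exact hkill π hπ.trans hst y (hfin'.mem_toFinset.2 hy)

/-- [key S55/D-8a] -/
theorem eq_of_card_quot_le {Y : Type*} [AddCommGroup Y] {H K : AddSubgroup Y} (hHK : H ≤ K)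
    (hfin : Finite (Y ⧸ H)) (h : Nat.card (Y ⧸ H) ≤ Nat.card (Y ⧸ K)) : K = H := by
  have h1 := AddSubgroup.relIndex_mul_index hHK
  have h2 : H.index ≠ 0 := by
    rw [AddSubgroup.index_eq_card]
    exact Nat.card_pos.ne'
  have h3 : H.index ≤ K.index := h
  have hK : K.index ≠ 0 := fun h0 => h2 (by rw [← h1, h0, mul_zero])
  have hr : H.relIndex K ≠ 0 := fun h0 => h2 (by rw [← h1, h0, zero_mul])
  have h4 : H.relIndex K = 1 := by
    have h5 : H.relIndex K * K.index ≤ 1 * K.index := by rw [h1, one_mul]; exact h3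
    have h6 := Nat.le_of_mul_le_mul_right h5 (Nat.pos_of_ne_zero hK)
    omega
  exact le_antisymm (AddSubgroup.relIndex_eq_one.1 h4) hHK

theorem d8b_card_quot_le {Y : Type*} [AddCommGroup Y] {H K : AddSubgroup Y} (hHK : H ≤ K)
    (hfin : Finite (Y ⧸ H)) : Nat.card (Y ⧸ K) ≤ Nat.card (Y ⧸ H) :=
  Nat.card_le_card_of_surjective (QuotientAddGroup.map H K (AddMonoidHom.id Y) hHK) (by
    intro x
    obtain ⟨y, rfl⟩ := QuotientAddGroup.mk_surjective x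
    exact ⟨(y : Y ⧸ H), rfl⟩)

/-- the arithmetic of step 3 -/
theorem d8b_arith {c k P a s s₀ x q : ℕ} (hq : 0 < q) (hX : c * q ^ k ≤ x) (i1 : x ≤ a * s)
    (i2 : a * x ≤ P * s₀) (hP : P ≤ q ^ (2 * k)) (hs : s₀ ≤ s) : c ≤ s := by
  have j1 : x * x ≤ (q ^ k * s) * (q ^ k * s) :=
    calc x * x ≤ (a * s) * x := Nat.mul_le_mul_right _ i1
      _ = s * (a * x) := by ring
      _ ≤ s * (P * s₀) := Nat.mul_le_mul_left _ i2
      _ ≤ s * (q ^ (2 * k) * s) := Nat.mul_le_mul_left _ (Nat.mul_le_mul hP hs)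
      _ = (q ^ k * s) * (q ^ k * s) := by ring
  have j2 : x ≤ q ^ k * s := Nat.mul_self_le_mul_self_iff.1 j1
  have j3 : q ^ k * c ≤ q ^ k * s := by rw [mul_comm]; exact hX.trans j2
  exact Nat.le_of_mul_le_mul_left j3 (pow_pos hq k)

/-- [key S55/D-8b] **(IND)** for `M₀ = Fn π₀ μ_p` the left kernel of the pairing is `GlobG` -/
theorem ind (dat : Datum p lvlQ (cycloChar p) Dq) (hp2 : p ≠ 2) (hpS : pPrime p ∈ S)
    {Sg₀ : Type} [Fintype Sg₀] {π₀ : GQ →* Equiv.Perm Sg₀} (hπ₀ : Good S (rhoT p) p π₀) :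
    ∃ U₁ ∈ (lvlS S).sets, ∀ {Sg : Type} [Fintype Sg] (π : GQ →* Equiv.Perm Sg)
      (hπ : Good S (Fn π₀ (rhoT p)) p π), StabLe π U₁ →
        LK dat (finModP (finModT hpS) hπ₀) hπ =
          (GlobG S (Fn π₀ (rhoT p))).addSubgroupOf (FamG S (Fn π₀ (rhoT p))) := by
  classical
  have hM₀ : FinMod p (lvlS S) (Fn π₀ (rhoT p)) := finModP (finModT hpS) hπ₀
  obtain ⟨c, k, hc, ⟨hRQfin, hRQ⟩, ⟨X, hXfin, hX⟩, hW, hprod⟩ := count_T S hp2 hpS π₀ hπ₀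
  obtain ⟨u, u', hu, hu', huu⟩ := exists_selfdual hπ₀
  have hA1 : Nat.card (ShaA1 lvlQ Dq (dualRho (cycloChar p) (Fn π₀ (rhoT p)))) = 1 := by
    rw [Nat.card_eq_one_iff_unique]
    exact ⟨⟨fun a b => Subtype.ext ((sha1_dual_Fn S (rhoT p) dat (finModT hpS) π₀ hπ₀ a a.2).trans
      (sha1_dual_Fn S (rhoT p) dat (finModT hpS) π₀ hπ₀ b b.2).symm)⟩, ⟨0⟩⟩
  -- step 1
  have h1 : ∀ {Sg : Type} [Fintype Sg] (π : GQ →* Equiv.Perm Sg)
      (hπ : Good S (Fn π₀ (rhoT p)) p π), Finite (ShaE p S π (Fn π₀ (rhoT p))) ∧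
      Nat.card (ShaE p S π (Fn π₀ (rhoT p))) =
        Nat.card (↥(FamG S (Fn π₀ (rhoT p))) ⧸ LK dat hM₀ hπ) ∧
      Nat.card (ShaE p S π (Fn π₀ (rhoT p))) ≤ c := by
    intro Sg _ π hπ
    obtain ⟨hf, hcard⟩ := card_LK dat hpS hM₀ hπ
    obtain ⟨-, hfE, hE⟩ := card_ShaE dat hpS hM₀ hπ
    rw [hA1, mul_one] at hE
    have e : Nat.card (ShaE p S π (Fn π₀ (rhoT p))) =
        Nat.card (↥(FamG S (Fn π₀ (rhoT p))) ⧸ LK dat hM₀ hπ) := by rw [← hE, hcard]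
    refine ⟨hfE, e, ?_⟩
    rw [e]
    exact (d8b_card_quot_le (GlobG_le_LK dat hpS hM₀ hπ) hRQfin).trans hRQ
  -- step 2
  obtain ⟨U₀, hU₀⟩ := (lvlS S).nonempty
  obtain ⟨hsfin, U₁, hU₁, hEq⟩ := sha1S_eq_ShaE hpS hM₀ U₀ hU₀ c
    (fun π hπ _ => ⟨(h1 π hπ).1, (h1 π hπ).2.2⟩)
  -- step 3
  have hinj : Function.Injective (H1c (lvlS S) hu) := fun a b hab => by
    have := congrArg (H1c (lvlS S) hu') hab
    rwa [H1c_retract (lvlS S) hu hu' huu, H1c_retract (lvlS S) hu hu' huu] at this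
  have hYcard : Nat.card (X.map (H1c (lvlS S) hu)) = Nat.card X :=
    Nat.card_congr (AddSubgroup.equivMapOfInjective X _ hinj).toEquiv.symm
  have hYfin : Finite (X.map (H1c (lvlS S) hu)) :=
    Finite.of_equiv _ (AddSubgroup.equivMapOfInjective X _ hinj).toEquiv
  have hYfin' : (X.map (H1c (lvlS S) hu) :
      Set (H1 (lvlS S) (dualRho (cycloChar p) (Fn π₀ (rhoT p))))).Finite := Set.toFinite _
  obtain ⟨U₂, hU₂, hkill⟩ := exists_kill (S := S) p (Fn π₀ (rhoT p)) hYfin'.toFinset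
  have hs0 : Finite (Sha1S S (Fn π₀ (rhoT p))) ∧ Nat.card (Sha1S S (Fn π₀ (rhoT p))) ≤
      Nat.card (Sha1S S (dualRho (cycloChar p) (Fn π₀ (rhoT p)))) := by
    let f : Sha1S S (Fn π₀ (rhoT p)) → Sha1S S (dualRho (cycloChar p) (Fn π₀ (rhoT p))) :=
      fun x => ⟨H1c (lvlS S) hu x, H1c_mem_Sha1S hu x.2⟩
    have hf : Function.Injective f := fun a b hab =>
      Subtype.ext (hinj (congrArg Subtype.val hab))
    exact ⟨Finite.of_injective f hf, Nat.card_le_card_of_injective f hf⟩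
  obtain ⟨W, hW', hWle⟩ := (lvlS S).inter U₁ hU₁ U₂ hU₂
  refine ⟨W, hW', fun {Sg} _ π hπ hst => ?_⟩
  have hst1 : StabLe π U₁ := hst.mono fun g hg => (hWle hg).1
  have hst2 : StabLe π U₂ := hst.mono fun g hg => (hWle hg).2
  have hYle : X.map (H1c (lvlS S) hu) ≤ EE p S π (Fn π₀ (rhoT p)) :=
    fun y hy => hkill π hπ.trans hst2 y (hYfin'.mem_toFinset.2 hy)
  have i1 := card_le_of_le_EE hpS hM₀ hπ _ hYle hsfin
  rw [hYcard] at i1
  have i2 := iso_ineq dat hpS hM₀ hπ hW hs0.1 X hXfin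
  have hcs := d8b_arith (Fact.out : p.Prime).pos hX i1 i2 hprod hs0.2
  -- step 4
  refine eq_of_card_quot_le (GlobG_le_LK dat hpS hM₀ hπ) hRQfin ?_
  calc Nat.card (RQ S (Fn π₀ (rhoT p))) ≤ c := hRQ
    _ ≤ Nat.card (Sha1S S (dualRho (cycloChar p) (Fn π₀ (rhoT p)))) := hcs
    _ = Nat.card (ShaE p S π (Fn π₀ (rhoT p))) := by rw [hEq π hπ hst1]
    _ = Nat.card (↥(FamG S (Fn π₀ (rhoT p))) ⧸ LK dat hM₀ hπ) := (h1 π hπ).2.1

end Fermat.Agent.S55.D
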