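import Fermat.Agent.S55.D.Defs
import Fermat.Agent.S55.D.ProCycInst
import Fermat.Agent.S55.D.RamFin

/-!
# S55 / layer D : local and level inputs (U1)-(U6)

Providers: (U1), (U2) layer B (`D_v / I_v` procyclic with quotients of order divisible by any `p ^ k`;
abstract version: key `S55/U12-abs`, `S55/B/ProCyc.lean`); (U3), (U4) key `S55/D-U34` (`S55/D/ULevel.lean`);
(U5), (U6) keys below.  Keep the statements; fill them with one-liners when the providers land.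
-/

set_option autoImplicit false

namespace Fermat.Agent.S55.D

open ExtCitation

/-- **(U1)** `H²_ur = 0` [key S55/D-U1] -/
theorem H2ur_eq_zero (v : Nat.Primes) {X : Type*} [AddCommGroup X] [Finite X]
    (ρv : ↥(Dq v) →* AddMonoid.End X) (hsm : Smooth (lvlD v) ρv) (hI : ∀ i ∈ IqD v, ρv i = 1)
    (z : ↥(Dq v) → ↥(Dq v) → X) (hz : z ∈ Z2 (lvlD v) ρv)
    (hzI : ∀ g h, ∀ i ∈ IqD v, ∀ i' ∈ IqD v, z (g * i) (h * i') = z g h) :
    ∃ b : ↥(Dq v) → X, LC1 (lvlD v) b ∧ (∀ g, ∀ i ∈ IqD v, b (g * i) = b g) ∧ z = d1 ρv b := by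
  obtain ⟨b, hb1, hb2, hb3⟩ := U1_Dq v (p := Nat.card X) Nat.card_pos
    (fun x => card_nsmul_eq_zero') hz (fun i hi g g' => by
      have h1 := hzI g g' i hi 1 (one_mem _)
      have h2 := hzI g g' 1 (one_mem _) i hi
      rw [mul_one] at h1 h2
      exact ⟨h1, h2⟩)
  exact ⟨b, hb1, fun g i hi => hb2 i hi g, hb3⟩

/-- **(U2)** `H¹_ur` is right exact [key S55/D-U2] -/
theorem H1ur_surjective (v : Nat.Primes) {X Y : Type*} [AddCommGroup X] [AddCommGroup Y] [Finite X]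
    (ρX : ↥(Dq v) →* AddMonoid.End X) (ρY : ↥(Dq v) →* AddMonoid.End Y)
    (hsm : Smooth (lvlD v) ρX) (hI : ∀ i ∈ IqD v, ρX i = 1) {f : X →+ Y} (hf : IsHom ρX ρY f)
    (hs : Function.Surjective f) (y : H1 (lvlD v) ρY) (hy : y ∈ H1ur v ρY) :
    ∃ x ∈ H1ur v ρX, H1c (lvlD v) hf x = y := by
  obtain ⟨c, rfl, hc⟩ := hy
  obtain ⟨c', hc'Z, hc'I, hc'⟩ := U2_Dq v (p := Nat.card X) Nat.card_pos hsm
    (fun i hi x => by rw [hI i hi]; rfl) (fun x => card_nsmul_eq_zero') hf hs c.2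
    (fun i hi g => by rw [c.2.2 g i, hc i hi, map_zero, zero_add])
  have h1 : c' 1 = 0 := by
    have := hc'Z.2 1 1
    rw [mul_one, map_one] at this
    exact (add_eq_right.1 this.symm)
  refine ⟨H1.mk _ _ ⟨c', hc'Z⟩, ⟨⟨c', hc'Z⟩, rfl, fun i hi => ?_⟩, ?_⟩
  · have := hc'I i hi 1
    rw [one_mul] at this
    exact this.trans h1
  · rw [H1c_mk]
    congr 1
    apply Subtype.ext
    funext g
    exact hc' g

/-- **(U3)** the `S`-level criterion [key S55/D-U34] -/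
theorem LC1_lvlS_of_inertia (S : Finset Nat.Primes) {X : Type*} (f : GQ → X) (hf : LC1 lvlQ f)
    (h : ∀ q : Nat.Primes, q ∉ S → ∀ B : ValuationSubring Qb, B.LiesOverPrime (q : ℕ) →
      ∀ i ∈ B.inertiaSubgroupIn ℚ, ∀ g, f (g * i) = f g) : LC1 (lvlS S) f :=
  lc1_lvlS_of_inertia hf h

/-- **(U4)** the inertia groups over `q` are the conjugates of `Iq q` [key S55/D-U34] -/
theorem exists_conj_inertia (q : Nat.Primes) (B : ValuationSubring Qb)
    (hB : B.LiesOverPrime (q : ℕ)) :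
    ∃ h : GQ, ∀ i ∈ B.inertiaSubgroupIn ℚ, ∃ i₀ ∈ Iq q, i = h * i₀ * h⁻¹ := by
  obtain ⟨g, hg, _⟩ := exists_conj_Iq hB
  exact ⟨g, fun i hi => ⟨g⁻¹ * i * g, (hg i).1 hi, by group⟩⟩

/-- **(U5)** a number field is ramified at finitely many primes [key S55/D-U5;
`F = ℚ(θ)`, `θ` integral, `q ∤ disc`: `i θ ≡ θ mod 𝔪` and the roots of the minimal polynomial are distinct
mod `𝔪`, so `i θ = θ`] -/
theorem finite_ramified (F : IntermediateField ℚ Qb) (hF : FiniteDimensional ℚ F) :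
    {q : Nat.Primes | ¬ Iq q ≤ F.fixingSubgroup}.Finite :=
  finite_ramified' F hF

/-- **(U6)** inertia outside `S` lies in every `S`-level [key S55/D-U5; definition of `lvlS` +
`primeLocalPlace q` lies over `q`] -/
theorem Iq_le_of_mem_lvlS {S : Finset Nat.Primes} {U : Subgroup GQ} (hU : U ∈ (lvlS S).sets)
    {q : Nat.Primes} (hq : q ∉ S) : Iq q ≤ U := by
  obtain ⟨F, hF, rfl⟩ := hU
  exact hF.2 q hq (primeLocalPlace q) (liesOverPrime_primeLocalPlace q)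

/-- all inertia groups outside `S` lie in every `S`-level -/
theorem inertia_le_of_mem_lvlS {S : Finset Nat.Primes} {U : Subgroup GQ} (hU : U ∈ (lvlS S).sets)
    {q : Nat.Primes} (hq : q ∉ S) (B : ValuationSubring Qb) (hB : B.LiesOverPrime (q : ℕ)) :
    B.inertiaSubgroupIn ℚ ≤ U := by
  obtain ⟨F, hF, rfl⟩ := hU
  exact hF.2 q hq B hB

/-- inertia outside `S` acts trivially on `S`-smooth modules -/
theorem rho_inertia {S : Finset Nat.Primes} {A : Type*} [AddCommGroup A]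
    {ρ : GQ →* AddMonoid.End A} (hρ : Smooth (lvlS S) ρ) {q : Nat.Primes} (hq : q ∉ S)
    (B : ValuationSubring Qb) (hB : B.LiesOverPrime (q : ℕ)) (i : GQ)
    (hi : i ∈ B.inertiaSubgroupIn ℚ) : ρ i = 1 := by
  ext a
  obtain ⟨U, hU, h⟩ := hρ a
  exact h i (inertia_le_of_mem_lvlS hU hq B hB hi)

theorem rho_Iq {S : Finset Nat.Primes} {A : Type*} [AddCommGroup A]
    {ρ : GQ →* AddMonoid.End A} (hρ : Smooth (lvlS S) ρ) {q : Nat.Primes} (hq : q ∉ S)
    (i : GQ) (hi : i ∈ Iq q) : ρ i = 1 := by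
  ext a
  obtain ⟨U, hU, h⟩ := hρ a
  exact h i (Iq_le_of_mem_lvlS hU hq hi)

end Fermat.Agent.S55.D
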