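import Fermat.Agent.S55.D.InputsA
import Fermat.Agent.S55.A.Global

/-!
# S55 / layer D : steps D6, D7 (the pairing `FamG × Φ_S → 𝔽_p`)

`M = ρ` a finite `S`-smooth module, `π` good for `ρ`, `P = Fn π ρ --eps--> M`, `K = ker eps` (`rhoK π ρ`, `sesK`).
`Φ = Phi p π ρ = H0 (dualRho χ (rhoK π ρ)) = Hom_G(K, T)` (finite, killed by `p`).
`dlt hM hπ v : H¹(D_v, M) → H²(D_v, K)`, `dltQ hM hπ : H¹(G, M) → H²(G, K)` the connecting maps.
`zfam hM hπ n = (δ_v n_v)_{v ∉ S}` (`0` at `v ∈ S`), `BB dat hM hπ n φ = dat.gp (rhoK π ρ) (zfam n) φ = ∑_{v ∉ S} t_v (φ_* δ_v n_v)`.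
`ExtAt v φ` : `φ` extends to a `D_v`-equivariant functional on `P`.  `PhiS` (`ExtAt` at all `v ∈ S`), `PhiAll` (at all `v`).

## Proofs
* `dlt_H1c_eps` : `delta1_eq_zero_iff`.
* `dlt_loc1` : `res2_delta1`.
* `dlt_eq_zero_of_mem_H1ur` (**L4**) : `v ∉ S`, `n` unramified: `n = eps_* r` by `H1ur_surjective` (`I_v` acts trivially on `Fn π ρ`:
  `rho_Iq` for the `S`-smooth module `Fn π ρ`), then `dlt_H1c_eps`.
* `FS_zfam` : the support is contained in `{v ∉ S | n_v ∉ H1ur}`.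
* `extAt_iff` (**L2**) : `→` if `ψ` extends `φ` then `φ_* δ_v n = ψ_* i_* δ_v n = 0` (`H2c_H2c`, `H2c_i_eq_zero_iff`).
  `←` `LocDatum.extend` for `dat.loc v`, `i = subtype`: a class `m ∈ H²(D_v, K)` with `i_* m = 0` is `δ_v n` (`H2c_i_eq_zero_iff`).
* `BB_single` : `gp_single`.
* `mem_PhiAll_of_right` (**RIGHT**) : test with `n = Pi.single v n_v`, `v ∉ S` (it lies in `FamG`), `extAt_iff`.
* `BB_eq_zero_of_mem_PhiAll` : all terms of the `finsum` vanish (`extAt_iff`).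
* `BB_eq_zero_of_mem_GlobG` (**GLOB**) : `n_v = loc_v x + u_v`, `u_v` unramified (`v ∉ S`): `zfam n v = loc_v (δ x)` for `v ∉ S`
  (`dlt_loc1`, L4).  So `zfam n = locAll (δ x) - z'`, `z'_v = δ_v loc_v x` for `v ∈ S`, `0` otherwise; `gp (locAll ..) φ = 0`
  (`recip'`), and all terms of `gp z' φ` vanish since `φ ∈ PhiS` (`extAt_iff`).  (`gp_sub`, `fin_all`.)
* `left_weak` (**LEFT**) : `V = Φ`, `l = gp (zfam n)`, `𝓕 = {gp z₀ | z₀ supported in S, z₀_v ∈ δ_v H¹(D_v, M)}` (a subgroup of `Φ →+ ZMod p`).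
  If `φ` is killed by `𝓕` then `φ ∈ PhiS` (`gp_single`, `extAt_iff`), so `l φ = 0`.  `LA.mem_of_annihilator`: `l = gp z₀`.
  `z = zfam n - z₀` is orthogonal to `Φ`: `dat.glob`: `z = locAll w`.  `i_* w` is locally trivial everywhere (`i_* δ_v = 0`), so
  `i_* w = 0` (`hasse_Fn`), `w = δ x₀` (`H2c_i_eq_zero_iff`).  For `v ∉ S`: `δ_v (n_v - loc_v x₀) = 0`, so `n_v - loc_v x₀ = eps_* r_v`
  (`delta1_eq_zero_iff`); if `n_v - loc_v x₀` is unramified (almost all `v`: `locFam_mem_FamG`) choose `r_v` unramified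
  (`H1ur_surjective`).
* `card_LK` : `LA.card_eq_of_pairing` with `Y = FamG`, `V = PhiS`.
-/

set_option autoImplicit false
set_option linter.unusedSectionVars false

noncomputable section

namespace Fermat.Agent.S55.D

open ExtCitation

variable {p : ℕ} [Fact p.Prime] {S : Finset Nat.Primes} {A : Type} [AddCommGroup A]
  {ρ : GQ →* AddMonoid.End A} {Sg : Type} [Fintype Sg] {π : GQ →* Equiv.Perm Sg}

/-! ### generalities -/

theorem finModQ (hM : FinMod p (lvlS S) ρ) : FinMod p lvlQ ρ :=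
  ⟨hM.fin, hM.tors, smooth_lvlQ_aux hM.smooth⟩

theorem Good.smoothQ (hπ : Good S ρ p π) : SmoothSet π lvlQ := by
  obtain ⟨U, hU, h⟩ := hπ.smooth
  exact ⟨U, lvlS_sets_subset S hU, h⟩

theorem Good.eps_surjective (hπ : Good S ρ p π) : Function.Surjective (eps Sg A) := by
  classical
  obtain ⟨⟨s⟩, -⟩ := hπ.trans
  intro a
  refine ⟨Pi.single s a, ?_⟩
  rw [eps_apply, Finset.sum_pi_single']
  simp

theorem finModP (hM : FinMod p (lvlS S) ρ) (hπ : Good S ρ p π) : FinMod p (lvlS S) (Fn π ρ) :=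
  hM.fn hπ.smooth

theorem smoothT (hpS : pPrime p ∈ S) : Smooth lvlQ (rhoChi (cycloChar p)) :=
  smooth_lvlQ_aux (smooth_rhoT_lvlS S hpS)

/-! ### the kernel of `eps` -/

/-- `K = ker (eps : Fn π ρ → ρ)` -/
def rhoK (π : GQ →* Equiv.Perm Sg) (ρ : GQ →* AddMonoid.End A) :
    GQ →* AddMonoid.End ↥(eps Sg A).ker :=
  subRho (stable_ker (isHom_eps π ρ))

theorem sesK (hπ : Good S ρ p π) :
    SES (rhoK π ρ) (Fn π ρ) ρ (eps Sg A).ker.subtype (eps Sg A) :=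
  ses_ker (isHom_eps π ρ) hπ.eps_surjective

theorem finModK (hM : FinMod p (lvlS S) ρ) (hπ : Good S ρ p π) :
    FinMod p (lvlS S) (rhoK π ρ) :=
  (sesK hπ).finModA (finModP hM hπ)

/-- `Φ = Hom_G(K, T)` -/
abbrev Phi (p : ℕ) [Fact p.Prime] (π : GQ →* Equiv.Perm Sg) (ρ : GQ →* AddMonoid.End A) : Type :=
  ↥(H0 (dualRho (cycloChar p) (rhoK π ρ)))

theorem finite_Phi (hM : FinMod p (lvlS S) ρ) : Finite (Phi p π ρ) := by
  have := hM.fin
  have : Finite (↥(eps Sg A).ker →+ ZMod p) := LA.finite_dual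
  infer_instance

theorem nsmul_Phi (φ : Phi p π ρ) : p • φ = 0 :=
  Subtype.ext (nsmul_dual_eq_zero φ.1)

/-- the global connecting map `H¹(G, M) → H²(G, K)` -/
def dltQ (hM : FinMod p (lvlS S) ρ) (hπ : Good S ρ p π) : H1 lvlQ ρ →+ H2 lvlQ (rhoK π ρ) :=
  delta1 (sesK hπ) (finModQ (finModP hM hπ)).smooth

/-- the local connecting maps `H¹(D_v, M) → H²(D_v, K)` -/
def dlt (hM : FinMod p (lvlS S) ρ) (hπ : Good S ρ p π) (v : Nat.Primes) :
    H1 (lvlD v) (rv Dq ρ v) →+ H2 (lv lvlQ Dq v) (rv Dq (rhoK π ρ) v) :=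
  delta1 ((sesK hπ).res (Dq v).subtype) ((finModQ (finModP hM hπ)).smooth.res lvlQ (Dq v).subtype)

/-- [key S55/D-6a] -/
theorem dlt_H1c_eps (hM : FinMod p (lvlS S) ρ) (hπ : Good S ρ p π) (v : Nat.Primes)
    (r : H1 (lvlD v) (rv Dq (Fn π ρ) v)) :
    dlt hM hπ v (H1c (lvlD v) ((isHom_eps π ρ).res (Dq v).subtype) r) = 0 :=
  (delta1_eq_zero_iff ((sesK hπ).res (Dq v).subtype)
    ((finModQ (finModP hM hπ)).smooth.res lvlQ (Dq v).subtype) _).2 ⟨r, rfl⟩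

/-- [key S55/D-6a] -/
theorem exists_of_dlt_eq_zero (hM : FinMod p (lvlS S) ρ) (hπ : Good S ρ p π) (v : Nat.Primes)
    (n : H1 (lvlD v) (rv Dq ρ v)) (h : dlt hM hπ v n = 0) :
    ∃ r : H1 (lvlD v) (rv Dq (Fn π ρ) v),
      H1c (lvlD v) ((isHom_eps π ρ).res (Dq v).subtype) r = n :=
  (delta1_eq_zero_iff ((sesK hπ).res (Dq v).subtype)
    ((finModQ (finModP hM hπ)).smooth.res lvlQ (Dq v).subtype) _).1 h

/-- [key S55/D-6a] -/
theorem dlt_loc1 (hM : FinMod p (lvlS S) ρ) (hπ : Good S ρ p π) (v : Nat.Primes) (x : H1 lvlQ ρ) :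
    dlt hM hπ v (loc1 ρ v x) = res2 lvlQ (rhoK π ρ) (Dq v).subtype (dltQ hM hπ x) :=
  (res2_delta1 lvlQ (sesK hπ) (finModQ (finModP hM hπ)).smooth (Dq v).subtype x).symm

/-- [key S55/D-6a] unramified classes lift to unramified classes of `Fn π ρ` -/
theorem exists_H1ur_lift (hM : FinMod p (lvlS S) ρ) (hπ : Good S ρ p π) {v : Nat.Primes}
    (hv : v ∉ S) {n : H1 (lvlD v) (rv Dq ρ v)} (hn : n ∈ H1ur v (rv Dq ρ v)) :
    ∃ r ∈ H1ur v (rv Dq (Fn π ρ) v),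
      H1c (lvlD v) ((isHom_eps π ρ).res (Dq v).subtype) r = n := by
  have hP := finModP hM hπ
  have := hP.fin
  exact H1ur_surjective v (rv Dq (Fn π ρ) v) (rv Dq ρ v)
    ((finModQ hP).smooth.res lvlQ (Dq v).subtype)
    (fun i hi => rho_Iq hP.smooth hv (i : GQ) hi) ((isHom_eps π ρ).res (Dq v).subtype)
    hπ.eps_surjective n hn

/-- [key S55/D-6a] **(L4)** -/
theorem dlt_eq_zero_of_mem_H1ur (hM : FinMod p (lvlS S) ρ) (hπ : Good S ρ p π) {v : Nat.Primes}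
    (hv : v ∉ S) {n : H1 (lvlD v) (rv Dq ρ v)} (hn : n ∈ H1ur v (rv Dq ρ v)) :
    dlt hM hπ v n = 0 := by
  obtain ⟨r, -, rfl⟩ := exists_H1ur_lift hM hπ hv hn
  exact dlt_H1c_eps hM hπ v r

open Classical in
/-- the family `(δ_v n_v)_{v ∉ S}` -/
def zfam (hM : FinMod p (lvlS S) ρ) (hπ : Good S ρ p π) :
    Fam ρ →+ ∀ v, H2 (lv lvlQ Dq v) (rv Dq (rhoK π ρ) v) where
  toFun n v := if v ∈ S then 0 else dlt hM hπ v (n v)
  map_zero' := by
    ext v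
    by_cases hv : v ∈ S <;> simp [hv]
  map_add' n n' := by
    ext v
    by_cases hv : v ∈ S <;> simp [hv]

theorem zfam_of_mem (hM : FinMod p (lvlS S) ρ) (hπ : Good S ρ p π) (n : Fam ρ) {v : Nat.Primes}
    (hv : v ∈ S) : zfam hM hπ n v = 0 := by
  simp [zfam, hv]

theorem zfam_of_not_mem (hM : FinMod p (lvlS S) ρ) (hπ : Good S ρ p π) (n : Fam ρ)
    {v : Nat.Primes} (hv : v ∉ S) : zfam hM hπ n v = dlt hM hπ v (n v) := by
  simp [zfam, hv]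

theorem FS_zfam (hM : FinMod p (lvlS S) ρ) (hπ : Good S ρ p π) {n : Fam ρ}
    (hn : n ∈ FamG S ρ) : FS (zfam hM hπ n) := by
  refine Set.Finite.subset hn ?_
  intro v hv
  have hvS : v ∉ S := fun h => hv (zfam_of_mem hM hπ n h)
  refine ⟨hvS, fun h => hv ?_⟩
  rw [zfam_of_not_mem hM hπ n hvS]
  exact dlt_eq_zero_of_mem_H1ur hM hπ hvS h

variable (dat : Datum p lvlQ (cycloChar p) Dq)

/-- the pairing `FamG × Φ → 𝔽_p` -/
def BB (hM : FinMod p (lvlS S) ρ) (hπ : Good S ρ p π) :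
    ↥(FamG S ρ) →+ Phi p π ρ →+ ZMod p :=
  AddMonoidHom.mk' (fun n => dat.gpHom (rhoK π ρ) (zfam hM hπ n.1) (FS_zfam hM hπ n.2))
    (fun n n' => by
      ext φ
      change dat.gp _ (zfam hM hπ (n.1 + n'.1)) φ = dat.gp _ _ φ + dat.gp _ _ φ
      rw [map_add]
      exact dat.gp_add (FS_zfam hM hπ n.2) (FS_zfam hM hπ n'.2) φ)

theorem BB_apply (hM : FinMod p (lvlS S) ρ) (hπ : Good S ρ p π) (n : ↥(FamG S ρ))
    (φ : Phi p π ρ) : BB dat hM hπ n φ = dat.gp (rhoK π ρ) (zfam hM hπ n.1) φ := rfl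

/-- `φ` extends to a `D_v`-equivariant functional on `Fn π ρ` -/
def ExtAt (v : Nat.Primes) (φ : Phi p π ρ) : Prop :=
  ∃ ψ : (Sg → A) →+ ZMod p, IsHom (rv Dq (Fn π ρ) v) (Tv p v) ψ ∧
    ∀ k : ↥(eps Sg A).ker, ψ k = φ.1 k

/-- [key S55/D-6b] -/
theorem ExtAt.add {v : Nat.Primes} {φ φ' : Phi p π ρ} (h : ExtAt v φ) (h' : ExtAt v φ') :
    ExtAt v (φ + φ') := by
  obtain ⟨ψ, hψ, h1⟩ := h
  obtain ⟨ψ', hψ', h2⟩ := h'
  exact ⟨ψ + ψ', hψ.add hψ', fun k => by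
    rw [AddMonoidHom.add_apply, h1, h2]; rfl⟩

theorem ExtAt.zero (v : Nat.Primes) : ExtAt v (0 : Phi p π ρ) :=
  ⟨0, IsHom.zero _ _, fun _ => rfl⟩

theorem ExtAt.neg {v : Nat.Primes} {φ : Phi p π ρ} (h : ExtAt v φ) : ExtAt v (-φ) := by
  obtain ⟨ψ, hψ, h1⟩ := h
  exact ⟨-ψ, hψ.neg, fun k => by
    rw [AddMonoidHom.neg_apply, h1]; rfl⟩

/-- functionals which extend locally at all `v ∈ S` -/
def PhiS (p : ℕ) [Fact p.Prime] (S : Finset Nat.Primes) (π : GQ →* Equiv.Perm Sg)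
    (ρ : GQ →* AddMonoid.End A) : AddSubgroup (Phi p π ρ) where
  carrier := {φ | ∀ v ∈ S, ExtAt v φ}
  add_mem' := fun h h' v hv => (h v hv).add (h' v hv)
  zero_mem' := fun v _ => ExtAt.zero v
  neg_mem' := fun h v hv => (h v hv).neg

/-- functionals which extend locally everywhere -/
def PhiAll (p : ℕ) [Fact p.Prime] (π : GQ →* Equiv.Perm Sg)
    (ρ : GQ →* AddMonoid.End A) : AddSubgroup (Phi p π ρ) where
  carrier := {φ | ∀ v, ExtAt v φ}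
  add_mem' := fun h h' v => (h v).add (h' v)
  zero_mem' := fun v => ExtAt.zero v
  neg_mem' := fun h v => (h v).neg

theorem PhiAll_le_PhiS : PhiAll p π ρ ≤ PhiS p S π ρ := fun _ h v _ => h v

/-- [key S55/D-6b] **(L2)** -/
theorem extAt_iff (hpS : pPrime p ∈ S) (hM : FinMod p (lvlS S) ρ) (hπ : Good S ρ p π)
    (v : Nat.Primes) (φ : Phi p π ρ) :
    ExtAt v φ ↔ ∀ n : H1 (lvlD v) (rv Dq ρ v), dat.lp (rhoK π ρ) v (dlt hM hπ v n) φ = 0 := by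
  have hS := (sesK hπ).res (Dq v).subtype
  have hB := (finModQ (finModP hM hπ)).smooth.res lvlQ (Dq v).subtype
  constructor
  · rintro ⟨ψ, hψ, h1⟩ n
    rw [Datum.lp_apply, ← H2c_H2c (lv lvlQ Dq v) hψ hS.hi _ h1,
      (H2c_i_eq_zero_iff hS hB (dlt hM hπ v n)).2 ⟨n, rfl⟩, map_zero, map_zero]
  · intro h
    obtain ⟨ψ', hψ'⟩ := (dat.loc v).extend ((smoothT hpS).res lvlQ (Dq v).subtype)
      ((finModQ (finModP hM hπ)).res (Dq v).subtype) hS.hi hS.inj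
      (res0 (dualRho (cycloChar p) (rhoK π ρ)) (Dq v).subtype φ) (fun n hn => by
        obtain ⟨c, rfl⟩ := (H2c_i_eq_zero_iff hS hB n).1 hn
        exact h c)
    refine ⟨ψ'.1, isHom_of_mem ψ'.2, fun k => ?_⟩
    exact DFunLike.congr_fun (congrArg Subtype.val hψ') k

/-- [key S55/D-7a] **(RIGHT)** -/
theorem mem_PhiAll_of_right (hpS : pPrime p ∈ S) (hM : FinMod p (lvlS S) ρ) (hπ : Good S ρ p π)
    {φ : Phi p π ρ} (hφ : φ ∈ PhiS p S π ρ) (h : ∀ n, BB dat hM hπ n φ = 0) :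
    φ ∈ PhiAll p π ρ := by
  classical
  intro v
  by_cases hv : v ∈ S
  · exact hφ v hv
  rw [extAt_iff dat hpS hM hπ]
  intro nv
  have hmem : (Pi.single v nv : Fam ρ) ∈ FamG S ρ := by
    refine (Set.finite_singleton v).subset ?_
    rintro v' ⟨-, h'⟩
    by_contra hne
    apply h'
    rw [Pi.single_eq_of_ne hne]
    exact zero_mem _
  have h1 : dat.gp (rhoK π ρ) (zfam hM hπ (Pi.single v nv : Fam ρ)) φ = 0 := h ⟨_, hmem⟩
  rw [Datum.gp, finsum_eq_single _ v, zfam_of_not_mem hM hπ _ hv, Pi.single_eq_same] at h1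
  · exact h1
  · intro v' hne
    have h0 : zfam hM hπ (Pi.single v nv : Fam ρ) v' = 0 := by
      by_cases hv' : v' ∈ S
      · exact zfam_of_mem hM hπ _ hv'
      · rw [zfam_of_not_mem hM hπ _ hv', Pi.single_eq_of_ne hne, map_zero]
    rw [h0, map_zero]
    rfl

/-- [key S55/D-7a] -/
theorem BB_eq_zero_of_mem_PhiAll (hpS : pPrime p ∈ S) (hM : FinMod p (lvlS S) ρ)
    (hπ : Good S ρ p π) {φ : Phi p π ρ} (hφ : φ ∈ PhiAll p π ρ) (n : ↥(FamG S ρ)) :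
    BB dat hM hπ n φ = 0 := by
  rw [BB_apply, Datum.gp]
  refine finsum_eq_zero_of_forall_eq_zero fun v => ?_
  by_cases hv : v ∈ S
  · rw [zfam_of_mem hM hπ _ hv, map_zero]
    rfl
  · rw [zfam_of_not_mem hM hπ _ hv]
    exact (extAt_iff dat hpS hM hπ v φ).1 (hφ v) _

/-- [key S55/D-7b] **(GLOB)** -/
theorem BB_eq_zero_of_mem_GlobG (hpS : pPrime p ∈ S) (hM : FinMod p (lvlS S) ρ)
    (hπ : Good S ρ p π) {n : ↥(FamG S ρ)} (hn : n.1 ∈ GlobG S ρ) {φ : Phi p π ρ}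
    (hφ : φ ∈ PhiS p S π ρ) : BB dat hM hπ n φ = 0 := by
  obtain ⟨x, hx⟩ := (mem_GlobG S ρ).1 hn
  rw [BB_apply, ← dat.recip' (dltQ hM hπ x) φ, Datum.gp, Datum.gp]
  refine finsum_congr fun v => ?_
  have e : locAll lvlQ Dq (rhoK π ρ) (dltQ hM hπ x) v = dlt hM hπ v (loc1 ρ v x) :=
    (dlt_loc1 hM hπ v x).symm
  rw [e]
  by_cases hv : v ∈ S
  · rw [zfam_of_mem hM hπ _ hv, map_zero, (extAt_iff dat hpS hM hπ v φ).1 (hφ v hv)]
    rfl
  · rw [zfam_of_not_mem hM hπ _ hv]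
    have h1 := dlt_eq_zero_of_mem_H1ur hM hπ hv (hx v hv)
    rw [map_sub, sub_eq_zero] at h1
    rw [h1]

/-- [key S55/D-7a] families coming from `Fn π ρ` pair to zero -/
theorem BB_famMap_eps (hM : FinMod p (lvlS S) ρ) (hπ : Good S ρ p π) (n : ↥(FamG S ρ))
    (r : Fam (Fn π ρ)) (h : n.1 = famMap (isHom_eps π ρ) r) (φ : Phi p π ρ) :
    BB dat hM hπ n φ = 0 := by
  rw [BB_apply, Datum.gp]
  refine finsum_eq_zero_of_forall_eq_zero fun v => ?_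
  have h0 : zfam hM hπ n.1 v = 0 := by
    by_cases hv : v ∈ S
    · exact zfam_of_mem hM hπ _ hv
    · rw [zfam_of_not_mem hM hπ _ hv, h, famMap_apply]
      exact dlt_H1c_eps hM hπ v (r v)
  rw [h0, map_zero]
  rfl

/-- the functionals `φ ↦ ∑_{v ∈ S} t_v (φ_* δ_v m_v)` -/
def psiS (hM : FinMod p (lvlS S) ρ) (hπ : Good S ρ p π) : Fam ρ →+ Phi p π ρ →+ ZMod p :=
  ∑ v ∈ S, (dat.lp (rhoK π ρ) v).comp ((dlt hM hπ v).comp (Pi.evalAddMonoidHom _ v))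

theorem psiS_apply (hM : FinMod p (lvlS S) ρ) (hπ : Good S ρ p π) (m : Fam ρ) (φ : Phi p π ρ) :
    psiS dat hM hπ m φ = ∑ v ∈ S, dat.lp (rhoK π ρ) v (dlt hM hπ v (m v)) φ := by
  rw [psiS, AddMonoidHom.finsetSum_apply, AddMonoidHom.finsetSum_apply]
  rfl

/-- [key S55/D-7c] **(LEFT, weak form)** -/
theorem left_weak (hpS : pPrime p ∈ S) (hM : FinMod p (lvlS S) ρ) (hπ : Good S ρ p π)
    (n : ↥(FamG S ρ)) (h : ∀ φ ∈ PhiS p S π ρ, BB dat hM hπ n φ = 0) :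
    ∃ x₀ : H1 lvlQ ρ, ∃ r ∈ FamG S (Fn π ρ),
      n.1 - locFam ρ x₀ - famMap (isHom_eps π ρ) r ∈ UrG S ρ := by
  classical
  have hfin : Finite (Phi p π ρ) := finite_Phi hM
  -- step 1 : `BB n` is of the form `psiS m`
  obtain ⟨m, hm⟩ : BB dat hM hπ n ∈ (psiS dat hM hπ).range := by
    refine LA.mem_of_annihilator nsmul_Phi _ _ fun φ hφ => h φ fun v hv => ?_
    rw [extAt_iff dat hpS hM hπ]
    intro mv
    have h1 := hφ _ ⟨(Pi.single v mv : Fam ρ), rfl⟩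
    rw [psiS_apply, Finset.sum_eq_single v, Pi.single_eq_same] at h1
    · exact h1
    · intro v' _ hne
      rw [Pi.single_eq_of_ne hne, map_zero, map_zero]
      rfl
    · exact fun h' => absurd hv h'
  -- step 2 : the family `z`
  set z₀ : ∀ v, H2 (lv lvlQ Dq v) (rv Dq (rhoK π ρ) v) :=
    fun v => if v ∈ S then dlt hM hπ v (m v) else 0 with hz₀
  have hz₀S : ∀ v ∈ S, z₀ v = dlt hM hπ v (m v) := fun v hv => by simp only [hz₀, if_pos hv]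
  have hz₀N : ∀ v ∉ S, z₀ v = 0 := fun v hv => by simp only [hz₀, if_neg hv]
  have hFS₀ : FS z₀ := by
    refine S.finite_toSet.subset fun v hv => ?_
    by_contra hvS
    exact hv (hz₀N v hvS)
  have hgp₀ : ∀ φ, dat.gp (rhoK π ρ) z₀ φ = psiS dat hM hπ m φ := by
    intro φ
    rw [psiS_apply, Datum.gp, finsum_eq_sum_of_support_subset (s := S)]
    · exact Finset.sum_congr rfl fun v hv => by rw [hz₀S v hv]
    · intro v hv
      by_contra hvS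
      apply hv
      change dat.lp (rhoK π ρ) v (z₀ v) φ = 0
      rw [hz₀N v hvS, map_zero]
      rfl
  have hFS := FS_zfam hM hπ n.2
  obtain ⟨w, hw⟩ := dat.glob (smoothT hpS) (finModQ (finModK hM hπ)) (zfam hM hπ n.1 - z₀)
    (hFS.sub hFS₀) (fun φ => by
      rw [dat.gp_sub hFS hFS₀, hgp₀, hm, ← BB_apply, sub_self])
  -- step 3 : `w = δ x₀`
  have hSq := sesK hπ
  have hBq := (finModQ (finModP hM hπ)).smooth
  have hiw : H2c lvlQ hSq.hi w = 0 := by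
    refine hasse_Fn S ρ dat hM π hπ _ fun v => ?_
    have hS := hSq.res (Dq v).subtype
    have hB := hBq.res lvlQ (Dq v).subtype
    have hwv : res2 lvlQ (rhoK π ρ) (Dq v).subtype w = zfam hM hπ n.1 v - z₀ v := congrFun hw v
    rw [res2_H2c, hwv, map_sub]
    by_cases hv : v ∈ S
    · rw [zfam_of_mem hM hπ _ hv, hz₀S v hv, map_zero, zero_sub, neg_eq_zero]
      exact (H2c_i_eq_zero_iff hS hB _).2 ⟨_, rfl⟩
    · rw [zfam_of_not_mem hM hπ _ hv, hz₀N v hv, map_zero, sub_zero]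
      exact (H2c_i_eq_zero_iff hS hB _).2 ⟨_, rfl⟩
  obtain ⟨x₀, hx₀⟩ := (H2c_i_eq_zero_iff hSq hBq w).1 hiw
  have hx₀' : dltQ hM hπ x₀ = w := hx₀
  -- step 4 : the local lifts
  have hd : ∀ v ∉ S, dlt hM hπ v (n.1 v - loc1 ρ v x₀) = 0 := by
    intro v hv
    have hwv : res2 lvlQ (rhoK π ρ) (Dq v).subtype w = zfam hM hπ n.1 v - z₀ v := congrFun hw v
    rw [map_sub, dlt_loc1, hx₀', hwv, zfam_of_not_mem hM hπ _ hv, hz₀N v hv, sub_zero, sub_self]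
  have hex : ∀ v, ∃ r : H1 (lvlD v) (rv Dq (Fn π ρ) v), v ∉ S →
      H1c (lvlD v) ((isHom_eps π ρ).res (Dq v).subtype) r = n.1 v - loc1 ρ v x₀ ∧
      (n.1 v - loc1 ρ v x₀ ∈ H1ur v (rv Dq ρ v) → r ∈ H1ur v (rv Dq (Fn π ρ) v)) := by
    intro v
    by_cases hv : v ∈ S
    · exact ⟨0, fun h' => absurd hv h'⟩
    by_cases hur : n.1 v - loc1 ρ v x₀ ∈ H1ur v (rv Dq ρ v)
    · obtain ⟨r, hr, hr'⟩ := exists_H1ur_lift hM hπ hv hur
      exact ⟨r, fun _ => ⟨hr', fun _ => hr⟩⟩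
    · obtain ⟨r, hr⟩ := exists_of_dlt_eq_zero hM hπ v _ (hd v hv)
      exact ⟨r, fun _ => ⟨hr, fun h' => absurd h' hur⟩⟩
  choose r hr using hex
  refine ⟨x₀, r, ?_, fun v hv => ?_⟩
  · have h1 : n.1 - locFam ρ x₀ ∈ FamG S ρ := sub_mem n.2 (locFam_mem_FamG S ρ x₀)
    refine Set.Finite.subset h1 ?_
    rintro v ⟨hv, hrv⟩
    exact ⟨hv, fun h' => hrv ((hr v hv).2 h')⟩
  · have h1 : (n.1 - locFam ρ x₀ - famMap (isHom_eps π ρ) r) v = 0 := by
      rw [Pi.sub_apply, Pi.sub_apply, locFam_apply, famMap_apply, (hr v hv).1, sub_self]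
    rw [h1]
    exact zero_mem _

/-- the left kernel of the pairing `FamG × Φ_S → 𝔽_p` -/
def LK (hM : FinMod p (lvlS S) ρ) (hπ : Good S ρ p π) : AddSubgroup ↥(FamG S ρ) where
  carrier := {n | ∀ φ ∈ PhiS p S π ρ, BB dat hM hπ n φ = 0}
  add_mem' := fun h h' φ hφ => by
    rw [map_add, AddMonoidHom.add_apply, h φ hφ, h' φ hφ, add_zero]
  zero_mem' := fun φ _ => by rw [map_zero]; rfl
  neg_mem' := fun h φ hφ => by
    rw [map_neg, AddMonoidHom.neg_apply, h φ hφ, neg_zero]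

theorem GlobG_le_LK (hpS : pPrime p ∈ S) (hM : FinMod p (lvlS S) ρ) (hπ : Good S ρ p π) :
    (GlobG S ρ).addSubgroupOf (FamG S ρ) ≤ LK dat hM hπ :=
  fun _ hn _ hφ => BB_eq_zero_of_mem_GlobG dat hpS hM hπ hn hφ

/-- [key S55/D-7d] the counting lemma -/
theorem card_LK (hpS : pPrime p ∈ S) (hM : FinMod p (lvlS S) ρ) (hπ : Good S ρ p π) :
    Finite (↥(FamG S ρ) ⧸ LK dat hM hπ) ∧
      Nat.card (↥(FamG S ρ) ⧸ LK dat hM hπ) =
        Nat.card (↥(PhiS p S π ρ) ⧸ (PhiAll p π ρ).addSubgroupOf (PhiS p S π ρ)) := by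
  have hfin : Finite (Phi p π ρ) := finite_Phi hM
  let B : ↥(FamG S ρ) →+ ↥(PhiS p S π ρ) →+ ZMod p :=
    AddMonoidHom.mk' (fun n => (BB dat hM hπ n).comp (PhiS p S π ρ).subtype) (fun n n' => by
      ext φ
      simp)
  have hB : ∀ n φ, B n φ = BB dat hM hπ n φ.1 := fun _ _ => rfl
  obtain ⟨h1, -, h3⟩ := LA.card_eq_of_pairing (p := p) (V := ↥(PhiS p S π ρ))
    (S2 := ↥(FamG S ρ) ⧸ LK dat hM hπ)
    (S1 := ↥(PhiS p S π ρ) ⧸ (PhiAll p π ρ).addSubgroupOf (PhiS p S π ρ))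
    (fun φ => Subtype.ext (nsmul_Phi φ.1)) B
    (QuotientAddGroup.mk' (LK dat hM hπ)) (QuotientAddGroup.mk'_surjective _)
    (fun n => by
      rw [QuotientAddGroup.mk'_apply, QuotientAddGroup.eq_zero_iff]
      constructor
      · intro h
        ext φ
        exact h φ.1 φ.2
      · intro h φ hφ
        exact DFunLike.congr_fun h (⟨φ, hφ⟩ : ↥(PhiS p S π ρ)))
    (QuotientAddGroup.mk' ((PhiAll p π ρ).addSubgroupOf (PhiS p S π ρ)))
    (QuotientAddGroup.mk'_surjective _)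
    (fun φ => by
      rw [QuotientAddGroup.mk'_apply, QuotientAddGroup.eq_zero_iff, AddSubgroup.mem_addSubgroupOf]
      constructor
      · intro h n
        exact BB_eq_zero_of_mem_PhiAll dat hpS hM hπ h n
      · intro h
        exact mem_PhiAll_of_right dat hpS hM hπ φ.2 h)
  exact ⟨h1, h3⟩

end Fermat.Agent.S55.D
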