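import Fermat.Agent.S55.D.InputsA
import Fermat.Agent.S55.A.DualMod

/-!
# S55 / layer D : untwisting of induced modules over a transitive `G`-set  (keys `S55/D-UT1`, `S55/D-UT2`, `S55/D-CAP`)

`π` a transitive `G`-set, `s₀` a base point, `gsec ht s₀ s` an element with `π (gsec ..) s₀ = s`.
If the stabiliser of `s₀` acts trivially on `ρA`, `ρB` (`TrivAt π s₀ ρ`) then ANY additive `σ : A →+ B` induces an equivariant map
`utw ht s₀ ρA ρB σ : Fn π ρA → Fn π ρB`, `(utw σ f) (g s₀) = g σ (g⁻¹ f (g s₀))`   (the analogue of `tw` in `A/Tw.lean`).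

## Proofs
* `utw_apply_smul` : `gsec (π g s₀) = g h` with `h = g⁻¹ gsec .. ∈ Stab s₀`, which acts trivially.
* `isHom_utw` : write `s = π h s₀`, use `utw_apply_smul` twice.
* `utw_utw`, `utw_id`, `utw_sum` : pointwise, from the definition.
* `pull_utw` : `s' = π' g s₀'`, `j s' = π g s₀`; `utw_apply_smul` on both sides.
* `exists_basis` : `LA.exists_equiv_fun`: `e : A ≃+ (Fin n → ZMod p)`, `lam k a = e a k`, `a k c = e.symm (Pi.single k c)`.
* `exists_untw` : `θ k = utw (lam k)`, `ι k = utw (a k)`.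
* `exists_factor_eps` : `F a s = f (Pi.single s (a s))`; `Fn π ρ g (Pi.single s x) = Pi.single (π g s) (ρ g x)`;
  `∑ s, Pi.single s (a s) = a` (`Finset.univ_sum_single`).
* `exists_selfdual` : `u a = fnToDual (utw T triv id a)`, `u' φ = utw triv T id (dualToFn φ)` (`A/DualMod.lean`).
* `cap` (key `S55/D-CAP`): see `Cap.lean`.
-/

set_option autoImplicit false
set_option linter.unusedSectionVars false

noncomputable section

namespace Fermat.Agent.S55.D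

open ExtCitation

section Abstract

variable {G : Type*} [Group G] {Sg : Type*} {π : G →* Equiv.Perm Sg}
  {A B C : Type*} [AddCommGroup A] [AddCommGroup B] [AddCommGroup C]

/-- the stabiliser of `s₀` acts trivially -/
def TrivAt (π : G →* Equiv.Perm Sg) (s₀ : Sg) (ρ : G →* AddMonoid.End A) : Prop :=
  ∀ g, π g s₀ = s₀ → ρ g = 1

/-- a chosen element moving `s₀` to `s` -/
def gsec (ht : IsTrans π) (s₀ s : Sg) : G := (ht.2 s₀ s).choose

theorem gsec_spec (ht : IsTrans π) (s₀ s : Sg) : π (gsec ht s₀ s) s₀ = s := (ht.2 s₀ s).choose_spec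

/-- the twisted form of an additive map -/
def utw (ht : IsTrans π) (s₀ : Sg) (ρA : G →* AddMonoid.End A) (ρB : G →* AddMonoid.End B)
    (σ : A →+ B) : (Sg → A) →+ (Sg → B) where
  toFun f s := ρB (gsec ht s₀ s) (σ (ρA (gsec ht s₀ s)⁻¹ (f s)))
  map_zero' := by ext; simp
  map_add' a b := by ext; simp

variable (ht : IsTrans π) (s₀ : Sg) {ρA : G →* AddMonoid.End A} {ρB : G →* AddMonoid.End B}
  {ρC : G →* AddMonoid.End C}

theorem utw_apply (σ : A →+ B) (f : Sg → A) (s : Sg) :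
    utw ht s₀ ρA ρB σ f s = ρB (gsec ht s₀ s) (σ (ρA (gsec ht s₀ s)⁻¹ (f s))) := rfl

theorem utAux_mul_apply (ρ : G →* AddMonoid.End A) (g h : G) (x : A) :
    ρ g (ρ h x) = ρ (g * h) x := by
  rw [map_mul]; rfl

theorem TrivAt.eq_of_apply_eq {s₀ : Sg} {ρ : G →* AddMonoid.End A} (h : TrivAt π s₀ ρ) {g γ : G}
    (hg : π γ s₀ = π g s₀) : ρ γ = ρ g := by
  have h1 : π (g⁻¹ * γ) s₀ = s₀ := by
    rw [map_mul, Equiv.Perm.mul_apply, hg, ← Equiv.Perm.mul_apply, ← map_mul, inv_mul_cancel,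
      map_one]
    rfl
  have h2 := h _ h1
  rw [map_mul] at h2
  calc ρ γ = ρ g * (ρ g⁻¹ * ρ γ) := by
        rw [← mul_assoc, ← map_mul, mul_inv_cancel, map_one, one_mul]
    _ = ρ g := by rw [h2, mul_one]

theorem TrivAt.inv_eq_of_apply_eq {s₀ : Sg} {ρ : G →* AddMonoid.End A} (h : TrivAt π s₀ ρ)
    {g γ : G} (hg : π γ s₀ = π g s₀) : ρ γ⁻¹ = ρ g⁻¹ := by
  have h1 := h.eq_of_apply_eq hg
  calc ρ γ⁻¹ = ρ γ⁻¹ * (ρ g * ρ g⁻¹) := by rw [← map_mul ρ g, mul_inv_cancel, map_one, mul_one]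
    _ = ρ γ⁻¹ * (ρ γ * ρ g⁻¹) := by rw [h1]
    _ = ρ g⁻¹ := by rw [← mul_assoc, ← map_mul, inv_mul_cancel, map_one, one_mul]

/-- [key S55/D-UT1] -/
theorem utw_apply_smul (hA : TrivAt π s₀ ρA) (hB : TrivAt π s₀ ρB) (σ : A →+ B) (f : Sg → A)
    (g : G) : utw ht s₀ ρA ρB σ f (π g s₀) = ρB g (σ (ρA g⁻¹ (f (π g s₀)))) := by
  rw [utw_apply, hB.eq_of_apply_eq (gsec_spec ht s₀ (π g s₀)),
    hA.inv_eq_of_apply_eq (gsec_spec ht s₀ (π g s₀))]

/-- [key S55/D-UT1] -/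
theorem isHom_utw (hA : TrivAt π s₀ ρA) (hB : TrivAt π s₀ ρB) (σ : A →+ B) :
    IsHom (Fn π ρA) (Fn π ρB) (utw ht s₀ ρA ρB σ) := by
  intro g a
  funext s
  obtain ⟨h, rfl⟩ := ht.2 s₀ s
  have e : (π g)⁻¹ (π h s₀) = π (g⁻¹ * h) s₀ := by rw [map_mul, map_inv]; rfl
  rw [utw_apply_smul ht s₀ hA hB, Fn_apply, Fn_apply, e, utw_apply_smul ht s₀ hA hB]
  have e1 : ∀ x, ρB g (ρB (g⁻¹ * h) x) = ρB h x := fun x => by
    rw [utAux_mul_apply, mul_inv_cancel_left]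
  have e2 : ∀ x, ρA (g⁻¹ * h)⁻¹ x = ρA h⁻¹ (ρA g x) := fun x => by
    rw [utAux_mul_apply, mul_inv_rev, inv_inv]
  rw [e1, e2]

/-- [key S55/D-UT1] -/
theorem utw_utw (σ : A →+ B) (τ : B →+ C) (f : Sg → A) :
    utw ht s₀ ρB ρC τ (utw ht s₀ ρA ρB σ f) = utw ht s₀ ρA ρC (τ.comp σ) f := by
  funext s
  rw [utw_apply, utw_apply, utw_apply, utAux_mul_apply ρB, inv_mul_cancel, map_one]
  rfl

/-- [key S55/D-UT1] -/
theorem utw_id (f : Sg → A) : utw ht s₀ ρA ρA (AddMonoidHom.id A) f = f := by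
  funext s
  rw [utw_apply, AddMonoidHom.id_apply, utAux_mul_apply, mul_inv_cancel, map_one]
  rfl

/-- [key S55/D-UT1] -/
theorem utw_sum {ι : Type*} (s : Finset ι) (σ : ι → A →+ B) (f : Sg → A) :
    utw ht s₀ ρA ρB (∑ k ∈ s, σ k) f = ∑ k ∈ s, utw ht s₀ ρA ρB (σ k) f := by
  funext t
  rw [utw_apply, Finset.sum_apply, AddMonoidHom.finsetSum_apply, map_sum]
  rfl

theorem TrivAt.of_setMap {Sg' : Type*} {π' : G →* Equiv.Perm Sg'} {s₀' : Sg'}
    {j : Sg' → Sg} (hj : IsSetMap π π' j) {ρ : G →* AddMonoid.End A} (h : TrivAt π (j s₀') ρ) :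
    TrivAt π' s₀' ρ := fun g hg => h g (by rw [← hj, hg])

/-- [key S55/D-UT1] compatibility with pull back -/
theorem pull_utw {Sg' : Type*} {π' : G →* Equiv.Perm Sg'} (ht' : IsTrans π') (s₀' : Sg')
    {j : Sg' → Sg} (hj : IsSetMap π π' j) (hs : j s₀' = s₀) (hA : TrivAt π s₀ ρA)
    (hB : TrivAt π s₀ ρB) (σ : A →+ B) (f : Sg → A) :
    pull B j (utw ht s₀ ρA ρB σ f) = utw ht' s₀' ρA ρB σ (pull A j f) := by
  subst hs
  funext s'
  obtain ⟨g, rfl⟩ := ht'.2 s₀' s'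
  rw [utw_apply_smul ht' s₀' (TrivAt.of_setMap hj hA) (TrivAt.of_setMap hj hB)]
  change utw ht (j s₀') ρA ρB σ f (j (π' g s₀')) = ρB g (σ (ρA g⁻¹ (f (j (π' g s₀')))))
  rw [hj, utw_apply_smul ht (j s₀') hA hB]

/-- [key S55/D-UT2] every equivariant map out of `Fn π ρ` factors through `eps` -/
theorem exists_factor_eps [Fintype Sg] {f : (Sg → A) →+ B} (hf : IsHom (Fn π ρA) ρB f) :
    ∃ F : (Sg → A) →+ (Sg → B), IsHom (Fn π ρA) (Fn π ρB) F ∧ ∀ a, eps Sg B (F a) = f a := by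
  classical
  let F : (Sg → A) →+ (Sg → B) :=
    { toFun := fun a s => f (Pi.single s (a s))
      map_zero' := by
        funext s
        simp
      map_add' := fun a b => by
        funext s
        simp [Pi.single_add] }
  have hF : ∀ a s, F a s = f (Pi.single s (a s)) := fun _ _ => rfl
  have hsingle : ∀ (g : G) (t : Sg) (x : A),
      Fn π ρA g (Pi.single t x) = Pi.single (π g t) (ρA g x) := by
    intro g t x
    funext u
    rw [Fn_apply]
    by_cases hu : u = π g t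
    · subst hu
      simp
    · have hu' : (π g)⁻¹ u ≠ t := by
        intro h
        apply hu
        rw [← h]
        simp
      rw [Pi.single_eq_of_ne hu, Pi.single_eq_of_ne hu', map_zero]
  refine ⟨F, fun g a => ?_, fun a => ?_⟩
  · funext s
    rw [hF, Fn_apply, Fn_apply, hF, ← hf, hsingle]
    simp
  · change ∑ s, F a s = f a
    simp only [hF]
    rw [← map_sum, Finset.univ_sum_single]

/-- [key S55/D-UT2] a basis and its dual basis -/
theorem exists_basis {p : ℕ} [Fact p.Prime] [Finite A] (hA : ∀ a : A, p • a = 0) :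
    ∃ (n : ℕ) (lam : Fin n → A →+ ZMod p) (a : Fin n → ZMod p →+ A),
      ∑ k, (a k).comp (lam k) = AddMonoidHom.id A := by
  classical
  obtain ⟨n, ⟨e⟩⟩ := LA.exists_equiv_fun (p := p) hA
  refine ⟨n, fun k => (Pi.evalAddMonoidHom (fun _ : Fin n => ZMod p) k).comp e.toAddMonoidHom,
    fun k => e.symm.toAddMonoidHom.comp (AddMonoidHom.single (fun _ : Fin n => ZMod p) k), ?_⟩
  ext x
  rw [AddMonoidHom.finsetSum_apply]
  change ∑ k, e.symm (Pi.single k (e x k)) = x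
  rw [← map_sum, Finset.univ_sum_single, AddEquiv.symm_apply_apply]

end Abstract

variable {p : ℕ} [Fact p.Prime] {S : Finset Nat.Primes} {A : Type} [AddCommGroup A]
  {ρ : GQ →* AddMonoid.End A} {Sg : Type} [Fintype Sg] {π : GQ →* Equiv.Perm Sg}

theorem Good.trivAt (hπ : Good S ρ p π) (s₀ : Sg) : TrivAt π s₀ ρ := fun g hg => (hπ.triv g s₀ hg).1

theorem Good.trivAtT (hπ : Good S ρ p π) (s₀ : Sg) : TrivAt π s₀ (rhoT p) := fun g hg => by
  ext a
  change ((cycloChar p g : (ZMod p)ˣ) : ZMod p) * a = a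
  rw [(hπ.triv g s₀ hg).2]
  simp

/-- a good set for `ρ` is good for `μ_p` -/
theorem Good.toT (hπ : Good S ρ p π) : Good S (rhoT p) p π :=
  ⟨hπ.smooth, hπ.trans, fun g s hg => ⟨hπ.trivAtT s g hg, (hπ.triv g s hg).2⟩⟩

/-- a set over a good set is good as soon as it is good for `μ_p` -/
theorem Good.of_setMap (hπ : Good S ρ p π) {Sg' : Type} {π' : GQ →* Equiv.Perm Sg'}
    (hπ' : Good S (rhoT p) p π') {j : Sg' → Sg} (hj : IsSetMap π π' j) : Good S ρ p π' :=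
  ⟨hπ'.smooth, hπ'.trans, fun g s hg => hπ.triv g (j s) (by rw [← hj, hg])⟩

theorem finModT (hpS : pPrime p ∈ S) : FinMod p (lvlS S) (rhoT p) :=
  finMod_rhoChi (smooth_rhoT_lvlS S hpS)

/-- [key S55/D-UT2] **(UNTW)** -/
theorem exists_untw (hM : FinMod p (lvlS S) ρ) (hπ : Good S ρ p π) :
    ∃ (n : ℕ) (θ : Fin n → (Sg → A) →+ (Sg → ZMod p)) (ι : Fin n → (Sg → ZMod p) →+ (Sg → A)),
      (∀ k, IsHom (Fn π ρ) (Fn π (rhoT p)) (θ k)) ∧ (∀ k, IsHom (Fn π (rhoT p)) (Fn π ρ) (ι k)) ∧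
        ∀ f, ∑ k, ι k (θ k f) = f := by
  have := hM.fin
  obtain ⟨n, lam, a, hla⟩ := exists_basis (p := p) hM.tors
  have ht := hπ.trans
  obtain ⟨s₀⟩ := ht.1
  refine ⟨n, fun k => utw ht s₀ ρ (rhoT p) (lam k), fun k => utw ht s₀ (rhoT p) ρ (a k),
    fun k => isHom_utw ht s₀ (hπ.trivAt s₀) (hπ.trivAtT s₀) _,
    fun k => isHom_utw ht s₀ (hπ.trivAtT s₀) (hπ.trivAt s₀) _, fun f => ?_⟩
  simp only [utw_utw]
  rw [← utw_sum, hla, utw_id]

/-- [key S55/D-UT2] `M₀ = Fn π μ_p` is a retract of its dual -/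
theorem exists_selfdual (hπ : Good S (rhoT p) p π) :
    ∃ (u : (Sg → ZMod p) →+ ((Sg → ZMod p) →+ ZMod p))
      (u' : ((Sg → ZMod p) →+ ZMod p) →+ (Sg → ZMod p)),
      IsHom (Fn π (rhoT p)) (dualRho (cycloChar p) (Fn π (rhoT p))) u ∧
        IsHom (dualRho (cycloChar p) (Fn π (rhoT p))) (Fn π (rhoT p)) u' ∧ ∀ x, u' (u x) = x := by
  classical
  have ht := hπ.trans
  obtain ⟨s₀⟩ := ht.1
  have hT : TrivAt π s₀ (rhoT p) := hπ.trivAt s₀
  have h1 : TrivAt π s₀ (rhoTriv GQ (ZMod p)) := fun _ _ => rfl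
  have hdf : ∀ a : Sg → ZMod p, dualToFn Sg p (fnToDual Sg p a) = a := by
    intro a
    funext s
    rw [dualToFn_apply, fnToDual_apply]
    simp [Pi.single_apply]
  refine ⟨(fnToDual Sg p).comp (utw ht s₀ (rhoT p) (rhoTriv GQ (ZMod p)) (AddMonoidHom.id _)),
    (utw ht s₀ (rhoTriv GQ (ZMod p)) (rhoT p) (AddMonoidHom.id _)).comp (dualToFn Sg p),
    (isHom_fnToDual (χ := cycloChar p) π).comp (isHom_utw ht s₀ hT h1 _),
    (isHom_utw ht s₀ h1 hT _).comp (isHom_dualToFn (χ := cycloChar p) π), fun x => ?_⟩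
  rw [AddMonoidHom.comp_apply, AddMonoidHom.comp_apply, hdf, utw_utw, AddMonoidHom.comp_id, utw_id]

end Fermat.Agent.S55.D
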