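import Fermat.Agent.S55.D.Local

/-!
# S55 / layer D : steps D0 and D1

* `infl1_injective` : a cocycle which is `S`-level and a coboundary is an `S`-level coboundary (definition of `B1`).
* `mem_range_infl1_iff` : `(⇒)` an `S`-level cocycle `c` satisfies `c i = c (1 * i) = c 1 = 0` on `Iq v`
  (`Iq_le_of_mem_lvlS`).  `(⇐)` `x = [c]`; `c|D_v = c_v + d0 a`, `c_v` zero on `I_v`, `I_v` acts trivially
  (`rho_Iq`), so `c i = 0` for `i ∈ Iq v`; for a conjugate `h i h⁻¹` (`exists_conj_inertia`):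
  `c (h i h⁻¹) = c h + h c i + h i c (h⁻¹) = c h + h c (h⁻¹) = c 1 = 0`; then `c (g i') = c g + g c i' = c g`
  and `LC1_lvlS_of_inertia`.
* `locFam_mem_FamG` : `c` has a level `Fix F`; if `Iq v ≤ Fix F` then `c` vanishes on `Iq v` (`finite_ramified`).
* `loc2_infl2_eq_zero` (D1) : `x = [z]`, `z` is `S`-level, so invariant under `Iq v` in both variables;
  `H2ur_eq_zero`.
-/

set_option autoImplicit false

namespace Fermat.Agent.S55.D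

open ExtCitation

variable {A : Type*} [AddCommGroup A] (S : Finset Nat.Primes) (ρ : GQ →* AddMonoid.End A)

/-! ### auxiliary lemmas (helper27) -/

section Aux

variable {S ρ}

theorem Z1_one_aux {G : Type*} [Group G] {𝓛 : Lvl G} {X : Type*} [AddCommGroup X]
    {r : G →* AddMonoid.End X} (e : ↥(Z1 𝓛 r)) : (e : G → X) 1 = 0 := by
  have h := e.2.2 1 1
  rw [mul_one, map_one] at h
  simpa using h

theorem LC1_res_aux {X : Type*} {c : GQ → X} (hc : LC1 lvlQ c) (v : Nat.Primes) :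
    LC1 (lvlD v) (fun g : ↥(Dq v) => c g) :=
  LC1.pp (LvlMap.comap lvlQ (Dq v).subtype) hc id

theorem LC1_lvlQ_of_lvlS_aux {X : Type*} {c : GQ → X} (hc : LC1 (lvlS S) c) : LC1 lvlQ c := by
  obtain ⟨U, hU, h⟩ := hc
  exact ⟨U, lvlS_sets_subset S hU, h⟩

theorem smooth_lvlQ_aux (hρ : Smooth (lvlS S) ρ) : Smooth lvlQ ρ := fun a => by
  obtain ⟨U, hU, h⟩ := hρ a
  exact ⟨U, lvlS_sets_subset S hU, h⟩

theorem infl2_mk_aux (z : ↥(Z2 (lvlS S) ρ)) :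
    infl2 S ρ (H2.mk _ _ z) = 0 ↔ (z : GQ → GQ → A) ∈ B2 lvlQ ρ := by
  have h : infl2 S ρ (H2.mk _ _ z) = H2.mk lvlQ ρ
      (Z2map (φ := AddMonoidHom.id A) (lvlMap_infl S) (fun _ _ => rfl) z) := rfl
  rw [h, H2.mk_eq_zero_iff]
  rfl

theorem infl1_mk_aux (c : ↥(Z1 (lvlS S) ρ)) :
    infl1 S ρ (H1.mk _ _ c) = H1.mk lvlQ ρ
      (Z1map (φ := AddMonoidHom.id A) (lvlMap_infl S) (fun _ _ => rfl) c) := rfl

theorem Iq_le_Dq_aux (q : Nat.Primes) : Iq q ≤ Dq q := by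
  intro i hi
  obtain ⟨g, -, rfl⟩ := Subgroup.mem_map.mp hi
  exact g.2

/-- restriction of global cocycles to `D_v` -/
noncomputable def resZ1 (ρ : GQ →* AddMonoid.End A) (v : Nat.Primes) :
    ↥(Z1 lvlQ ρ) →+ ↥(Z1 (lvlD v) (rv Dq ρ v)) :=
  Z1map (LvlMap.comap lvlQ (Dq v).subtype) (isHomAlong_res ρ (Dq v).subtype)

theorem resZ1_apply (v : Nat.Primes) (y : ↥(Z1 lvlQ ρ)) (g : ↥(Dq v)) :
    (resZ1 ρ v y : ↥(Dq v) → A) g = (y : GQ → A) g := rfl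

theorem loc1_mk_aux (v : Nat.Primes) (y : ↥(Z1 lvlQ ρ)) :
    loc1 ρ v (H1.mk _ _ y) = H1.mk _ _ (resZ1 ρ v y) := rfl

/-- the restriction of an `S`-level 2-cocycle to `D_v`, `v ∉ S`, is a coboundary of an unramified cochain -/
theorem exists_b_aux [Finite A] (hρ : Smooth (lvlS S) ρ) (z : ↥(Z2 (lvlS S) ρ)) {v : Nat.Primes}
    (hv : v ∉ S) : ∃ b : ↥(Dq v) → A, LC1 (lvlD v) b ∧ (∀ g, ∀ i ∈ IqD v, b (g * i) = b g) ∧
      (fun g h : ↥(Dq v) => (z : GQ → GQ → A) g h) = d1 (rv Dq ρ v) b := by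
  have hL : LvlMap (lvlS S) (lvlD v) (Dq v).subtype := fun U hU =>
    ⟨_, ⟨U, lvlS_sets_subset S hU, rfl⟩, le_rfl⟩
  have hzv : (fun g h : ↥(Dq v) => (z : GQ → GQ → A) g h) ∈ Z2 (lvlD v) (rv Dq ρ v) :=
    pp2_mem_Z2 hL (isHomAlong_res ρ (Dq v).subtype) z.2
  obtain ⟨U, hU, hzU⟩ := z.2.1
  exact H2ur_eq_zero v (rv Dq ρ v) (Smooth.res _ (smooth_lvlQ_aux hρ) (Dq v).subtype)
    (fun i hi => rho_Iq hρ hv i hi) _ hzv
    (fun g h i hi i' hi' => hzU g h i (Iq_le_of_mem_lvlS hU hv hi) i' (Iq_le_of_mem_lvlS hU hv hi'))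

end Aux

/-- [key S55/D-0] -/
theorem infl1_injective : Function.Injective (infl1 S ρ) := by
  rw [injective_iff_map_eq_zero]
  intro x hx
  obtain ⟨c, rfl⟩ := H1.mk_surjective _ _ x
  rw [infl1_mk_aux, H1.mk_eq_zero_iff] at hx
  rw [H1.mk_eq_zero_iff]
  exact ⟨c.2.1, hx.2⟩

/-- [key S55/D-0] -/
theorem mem_range_infl1_iff (hρ : Smooth (lvlS S) ρ) (x : H1 lvlQ ρ) :
    (∃ y, infl1 S ρ y = x) ↔ ∀ v ∉ S, loc1 ρ v x ∈ H1ur v (rv Dq ρ v) := by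
  constructor
  · rintro ⟨y, rfl⟩ v hv
    obtain ⟨c, rfl⟩ := H1.mk_surjective _ _ y
    rw [infl1_mk_aux, loc1_mk_aux]
    refine ⟨_, rfl, fun i hi => ?_⟩
    obtain ⟨U, hU, hc⟩ := c.2.1
    have h1 := hc 1 (i : GQ) (Iq_le_of_mem_lvlS hU hv hi)
    rw [one_mul, Z1_one_aux c] at h1
    exact h1
  · intro h
    obtain ⟨c, rfl⟩ := H1.mk_surjective _ _ x
    have hcI : ∀ q : Nat.Primes, q ∉ S → ∀ i ∈ Iq q, (c : GQ → A) i = 0 := by
      intro q hq i hi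
      obtain ⟨cv, hcv, hcvI⟩ := h q hq
      rw [loc1_mk_aux, ← sub_eq_zero, ← map_sub, H1.mk_eq_zero_iff] at hcv
      obtain ⟨-, a, ha⟩ := hcv
      have hiD : i ∈ Dq q := Iq_le_Dq_aux q hi
      have e1 := congrFun ha ⟨i, hiD⟩
      have e4 : rv Dq ρ q ⟨i, hiD⟩ = 1 := rho_Iq hρ hq i hi
      rw [AddSubgroup.coe_sub, Pi.sub_apply, hcvI ⟨i, hiD⟩ hi, resZ1_apply, d0_apply, e4] at e1
      simpa using e1
    have hall : ∀ q : Nat.Primes, q ∉ S → ∀ B : ValuationSubring Qb, B.LiesOverPrime (q : ℕ) →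
        ∀ i ∈ B.inertiaSubgroupIn ℚ, ∀ g, (c : GQ → A) (g * i) = (c : GQ → A) g := by
      intro q hq B hB i hi g
      obtain ⟨h, hh⟩ := exists_conj_inertia q B hB
      obtain ⟨i₀, hi₀, rfl⟩ := hh i hi
      have h2 : (c : GQ → A) (h * i₀ * h⁻¹) = 0 := by
        rw [mul_assoc, c.2.2 h, c.2.2 i₀, hcI q hq i₀ hi₀, add_zero, rho_Iq hρ hq i₀ hi₀]
        have := c.2.2 h h⁻¹
        rw [mul_inv_cancel, Z1_one_aux c] at this
        exact this.symm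
      rw [c.2.2 g, h2, map_zero, zero_add]
    have hcS := LC1_lvlS_of_inertia S _ c.2.1 hall
    exact ⟨H1.mk _ _ ⟨c, hcS, c.2.2⟩, rfl⟩

/-- [key S55/D-0] -/
theorem locFam_mem_FamG (x : H1 lvlQ ρ) : locFam ρ x ∈ FamG S ρ := by
  obtain ⟨c, rfl⟩ := H1.mk_surjective _ _ x
  obtain ⟨U, ⟨F, hF, rfl⟩, hc⟩ := c.2.1
  refine (finite_ramified F hF).subset ?_
  rintro v ⟨-, hnv⟩ hle
  apply hnv
  rw [locFam_apply, loc1_mk_aux]
  refine ⟨_, rfl, fun i hi => ?_⟩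
  have h1 := hc 1 (i : GQ) (hle hi)
  rw [one_mul, Z1_one_aux c] at h1
  exact h1

theorem UrG_le_FamG : UrG S ρ ≤ FamG S ρ := by
  intro n hn
  refine Set.Finite.subset Set.finite_empty ?_
  rintro v ⟨hv, h⟩
  exact h (hn v hv)

theorem GlobG_le_FamG : GlobG S ρ ≤ FamG S ρ := by
  rw [GlobG, sup_le_iff]
  refine ⟨?_, UrG_le_FamG S ρ⟩
  rintro _ ⟨x, rfl⟩
  exact locFam_mem_FamG S ρ x

/-- [key S55/D-1] **D1** -/
theorem loc2_infl2_eq_zero [Finite A] (hρ : Smooth (lvlS S) ρ) (x : H2 (lvlS S) ρ)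
    (v : Nat.Primes) (hv : v ∉ S) : loc2 ρ v (infl2 S ρ x) = 0 := by
  obtain ⟨z, rfl⟩ := H2.mk_surjective _ _ x
  obtain ⟨b, hb, -, hzb⟩ := exists_b_aux hρ z hv
  have hL : LvlMap (lvlS S) (lvlD v) (Dq v).subtype := fun U hU =>
    ⟨_, ⟨U, lvlS_sets_subset S hU, rfl⟩, le_rfl⟩
  have h : loc2 ρ v (infl2 S ρ (H2.mk _ _ z)) = H2.mk (lvlD v) (rv Dq ρ v)
      (Z2map hL (isHomAlong_res ρ (Dq v).subtype) z) := rfl
  rw [h, H2.mk_eq_zero_iff]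
  exact ⟨b, hb, hzb⟩

theorem KK_le_Sha2S : KK S ρ ≤ Sha2S S ρ := by
  intro x hx q _
  rw [(mem_KK S ρ).1 hx, map_zero]

theorem infl2_mem_ShaA2 [Finite A] (hρ : Smooth (lvlS S) ρ) (x : H2 (lvlS S) ρ)
    (hx : x ∈ Sha2S S ρ) : infl2 S ρ x ∈ ShaA2 lvlQ Dq ρ := by
  intro v
  by_cases hv : v ∈ S
  · exact hx v hv
  · exact loc2_infl2_eq_zero S ρ hρ x v hv

/-- functoriality of unramified classes [key S55/D-0] -/
theorem H1c_mem_H1ur (v : Nat.Primes) {X Y : Type*} [AddCommGroup X] [AddCommGroup Y]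
    {ρX : ↥(Dq v) →* AddMonoid.End X} {ρY : ↥(Dq v) →* AddMonoid.End Y} {f : X →+ Y}
    (hf : IsHom ρX ρY f) {x : H1 (lvlD v) ρX} (hx : x ∈ H1ur v ρX) :
    H1c (lvlD v) hf x ∈ H1ur v ρY := by
  obtain ⟨c, rfl, hc⟩ := hx
  refine ⟨Z1map (LvlMap.id _) hf.along c, rfl, fun i hi => ?_⟩
  rw [coe_Z1map, pp1_apply, MonoidHom.id_apply, hc i hi, map_zero]

/-- injective coefficient maps reflect unramifiedness (if inertia acts trivially on the target)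
[key S55/D-0; `f ∘ e = c + d0 y`, `c` zero on `I_v`, `(i - 1) y = 0`, so `f (e i) = 0`, `e i = 0`] -/
theorem mem_H1ur_of_H1c (v : Nat.Primes) {X Y : Type*} [AddCommGroup X] [AddCommGroup Y]
    {ρX : ↥(Dq v) →* AddMonoid.End X} {ρY : ↥(Dq v) →* AddMonoid.End Y} {f : X →+ Y}
    (hf : IsHom ρX ρY f) (hinj : Function.Injective f) (hI : ∀ i ∈ IqD v, ρY i = 1)
    {x : H1 (lvlD v) ρX} (hx : H1c (lvlD v) hf x ∈ H1ur v ρY) : x ∈ H1ur v ρX := by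
  obtain ⟨e, rfl⟩ := H1.mk_surjective _ _ x
  obtain ⟨c, hc, hcI⟩ := hx
  have h : H1c (lvlD v) hf (H1.mk _ _ e) = H1.mk _ _ (Z1map (LvlMap.id _) hf.along e) := rfl
  rw [h, ← sub_eq_zero, ← map_sub, H1.mk_eq_zero_iff] at hc
  obtain ⟨-, y, hy⟩ := hc
  refine ⟨e, rfl, fun i hi => hinj ?_⟩
  have e1 := congrFun hy i
  rw [AddSubgroup.coe_sub, Pi.sub_apply, hcI i hi, coe_Z1map, pp1_apply, MonoidHom.id_apply,
    d0_apply, hI i hi] at e1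
  rw [map_zero]
  simpa using e1

variable {S ρ}

/-- functoriality of the three groups of families [key S55/D-0] -/
theorem famMap_mem_FamG {B : Type*} [AddCommGroup B] {ρB : GQ →* AddMonoid.End B} {f : A →+ B}
    (hf : IsHom ρ ρB f) {n : Fam ρ} (hn : n ∈ FamG S ρ) : famMap hf n ∈ FamG S ρB := by
  refine Set.Finite.subset hn ?_
  rintro v ⟨hv, h⟩
  exact ⟨hv, fun h1 => h (H1c_mem_H1ur v (hf.res (Dq v).subtype) h1)⟩

theorem famMap_mem_UrG {B : Type*} [AddCommGroup B] {ρB : GQ →* AddMonoid.End B} {f : A →+ B}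
    (hf : IsHom ρ ρB f) {n : Fam ρ} (hn : n ∈ UrG S ρ) : famMap hf n ∈ UrG S ρB :=
  fun v hv => H1c_mem_H1ur v (hf.res (Dq v).subtype) (hn v hv)

/-- [key S55/D-0; `res1_H1c`] -/
theorem famMap_mem_GlobG {B : Type*} [AddCommGroup B] {ρB : GQ →* AddMonoid.End B} {f : A →+ B}
    (hf : IsHom ρ ρB f) {n : Fam ρ} (hn : n ∈ GlobG S ρ) : famMap hf n ∈ GlobG S ρB := by
  obtain ⟨x, hx⟩ := (mem_GlobG S ρ).1 hn
  rw [mem_GlobG]
  refine ⟨H1c lvlQ hf x, fun v hv => ?_⟩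
  have h1 := H1c_mem_H1ur v (hf.res (Dq v).subtype) (hx v hv)
  rw [map_sub] at h1
  have h2 : loc1 ρB v (H1c lvlQ hf x) = H1c (lvlD v) (hf.res (Dq v).subtype) (loc1 ρ v x) :=
    res1_H1c lvlQ (Dq v).subtype hf x
  rw [famMap_apply, h2]
  exact h1

end Fermat.Agent.S55.D
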